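/-
Project MAZUR (S15), node (F2)-inst, cell (i) (helper17): THE ELEMENT `c`.
The prelude's `complexConjugation : G_ℚ` satisfies everything the (F2) count and the `r = 2`
archimedean leaf ask of `c`:

* `mzf2cc_mul_self`   : `c * c = 1`;
* `mzf2cc_cyc`        : `dspk_cyc n c = -1` in `ZMod n` (every `n ≠ 0`) — the hypothesis `hχc` of
  `mzf2_cnt_series` / `mzf2_half_of_sq` / `mzf2i_half`;
* `mzf2cc_isConj`     : `complexEmbedding (c z) = conj (complexEmbedding z)` — the hypothesis `hc` of
  `mzq_mu_leaf_real` (with `ι := complexEmbedding`), and `mzf2_IsConj c` is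
  `mzf2_isConj_complexConjugation` (ConjPic.lean);
* `mzf2cc_smul_smul`  : `c • c • x = x` for every action of `G_ℚ`.
Prefix `mzf2cc_`.
-/
import Mathlib
import Fermat.Agent.DS.Pack.CycloMod
import Fermat.Agent.JT3.Algebra.CycloAdic
import Fermat.Prelude.Def_GaloisRep_ComplexConjugation

set_option autoImplicit false

namespace Fermat.Agent.MZ

open Fermat.Agent.DS Fermat.Agent.JT3

local notation "GQ" => (AlgebraicClosure ℚ ≃ₐ[ℚ] AlgebraicClosure ℚ)

/-- `c * c = 1`. -/
theorem mzf2cc_mul_self : (complexConjugation : GQ) * complexConjugation = 1 :=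
  complexConjugation_mul_self

/-- `c • c • x = x` for every action of `G_ℚ`. -/
theorem mzf2cc_smul_smul {X : Type*} [MulAction GQ X] (x : X) :
    (complexConjugation : GQ) • (complexConjugation : GQ) • x = x := by
  rw [smul_smul, complexConjugation_mul_self, one_smul]

/-- **The cyclotomic character of complex conjugation is `-1`** (mod every `n ≠ 0`). -/
theorem mzf2cc_cyc (n : ℕ) [NeZero n] :
    ((dspk_cyc n complexConjugation : (ZMod n)ˣ) : ZMod n) = -1 := by
  have hn : n ≠ 0 := NeZero.ne n
  have h := dspk_cyc_eq_of n complexConjugation (n - 1) (fun μ hμ => by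
    rw [cya_complexConjugation_rootsOfUnity hn hμ]
    have h1 : μ * μ ^ (n - 1) = 1 := by
      rw [← pow_succ', Nat.sub_add_cancel (Nat.one_le_iff_ne_zero.2 hn), hμ]
    exact inv_eq_of_mul_eq_one_right h1)
  rw [h, Nat.cast_sub (Nat.one_le_iff_ne_zero.2 hn), ZMod.natCast_self, Nat.cast_one, zero_sub]

/-- Complex conjugation is the complex conjugation through the fixed embedding `ℚ̄ → ℂ`. -/
theorem mzf2cc_isConj (z : AlgebraicClosure ℚ) :
    complexEmbedding (complexConjugation z) = starRingEnd ℂ (complexEmbedding z) :=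
  complexEmbedding_complexConjugation z

/-- The same through the underlying ring homomorphism (shape of `mzq_mu_leaf_real`). -/
theorem mzf2cc_isConj_ringHom (z : AlgebraicClosure ℚ) :
    (complexEmbedding : AlgebraicClosure ℚ →ₐ[ℚ] ℂ).toRingHom (complexConjugation z) =
      starRingEnd ℂ ((complexEmbedding : AlgebraicClosure ℚ →ₐ[ℚ] ℂ).toRingHom z) :=
  complexEmbedding_complexConjugation z

end Fermat.Agent.MZ
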