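/-
MAZUR project, node (F2), cell [BAL] (helper20).  Prefix `mzf2_`.

THE BALANCE: `trace(ψ ↦ ψ ∘ t ∘ ι_H | Hom(H, A)) = 0` for every endomorphism `t` of
`H = Γ₀(N)^ab/(par, ell)` compatible with an endomorphism of `S₂(Γ₀(N))` (`t2f_Compat t τ`: all the
elements of the Hecke ring `ℤ[T_H ℓ]`), `ι_H` = helper28's `mzf2_iotaH` (induced by `γ ↦ JγJ`), and every
domain `A` of characteristic zero (`A = ℤ_[r]`: the lattice model of the Tate module).

Proof.  (1) [generic] for a finitely generated abelian group `G`, `Hom(G, A)` has the `A`-basis dual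
to a `ℤ`-basis of `G / torsion`, and the trace of `ψ ↦ ψ ∘ s` is the image in `A` of an INTEGER which
does not depend on `A` (`mzf2_trace_pre_exists`).  (2) For `A = ℂ`: under the Eichler–Shimura
isomorphism (S21 in the prelude's form) `(f, g) ↦ (1 + ι) P_f + (1 - ι) P_g`, precomposition with `t`
is `(f, g) ↦ (τ f, τ g)` and precomposition with `ι_H` is `(f, g) ↦ (f, -g)`, so the trace is
`tr τ - tr τ = 0`.
-/
import Mathlib
import Fermat.Agent.JT3.T2.Faithful
import Fermat.Agent.MZ.F2.IotaH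

set_option autoImplicit false
set_option linter.unusedSectionVars false
set_option linter.style.haveILetI false

noncomputable section

open CongruenceSubgroup ModularCurve ModularCurve.Period
open Fermat.Agent.S21
open scoped MatrixGroups

namespace Fermat.Agent.MZ

open Fermat.Agent.JT3

/-! ### Precomposition on `Hom(G, A)` -/

section generic

variable {G : Type*} [AddCommGroup G]

/-- precomposition with `s`, as an `A`-linear endomorphism of `Hom(G, A)` -/
def mzf2_pre (A : Type*) [CommRing A] (s : G →+ G) : Module.End A (G →+ A) where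
  toFun ψ := ψ.comp s
  map_add' _ _ := rfl
  map_smul' _ _ := rfl

@[simp] theorem mzf2_pre_apply (A : Type*) [CommRing A] (s : G →+ G) (ψ : G →+ A) :
    mzf2_pre A s ψ = ψ.comp s := rfl

theorem mzf2_pre_comp (A : Type*) [CommRing A] (s₁ s₂ : G →+ G) :
    mzf2_pre A (s₁.comp s₂) = mzf2_pre A s₂ * mzf2_pre A s₁ := rfl

theorem mzf2_pre_id (A : Type*) [CommRing A] : mzf2_pre A (AddMonoidHom.id G) = 1 := rfl

/-- **the trace of `ψ ↦ ψ ∘ s` on `Hom(G, A)` is an integer independent of `A`** -/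
theorem mzf2_trace_pre_exists [AddGroup.FG G] (s : G →+ G) :
    ∃ c : ℤ, ∀ (A : Type) [CommRing A] [IsDomain A] [CharZero A],
      LinearMap.trace A (G →+ A) (mzf2_pre A s) = (c : A) := by
  classical
  obtain ⟨Y, _, _, ⟨e⟩⟩ := gh_exists_equiv G
  set n := Module.finrank ℤ G
  -- the generators and the coordinates
  let g : Fin n → G := fun i => e.symm (Pi.single i 1, 0)
  let π : Fin n → (G →+ ℤ) := fun i =>
    (Pi.evalAddMonoidHom (fun _ : Fin n => ℤ) i).comp ((AddMonoidHom.fst _ _).comp e.toAddMonoidHom)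
  have hπ : ∀ (i : Fin n) (x : G), π i x = (e x).1 i := fun _ _ => rfl
  have hπg : ∀ i j : Fin n, π i (g j) = if i = j then 1 else 0 := by
    intro i j
    rw [hπ]
    show (e (e.symm (Pi.single j 1, 0))).1 i = _
    rw [AddEquiv.apply_symm_apply]
    show (Pi.single j (1 : ℤ) : Fin n → ℤ) i = _
    rw [Pi.single_apply]
  refine ⟨∑ i, π i (s (g i)), ?_⟩
  intro A _ _ _
  -- torsion is killed by every hom to `A`
  have hY : 0 < Nat.card Y := Nat.card_pos
  have htors : ∀ (ψ : G →+ A) (x : G), (e x).1 = 0 → ψ x = 0 := by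
    intro ψ x hx
    have h1 : Nat.card Y • x = 0 := by
      apply e.injective
      rw [map_nsmul, map_zero]
      refine Prod.ext ?_ ?_
      · rw [Prod.smul_fst, hx, smul_zero]
        rfl
      · rw [Prod.smul_snd]
        exact card_nsmul_eq_zero'
    have h2 : (Nat.card Y : A) * ψ x = 0 := by
      rw [← nsmul_eq_mul, ← map_nsmul, h1, map_zero]
    rcases mul_eq_zero.mp h2 with h3 | h3
    · exact absurd h3 (Nat.cast_ne_zero.mpr hY.ne')
    · exact h3
  -- the decomposition of `x`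
  have hdecomp : ∀ (ψ : G →+ A) (x : G), ψ x = ∑ i, π i x • ψ (g i) := by
    intro ψ x
    have h1 : (e (x - ∑ i, π i x • g i)).1 = 0 := by
      rw [map_sub, map_sum, Prod.fst_sub, Prod.fst_sum]
      funext j
      rw [Pi.sub_apply, Finset.sum_apply, Pi.zero_apply, sub_eq_zero]
      have h2 : ∀ i : Fin n, (e (π i x • g i)).1 j = if j = i then π i x else 0 := by
        intro i
        rw [map_zsmul, Prod.smul_fst, Pi.smul_apply]
        show π i x • (e (e.symm (Pi.single i 1, 0))).1 j = _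
        rw [AddEquiv.apply_symm_apply]
        show π i x • (Pi.single i (1 : ℤ) : Fin n → ℤ) j = _
        rw [Pi.single_apply]
        split_ifs <;> simp
      rw [Finset.sum_congr rfl fun i _ => h2 i, Finset.sum_ite_eq Finset.univ j,
        if_pos (Finset.mem_univ j)]
      rfl
    have h3 := htors ψ _ h1
    rw [map_sub, sub_eq_zero] at h3
    rw [h3, map_sum]
    exact Finset.sum_congr rfl fun i _ => map_zsmul ψ _ _
  -- the evaluation isomorphism
  let inv : (Fin n → A) → (G →+ A) := fun a => ∑ i, ((zmultiplesHom A (a i)).comp (π i))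
  have hinv : ∀ (a : Fin n → A) (x : G), inv a x = ∑ i, π i x • a i := by
    intro a x
    show (∑ i, ((zmultiplesHom A (a i)).comp (π i))) x = _
    rw [AddMonoidHom.finsetSum_apply]
    rfl
  have hinvg : ∀ (a : Fin n → A) (j : Fin n), inv a (g j) = a j := by
    intro a j
    rw [hinv]
    have : ∀ i : Fin n, π i (g j) • a i = if i = j then a i else 0 := by
      intro i
      rw [hπg]
      split_ifs <;> simp
    rw [Finset.sum_congr rfl fun i _ => this i, Finset.sum_ite_eq' Finset.univ j,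
      if_pos (Finset.mem_univ j)]
  let E : (G →+ A) ≃ₗ[A] (Fin n → A) :=
    { toFun := fun ψ i => ψ (g i)
      map_add' := fun _ _ => rfl
      map_smul' := fun _ _ => rfl
      invFun := inv
      left_inv := fun ψ => by
        refine AddMonoidHom.ext fun x => ?_
        rw [hinv, hdecomp ψ x]
      right_inv := fun a => by
        funext j
        exact hinvg a j }
  let b : Module.Basis (Fin n) A (G →+ A) := Module.Basis.ofEquivFun E
  rw [LinearMap.trace_eq_matrix_trace A b, Matrix.trace]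
  push_cast
  refine Finset.sum_congr rfl fun i _ => ?_
  rw [Matrix.diag_apply, LinearMap.toMatrix_apply, Module.Basis.ofEquivFun_repr_apply]
  show (mzf2_pre A s (b i)) (g i) = _
  rw [mzf2_pre_apply, AddMonoidHom.comp_apply]
  have hb : b i = inv (Pi.single i 1) := by
    show (Module.Basis.ofEquivFun E) i = _
    rw [Module.Basis.coe_ofEquivFun]
    rfl
  rw [hb, hinv]
  have : ∀ k : Fin n, π k (s (g i)) • (Pi.single i (1 : A) : Fin n → A) k =
      if k = i then ((π i (s (g i)) : ℤ) : A) else 0 := by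
    intro k
    rw [Pi.single_apply]
    split_ifs with h
    · subst h
      rw [zsmul_eq_mul, mul_one]
    · rw [smul_zero]
  rw [Finset.sum_congr rfl fun k _ => this k, Finset.sum_ite_eq' Finset.univ i,
    if_pos (Finset.mem_univ i)]

end generic

/-! ### The Eichler–Shimura side -/

section ES

variable (N : ℕ) [NeZero N]

/-- `ι` on period pairs is `(f, g) ↦ (f, -g)` -/
theorem mzf2_charInvolution_pair (f g : CuspForm (Gamma0 N) 2) :
    charInvolution N ℂ ℂ (periodHomPair N (f, g)) = periodHomPair N (f, -g) := by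
  obtain ⟨pml, -, hdef⟩ := periodHomPair_def N (s21_existsPeriodMapLinear N)
  rw [hdef]
  simp only [LinearMap.coprod_apply, LinearMap.comp_apply, LinearMap.add_apply,
    LinearMap.sub_apply, LinearMap.id_apply, map_add, map_sub, map_neg,
    charInvolution_charInvolution]
  abel

/-- the Eichler–Shimura isomorphism `S₂ × S₂ ≃ Hom(H, ℂ)` -/
def mzf2_ES : (CuspForm (Gamma0 N) 2 × CuspForm (Gamma0 N) 2) ≃ₗ[ℂ] (gh_H N →+ ℂ) :=
  (LinearEquiv.ofInjective (periodHomPair N) (Fermat.Agent.S20.gl_s21 N).1) ≪≫ₗ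
    (LinearEquiv.ofEq _ _ (((Fermat.Agent.S20.gl_s21 N).2).trans (gh_range_pullC (N := N)).symm)) ≪≫ₗ
      (LinearEquiv.ofInjective (gh_pullC N) gh_pullC_injective).symm

theorem mzf2_ES_comp_mk (x : CuspForm (Gamma0 N) 2 × CuspForm (Gamma0 N) 2) :
    (mzf2_ES N x).comp (gh_mk N) = periodHomPair N x := by
  have h : gh_pullC N (mzf2_ES N x) = periodHomPair N x := by
    unfold mzf2_ES
    rw [LinearEquiv.trans_apply, LinearEquiv.trans_apply]
    have := LinearEquiv.apply_symm_apply (LinearEquiv.ofInjective (gh_pullC N) gh_pullC_injective)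
      ((LinearEquiv.ofEq _ _ (((Fermat.Agent.S20.gl_s21 N).2).trans
        (gh_range_pullC (N := N)).symm)) ((LinearEquiv.ofInjective (periodHomPair N)
          (Fermat.Agent.S20.gl_s21 N).1) x))
    have h2 := congrArg Subtype.val this
    rw [LinearEquiv.ofInjective_apply] at h2
    exact h2
  exact h

/-- precomposition with `t ∘ ι_H` in Eichler–Shimura coordinates -/
theorem mzf2_pre_ES {t : Module.End ℤ (gh_H N)} {τ : Module.End ℂ (CuspForm (Gamma0 N) 2)}
    (h : t2f_Compat t τ) (x : CuspForm (Gamma0 N) 2 × CuspForm (Gamma0 N) 2) :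
    mzf2_pre ℂ (t.toAddMonoidHom.comp (mzf2_iotaH N)) (mzf2_ES N x) =
      mzf2_ES N (LinearMap.prodMap τ (-τ) x) := by
  obtain ⟨f, g⟩ := x
  apply gh_pullC_injective (N := N)
  show ((mzf2_ES N (f, g)).comp (t.toAddMonoidHom.comp (mzf2_iotaH N))).comp (gh_mk N) =
    (mzf2_ES N (LinearMap.prodMap τ (-τ) (f, g))).comp (gh_mk N)
  rw [mzf2_ES_comp_mk, LinearMap.prodMap_apply, LinearMap.neg_apply, ← mzf2_charInvolution_pair,
    ← h (mzf2_ES N (f, g)) f g (mzf2_ES_comp_mk N (f, g))]
  exact mzf2_iotaDual_comp_mk N ℂ ((mzf2_ES N (f, g)).comp t.toAddMonoidHom)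

/-- the complex trace vanishes -/
theorem mzf2_bal_complex {t : Module.End ℤ (gh_H N)} {τ : Module.End ℂ (CuspForm (Gamma0 N) 2)}
    (h : t2f_Compat t τ) :
    LinearMap.trace ℂ (gh_H N →+ ℂ) (mzf2_pre ℂ (t.toAddMonoidHom.comp (mzf2_iotaH N))) = 0 := by
  haveI := Fermat.Agent.S20.gl_finiteDimensional_cuspForm N
  have hconj : mzf2_pre ℂ (t.toAddMonoidHom.comp (mzf2_iotaH N)) =
      (mzf2_ES N).conj (LinearMap.prodMap τ (-τ)) := by
    refine LinearMap.ext fun ψ => ?_
    obtain ⟨x, rfl⟩ := (mzf2_ES N).surjective ψ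
    rw [mzf2_pre_ES N h, LinearEquiv.conj_apply, LinearMap.comp_apply, LinearMap.comp_apply,
      LinearEquiv.coe_coe, LinearEquiv.coe_coe, LinearEquiv.symm_apply_apply]
  rw [hconj, LinearMap.trace_conj', LinearMap.trace_prodMap', map_neg, add_neg_cancel]

/-- **[BAL]**: `trace(ψ ↦ ψ ∘ t ∘ ι_H | Hom(H, A)) = 0` for every `t` compatible with an
endomorphism of `S₂(Γ₀(N))` and every domain `A` of characteristic zero. -/
theorem mzf2_bal {t : Module.End ℤ (gh_H N)} {τ : Module.End ℂ (CuspForm (Gamma0 N) 2)}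
    (h : t2f_Compat t τ) (A : Type) [CommRing A] [IsDomain A] [CharZero A] :
    LinearMap.trace A (gh_H N →+ A) (mzf2_pre A (t.toAddMonoidHom.comp (mzf2_iotaH N))) = 0 := by
  obtain ⟨c, hc⟩ := mzf2_trace_pre_exists (t.toAddMonoidHom.comp (mzf2_iotaH N))
  have h0 : (c : ℂ) = 0 := by rw [← hc ℂ, mzf2_bal_complex N h]
  have hc0 : c = 0 := by exact_mod_cast h0
  rw [hc A, hc0, Int.cast_zero]

/-- `[BAL]` in product form: `trace(ι* ∘ t*) = 0` -/
theorem mzf2_bal_mul {t : Module.End ℤ (gh_H N)} {τ : Module.End ℂ (CuspForm (Gamma0 N) 2)}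
    (h : t2f_Compat t τ) (A : Type) [CommRing A] [IsDomain A] [CharZero A] :
    LinearMap.trace A (gh_H N →+ A)
      (mzf2_pre A (mzf2_iotaH N) * mzf2_pre A t.toAddMonoidHom) = 0 := by
  rw [← mzf2_pre_comp]
  exact mzf2_bal N h A

/-- `[BAL]` in product form: `trace(t* ∘ ι*) = 0` -/
theorem mzf2_bal_mul' {t : Module.End ℤ (gh_H N)} {τ : Module.End ℂ (CuspForm (Gamma0 N) 2)}
    (h : t2f_Compat t τ) (A : Type) [CommRing A] [IsDomain A] [CharZero A] :
    LinearMap.trace A (gh_H N →+ A)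
      (mzf2_pre A t.toAddMonoidHom * mzf2_pre A (mzf2_iotaH N)) = 0 := by
  rw [LinearMap.trace_mul_comm]
  exact mzf2_bal_mul N h A

/-- every element of the Hecke ring `ℤ[T_H ℓ : ℓ good]` is compatible with an endomorphism of
`S₂(Γ₀(N))` -/
theorem mzf2_compat_of_mem_adjoin (S : Set ℕ) {t : Module.End ℤ (gh_H N)}
    (ht : t ∈ Algebra.adjoin ℤ (t2f_heckeSet N S)) :
    ∃ τ : Module.End ℂ (CuspForm (Gamma0 N) 2), t2f_Compat t τ := by
  induction ht using Algebra.adjoin_induction with
  | mem x hx =>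
    obtain ⟨ℓ, hℓ, rfl⟩ := t2f_mem_heckeSet_iff.mp hx
    exact ⟨_, t2f_compat_TH hℓ.1 hℓ.2.1⟩
  | algebraMap n => exact ⟨_, t2f_compat_algebraMap n⟩
  | add x y _ _ hx hy =>
    obtain ⟨τ, hτ⟩ := hx
    obtain ⟨τ', hτ'⟩ := hy
    exact ⟨_, t2f_compat_add hτ hτ'⟩
  | mul x y _ _ hx hy =>
    obtain ⟨τ, hτ⟩ := hx
    obtain ⟨τ', hτ'⟩ := hy
    exact ⟨_, t2f_compat_mul hτ hτ'⟩

/-- **[BAL] for the Hecke ring** -/
theorem mzf2_bal_hecke (S : Set ℕ) {t : Module.End ℤ (gh_H N)}
    (ht : t ∈ Algebra.adjoin ℤ (t2f_heckeSet N S)) (A : Type) [CommRing A] [IsDomain A]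
    [CharZero A] :
    LinearMap.trace A (gh_H N →+ A)
      (mzf2_pre A (mzf2_iotaH N) * mzf2_pre A t.toAddMonoidHom) = 0 := by
  obtain ⟨τ, hτ⟩ := mzf2_compat_of_mem_adjoin N S ht
  exact mzf2_bal_mul N hτ A

end ES

end Fermat.Agent.MZ
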