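/-
MAZUR / (F2) / [CONJ] (helper28, prefix `mzf2_`): the involution `ι_H` of
`H = Γ₀(N)^ab/(par, ell)` induced by `γ ↦ J γ J`, `J = diag(1, -1)` (the prelude's `jConjGamma0`).
Under `tjp_lattice : T_p J₀(N) ≃ Hom(H, ℤ_p)` complex conjugation is `ψ ↦ -(ψ ∘ ι_H)`
(`mzf2_conj_lattice`, file `ConjPic.lean`).
-/
import Mathlib
import Fermat.Agent.JT3.Gateway.Homology
import Fermat.Prelude.Def_ModularCurve_PeriodHomPair

set_option autoImplicit false

open CongruenceSubgroup ModularCurve ModularCurve.Period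
open scoped MatrixGroups

noncomputable section

namespace Fermat.Agent.MZ

open Fermat.Agent.JT3

variable (N : ℕ)

/-- `γ ↦ J γ J` preserves the trace, hence the parabolic and the elliptic elements -/
theorem mzf2_jConj_parEll (γ : Gamma0 N) (h : gh_IsParEll N γ) :
    gh_IsParEll N (jConjGamma0 N γ) := by
  unfold gh_IsParEll at h ⊢
  rw [jConjGamma0_coe, jConjSL_coe, jConjMat_trace]
  exact h

/-- **the involution `ι_H` of `H = Γ₀(N)^ab/(par, ell)`** induced by `γ ↦ J γ J` -/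
def mzf2_iotaH : gh_H N →+ gh_H N :=
  gh_lift ((gh_mk N).comp (MonoidHom.toAdditive (jConjGamma0 N))) (fun γ hγ => by
    show gh_mk N (Additive.ofMul (jConjGamma0 N γ)) = 0
    exact gh_mk_parEll N _ (mzf2_jConj_parEll N γ hγ))

theorem mzf2_iotaH_mk (γ : Gamma0 N) :
    mzf2_iotaH N (gh_mk N (Additive.ofMul γ)) = gh_mk N (Additive.ofMul (jConjGamma0 N γ)) := by
  unfold mzf2_iotaH
  rw [gh_lift_mk]
  rfl

theorem mzf2_iotaH_iotaH (x : gh_H N) : mzf2_iotaH N (mzf2_iotaH N x) = x := by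
  obtain ⟨g, rfl⟩ := gh_mk_surjective N x
  obtain ⟨γ, rfl⟩ := Additive.ofMul.surjective g
  rw [mzf2_iotaH_mk, mzf2_iotaH_mk, jConjGamma0_jConjGamma0]

theorem mzf2_iotaH_comp_self : (mzf2_iotaH N).comp (mzf2_iotaH N) = AddMonoidHom.id _ :=
  AddMonoidHom.ext fun x => mzf2_iotaH_iotaH N x

/-- `ι_H` as an additive automorphism -/
def mzf2_iotaHEquiv : gh_H N ≃+ gh_H N where
  toFun := mzf2_iotaH N
  invFun := mzf2_iotaH N
  left_inv := mzf2_iotaH_iotaH N
  right_inv := mzf2_iotaH_iotaH N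
  map_add' := map_add _

/-- the induced involution of `Hom(H, A)`; on `Γ₀(N)`-homomorphisms it is the prelude's
`charInvolution` -/
def mzf2_iotaDual (A : Type*) [AddCommGroup A] : (gh_H N →+ A) →+ (gh_H N →+ A) where
  toFun ψ := ψ.comp (mzf2_iotaH N)
  map_zero' := rfl
  map_add' _ _ := rfl

theorem mzf2_iotaDual_apply {A : Type*} [AddCommGroup A] (ψ : gh_H N →+ A) (x : gh_H N) :
    mzf2_iotaDual N A ψ x = ψ (mzf2_iotaH N x) := rfl

theorem mzf2_iotaDual_comp_mk {A : Type*} [AddCommGroup A] (R : Type*) [Semiring R] [Module R A]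
    (ψ : gh_H N →+ A) :
    (mzf2_iotaDual N A ψ).comp (gh_mk N) = charInvolution N R A (ψ.comp (gh_mk N)) := by
  refine AddMonoidHom.ext fun g => ?_
  obtain ⟨γ, rfl⟩ := Additive.ofMul.surjective g
  show ψ (mzf2_iotaH N (gh_mk N (Additive.ofMul γ))) = _
  rw [mzf2_iotaH_mk]
  rfl

end Fermat.Agent.MZ
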