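/-
MAZUR / (F2) / [CONJ] (helper28, prefix `mzf2_`): COMPLEX CONJUGATION ON THE TATE MODULE OF
`J₀(N)` IN THE LATTICE MODEL.

For `c : Gal(Q̄/ℚ)` a complex conjugation for the gateway embedding `br_iota`
(`mzf2_IsConj c`):
* `mzf2_picEquiv_conj`: `e_n (c • y) = conj ∘ e_n y ∘ (γ ↦ JγJ)` on `Pic⁰(X₀(N))[n]`;
* `mzf2_tj_chi_conj`: the same for `tj_chi`;
* **`mzf2_conj_lattice`**: `tjp_lattice (ρ(c) x) = -((tjp_lattice x) ∘ ι_H)`.
-/
import Mathlib
import Fermat.Agent.MZ.F2.ConjChar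
import Fermat.Agent.MZ.F2.IotaH
import Fermat.Agent.JT3.Tate.Package
import Fermat.Prelude.Def_GaloisRep_ComplexConjugation

set_option autoImplicit false
set_option linter.unusedSectionVars false
set_option linter.style.haveILetI false
set_option synthInstance.maxHeartbeats 400000
set_option maxHeartbeats 1000000

open UpperHalfPlane hiding I
open CongruenceSubgroup
open scoped MatrixGroups ComplexConjugate

noncomputable section

namespace Fermat.Agent.MZ

open Fermat.Agent.S24 Fermat.Agent.S24.Br Fermat.Agent.JT3 ModularCurve ModularCurve.Period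
  AlgebraicCurve

local notation "GQ" => (AlgebraicClosure ℚ ≃ₐ[ℚ] AlgebraicClosure ℚ)

variable (N : ℕ) [NeZero N] {c : GQ}

/-- the Galois action preserves the `n`-torsion -/
theorem mzf2_smul_mem_torsion (c : GQ) {n : ℕ} (y : Pic0.torsion Kbar (Fbar N) n) :
    c • (y : Pic0 Kbar (Fbar N)) ∈ Pic0.torsion Kbar (Fbar N) n :=
  SemilinearAut.smul_mem_torsion (arithmeticGalois (modularFunctionFieldFull N) c) y.2

/-- **complex conjugation through the gateway**: `e_n (c • y) = conj ∘ e_n y ∘ (γ ↦ JγJ)` -/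
theorem mzf2_picEquiv_conj (hc : mzf2_IsConj c) {n : ℕ} (hn : n ≠ 0)
    (y : Pic0.torsion Kbar (Fbar N) n) :
    ((Additive.toMul (gw_picEquiv N hn
        ⟨c • (y : Pic0 Kbar (Fbar N)), mzf2_smul_mem_torsion N c y⟩) :
      gw_X N n) : ↥(Gamma0 N) →* ℂˣ) =
    mzf2_conjChar N ((Additive.toMul (gw_picEquiv N hn y) : gw_X N n) : ↥(Gamma0 N) →* ℂˣ) := by
  obtain ⟨y, hy⟩ := y
  obtain ⟨D, rfl⟩ := QuotientAddGroup.mk_surjective y
  change Pic0.mk D ∈ Pic0.torsion Kbar (Fbar N) n at hy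
  obtain ⟨f, hf0, hDf⟩ := (gp_mk_mem_torsion_iff D).1 hy
  have hfS : (Units.mk0 f hf0) ∈ gp_S Kbar (Fbar N) n := fun P => ⟨_, (hDf P).symm⟩
  have hdiv : gw_IsDiv Kbar n f := ⟨hf0, fun P => ⟨_, (hDf P).symm⟩⟩
  obtain ⟨χ, hχ⟩ := gw_hasChar_exists (C := gw_ctxBar N) hn hdiv
  have h1 : ((Additive.toMul (gw_picEquiv N hn ⟨Pic0.mk D, hy⟩) : gw_X N n) :
      ↥(Gamma0 N) →* ℂˣ) = χ :=
    gw_picEquiv_mk N hn D ⟨Units.mk0 f hf0, hfS⟩ hDf hy hχ
  set σ := arithmeticGalois (modularFunctionFieldFull N) c with hσ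
  set D' : Divisor.degZero (K := Kbar) (F := Fbar N) := SemilinearAut.degZeroSMulHom σ D with hD'
  have hT : c • (Pic0.mk D : Pic0 Kbar (Fbar N)) = Pic0.mk D' := by
    rw [galois_smul_pic0_def, SemilinearAut.pic0_smul_mk]
  have hf'0 : σ • f ≠ 0 := by
    rw [SemilinearAut.smul_def]
    exact (map_ne_zero_iff _ (SemilinearAut.toRingAut σ).injective).mpr hf0
  have hD'f : ∀ P : Place Kbar (Fbar N), (n : ℤ) * (D' : Divisor Kbar (Fbar N)) P =
      P.ord (σ • f) := by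
    intro P
    rw [hD', SemilinearAut.coe_degZeroSMulHom, SemilinearAut.divisor_smul_apply, hDf]
    have h := SemilinearAut.ord_smul σ (σ⁻¹ • P) f
    rw [smul_inv_smul] at h
    exact h.symm
  have hf'S : (Units.mk0 _ hf'0) ∈ gp_S Kbar (Fbar N) n := fun P => ⟨_, (hD'f P).symm⟩
  have hy' : Pic0.mk D' ∈ Pic0.torsion Kbar (Fbar N) n :=
    (gp_mk_mem_torsion_iff D').2 ⟨_, hf'0, hD'f⟩
  have h2 : ((Additive.toMul (gw_picEquiv N hn ⟨Pic0.mk D', hy'⟩) : gw_X N n) :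
      ↥(Gamma0 N) →* ℂˣ) = mzf2_conjChar N χ :=
    gw_picEquiv_mk N hn D' ⟨Units.mk0 _ hf'0, hf'S⟩ hD'f hy' (mzf2_hasChar_conj hc hχ)
  have h3 : ((Additive.toMul (gw_picEquiv N hn
        ⟨c • (Pic0.mk D : Pic0 Kbar (Fbar N)), mzf2_smul_mem_torsion N c ⟨Pic0.mk D, hy⟩⟩) :
      gw_X N n) : ↥(Gamma0 N) →* ℂˣ) = mzf2_conjChar N χ := by
    rw [← h2]
    congr 4
  exact h3.trans (congrArg (mzf2_conjChar N) h1.symm)

variable (p : ℕ) [hp : Fact p.Prime]

/-- complex conjugation on the characters of the torsion points -/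
theorem mzf2_tj_chi_conj (hc : mzf2_IsConj c) (n : ℕ) (y : JZero N) (hy : p ^ n • y = 0) :
    tj_chi N p n (c • y) = mzf2_conjChar N (tj_chi N p n y) := by
  have hcy : p ^ n • (c • y) = 0 := by
    have h := map_nsmul (DistribSMul.toAddMonoidHom (JZero N) c) (p ^ n) y
    simp only [DistribSMul.toAddMonoidHom_apply] at h
    rw [← h, hy]
    exact smul_zero (A := JZero N) c
  rw [tj_chi_eq N p hcy, tj_chi_eq N p hy]
  exact mzf2_picEquiv_conj N hc (tj_pow_ne_zero p n) ⟨y, (tj_mem_torsion N p).mpr hy⟩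

/-- `conj ζ = ζ⁻¹` for the standard roots of unity -/
theorem mzf2_conj_zetaC (n : ℕ) :
    conj ((tl_zetaC p n : ℂˣ) : ℂ) = (((tl_zetaC p n)⁻¹ : ℂˣ) : ℂ) := by
  rw [Units.val_inv_eq_inv_val]
  show conj (Complex.exp (2 * Real.pi * Complex.I / ((p ^ n : ℕ) : ℂ))) =
    (Complex.exp (2 * Real.pi * Complex.I / ((p ^ n : ℕ) : ℂ)))⁻¹
  rw [← Complex.exp_conj, ← Complex.exp_neg]
  congr 1
  simp only [map_div₀, map_mul, Complex.conj_I, Complex.conj_ofReal, map_ofNat, map_natCast]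
  ring

/-- `ζ ^ ((-b).val) = (ζ ^ b.val)⁻¹` -/
theorem mzf2_zeta_pow_neg (n : ℕ) (b : ZMod (p ^ n)) :
    tl_zetaC p n ^ (-b).val = (tl_zetaC p n ^ b.val)⁻¹ := by
  rw [eq_inv_iff_mul_eq_one, ← pow_add]
  have h : ((((-b).val + b.val : ℕ)) : ZMod (p ^ n)) = 0 := by
    rw [Nat.cast_add, ZMod.natCast_zmod_val, ZMod.natCast_zmod_val, neg_add_cancel]
  obtain ⟨k, hk⟩ := (ZMod.natCast_eq_zero_iff _ _).mp h
  rw [hk, pow_mul, (tl_zetaC_isPrimitiveRoot p n).pow_eq_one, one_pow]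

/-- **complex conjugation on the Tate module in the lattice model**:
`Λ (ρ(c) x) = -(Λ x ∘ ι_H)` for `Λ = tjp_lattice N p : T_p J₀(N) ≃ Hom(H, ℤ_p)` -/
theorem mzf2_conj_lattice (hc : mzf2_IsConj c) (x : tj_T N p) :
    tjp_lattice N p (tj_rho N p c x) = -((tjp_lattice N p x).comp (mzf2_iotaH N)) := by
  refine gh_hom_ext fun g => ?_
  obtain ⟨γ, rfl⟩ := Additive.ofMul.surjective g
  rw [AddMonoidHom.neg_apply, AddMonoidHom.comp_apply, mzf2_iotaH_mk]
  rw [← PadicInt.ext_of_toZModPow]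
  intro n
  haveI : NeZero (p ^ n) := ⟨pow_ne_zero n hp.out.ne_zero⟩
  have h1 := tj_lattice_spec (tjp_surj N p) (tj_rho N p c x) γ n
  have h2 := tj_lattice_spec (tjp_surj N p) x (jConjGamma0 N γ) n
  rw [tj_rho_apply, mzf2_tj_chi_conj N p hc n (x.1 n) (tm_tor x n)] at h1
  have h3 : ((mzf2_conjChar N (tj_chi N p n (x.1 n)) γ : ℂˣ) : ℂ) =
      ((tl_zetaC p n ^ (-(PadicInt.toZModPow n
        (tj_lattice (tjp_surj N p) x (gh_mk N (Additive.ofMul (jConjGamma0 N γ)))))).val : ℂˣ) :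
        ℂ) := by
    rw [mzf2_conjChar_apply, h2, mzf2_zeta_pow_neg, Units.val_pow_eq_pow_val, map_pow,
      mzf2_conj_zetaC, ← Units.val_pow_eq_pow_val, inv_pow]
  have h4 : tl_zetaC p n ^ (PadicInt.toZModPow n
      (tj_lattice (tjp_surj N p) (tj_rho N p c x) (gh_mk N (Additive.ofMul γ)))).val =
      tl_zetaC p n ^ (-(PadicInt.toZModPow n
        (tj_lattice (tjp_surj N p) x (gh_mk N (Additive.ofMul (jConjGamma0 N γ)))))).val :=
    h1.symm.trans (Units.ext h3)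
  have h5 := (tl_zetaC_isPrimitiveRoot p n).pow_inj (ZMod.val_lt _) (ZMod.val_lt _) h4
  have h6 := ZMod.val_injective _ h5
  rw [map_neg]
  exact h6

/-! ### the prelude's complex conjugation -/

/-- the gateway embedding is the prelude's `complexEmbedding` -/
theorem mzf2_iota_eq : (br_iota : AlgebraicClosure ℚ →ₐ[ℚ] ℂ) = complexEmbedding := rfl

/-- the prelude's `complexConjugation` is a complex conjugation for `br_iota` -/
theorem mzf2_isConj_complexConjugation : mzf2_IsConj complexConjugation := by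
  intro x
  exact complexEmbedding_complexConjugation x

/-- **[CONJ], closed form**: under `tjp_lattice N p : T_p J₀(N) ≃ Hom(H, ℤ_p)` the prelude's
complex conjugation acts as `ψ ↦ -(ψ ∘ ι_H)` -/
theorem mzf2_conj_lattice_cc (x : tj_T N p) :
    tjp_lattice N p (tj_rho N p complexConjugation x) =
      -((tjp_lattice N p x).comp (mzf2_iotaH N)) :=
  mzf2_conj_lattice N p mzf2_isConj_complexConjugation x

end Fermat.Agent.MZ
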