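/-
MAZUR / (F2) / glue [CONJ] + [BAL] (helper12, prefix `mzf2t_`).

`trace(ρ(c) ∘ x | T_p J₀(N)) = 0` for `c` the complex conjugation and `x` any element of the ring
generated by the Hecke operators `T_ℓ` at the good primes (`ℓ ∤ N`, `ℓ ∉ S`), acting on the `p`-adic
Tate module.  Proof: under `tjp_lattice : T_p J₀(N) ≃ Hom(H, ℤ_p)` the operator `x` is precomposition
with an element `t` of the Hecke ring `ℤ[T_H ℓ]` of `H` (`tjp_lattice_hecke`), `ρ(c)` is
`ψ ↦ -(ψ ∘ ι_H)` (helper28's `mzf2_conj_lattice_cc`), and `trace(ψ ↦ ψ ∘ t ∘ ι_H) = 0`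
(helper20's `mzf2_bal`).
-/
import Mathlib
import Fermat.Agent.JT3.Tate.Package
import Fermat.Agent.MZ.F2.ConjPic
import Fermat.Agent.MZ.F2.Bal

set_option autoImplicit false
set_option linter.unusedSectionVars false
set_option linter.style.haveILetI false
set_option synthInstance.maxHeartbeats 400000
set_option maxHeartbeats 1000000

noncomputable section

namespace Fermat.Agent.MZ

open Fermat.Agent.JT3 ModularCurve

local notation "GQ" => (AlgebraicClosure ℚ ≃ₐ[ℚ] AlgebraicClosure ℚ)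

variable (N p : ℕ) [NeZero N] [hp : Fact p.Prime]

/-- the Hecke operators of `J₀(N)` at the good primes, as additive endomorphisms -/
def mzf2t_gens (S : Set ℕ) : Set (AddMonoid.End (JZero N)) :=
  {f | ∃ ℓ : Nat.Primes, ¬ (ℓ : ℕ) ∣ N ∧ (ℓ : ℕ) ∉ S ∧ f = (heckeOperatorBar N ℓ).toAddMonoidHom}

/-- the Hecke ring of `J₀(N)` away from `S` -/
def mzf2t_ring (S : Set ℕ) : Subring (AddMonoid.End (JZero N)) :=
  Subring.closure (mzf2t_gens N S)

/-- a Galois element as an additive endomorphism of `J₀(N)` -/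
def mzf2t_gal (σ : GQ) : AddMonoid.End (JZero N) :=
  DistribMulAction.toAddMonoidEnd GQ (JZero N) σ

theorem mzf2t_gal_apply (σ : GQ) (x : JZero N) : mzf2t_gal N σ x = σ • x := rfl

theorem mzf2t_map_gal (σ : GQ) : tm_map (JZero N) p (mzf2t_gal N σ) = tj_rho N p σ := rfl

/-- in the lattice model every element of the Hecke ring is precomposition with an element of the
Hecke ring of `H` -/
theorem mzf2t_lattice (S : Set ℕ) (x : AddMonoid.End (JZero N)) (hx : x ∈ mzf2t_ring N S) :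
    ∃ t ∈ Algebra.adjoin ℤ (t2f_heckeSet N S), ∀ y : tj_T N p,
      tjp_lattice N p (tm_map (JZero N) p x y) = (tjp_lattice N p y).comp t.toAddMonoidHom := by
  unfold mzf2t_ring at hx
  induction hx using Subring.closure_induction with
  | mem x hx =>
    obtain ⟨ℓ, hℓN, hℓS, rfl⟩ := hx
    haveI : Fact (ℓ : ℕ).Prime := ⟨ℓ.2⟩
    refine ⟨t2f_TH N ℓ, Algebra.subset_adjoin (t2f_mem_heckeSet_iff.mpr ⟨ℓ, ⟨ℓ.2, hℓN, hℓS⟩, rfl⟩),
      fun y => ?_⟩
    have h := tjp_lattice_hecke N p (ℓ : ℕ) hℓN y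
    rw [t2f_TH_eq ℓ.2 hℓN]
    exact h
  | zero =>
    refine ⟨0, Subalgebra.zero_mem _, fun y => ?_⟩
    rw [map_zero, LinearMap.zero_apply, map_zero]
    refine AddMonoidHom.ext fun g => ?_
    show (0 : ℤ_[p]) = tjp_lattice N p y ((0 : Module.End ℤ (gh_H N)) g)
    rw [LinearMap.zero_apply, map_zero]
  | one =>
    refine ⟨1, Subalgebra.one_mem _, fun y => ?_⟩
    rw [map_one]
    rfl
  | add x x' _ _ hx hx' =>
    obtain ⟨t, ht, h⟩ := hx
    obtain ⟨t', ht', h'⟩ := hx'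
    refine ⟨t + t', Subalgebra.add_mem _ ht ht', fun y => ?_⟩
    rw [map_add, LinearMap.add_apply, map_add, h, h']
    refine AddMonoidHom.ext fun g => ?_
    show tjp_lattice N p y (t g) + tjp_lattice N p y (t' g) = tjp_lattice N p y ((t + t') g)
    rw [LinearMap.add_apply, map_add]
  | neg x _ hx =>
    obtain ⟨t, ht, h⟩ := hx
    refine ⟨-t, Subalgebra.neg_mem _ ht, fun y => ?_⟩
    rw [map_neg, LinearMap.neg_apply, map_neg, h]
    refine AddMonoidHom.ext fun g => ?_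
    show -(tjp_lattice N p y (t g)) = tjp_lattice N p y (-(t g))
    rw [map_neg]
  | mul x x' _ _ hx hx' =>
    obtain ⟨t, ht, h⟩ := hx
    obtain ⟨t', ht', h'⟩ := hx'
    refine ⟨t' * t, Subalgebra.mul_mem _ ht' ht, fun y => ?_⟩
    rw [map_mul, Module.End.mul_apply, h, h']
    rfl

/-- **[CONJ] + [BAL]**: `trace(ρ(c) x | T_p J₀(N)) = 0` for `x` in the Hecke ring -/
theorem mzf2t_trace (S : Set ℕ) (x : AddMonoid.End (JZero N)) (hx : x ∈ mzf2t_ring N S) :
    LinearMap.trace ℤ_[p] (tm_T (JZero N) p)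
      (tm_map (JZero N) p (mzf2t_gal N complexConjugation) * tm_map (JZero N) p x) = 0 := by
  obtain ⟨t, ht, h⟩ := mzf2t_lattice N p S x hx
  obtain ⟨τ, hτ⟩ := mzf2_compat_of_mem_adjoin N S ht
  have hbal := mzf2_bal N hτ ℤ_[p]
  have hconj : (tjp_lattice N p).conj
      (tm_map (JZero N) p (mzf2t_gal N complexConjugation) * tm_map (JZero N) p x) =
      -mzf2_pre ℤ_[p] (t.toAddMonoidHom.comp (mzf2_iotaH N)) := by
    refine LinearMap.ext fun ψ => ?_
    obtain ⟨y, rfl⟩ := (tjp_lattice N p).surjective ψ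
    rw [LinearEquiv.conj_apply, LinearMap.comp_apply, LinearMap.comp_apply, LinearEquiv.coe_coe,
      LinearEquiv.coe_coe, LinearEquiv.symm_apply_apply, Module.End.mul_apply, mzf2t_map_gal,
      mzf2_conj_lattice_cc, h, LinearMap.neg_apply, mzf2_pre_apply]
    rfl
  rw [← LinearMap.trace_conj' _ (tjp_lattice N p), hconj]
  have hneg : ∀ F : Module.End ℤ_[p] (gh_H N →+ ℤ_[p]),
      LinearMap.trace ℤ_[p] (gh_H N →+ ℤ_[p]) (-F) =
        -LinearMap.trace ℤ_[p] (gh_H N →+ ℤ_[p]) F := fun F =>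
    (LinearMap.trace ℤ_[p] (gh_H N →+ ℤ_[p])).map_neg F
  rw [hneg, hbal, neg_zero]

end Fermat.Agent.MZ
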