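/-
MAZUR / (F2) / [BAL2] (helper12, prefix `mzf2b_ch_`): [CHEB-T].

For EVERY `g ∈ G_ℚ` and every level `k`, the operator `t(g) = g + χ(g) g⁻¹` acts on `J₀(N)[r^k]` as an
element of the Hecke ring `ℤ[T_ℓ : ℓ ∉ S]` (`mzf2b_ch_main`).
Proof: weak Chebotarev (`wc_main`) gives a Frobenius element `φ` at a good prime `ℓ` and `j` with
`φ^j = g` on `ℚ(J[r^k], μ_{r^k})`; the Eichler–Shimura relation `φ² - T_ℓ φ + ℓ = 0` gives
`φ^j + ℓ^j φ^{-j} = V_j(T_ℓ, ℓ)` (Lucas sequence, `mzf2b_ch_lucas`).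
No uniqueness of the trace, hence no freeness over the Hecke algebra is needed.
-/
import Mathlib
import Fermat.Agent.MZ.F2.TraceConj
import Fermat.Agent.MZ.F1.Cheb
import Fermat.Agent.JT3.Algebra.CycloAdic
import Fermat.Agent.JT3.Tate.Inputs
import Fermat.Agent.WC.Final
import Fermat.Agent.MZ.S.Div

set_option autoImplicit false
set_option linter.unusedSectionVars false
set_option linter.style.haveILetI false
set_option synthInstance.maxHeartbeats 400000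
set_option maxHeartbeats 1000000

noncomputable section

namespace Fermat.Agent.MZ

open Fermat.Agent.JT3 ModularCurve

local notation "GQ" => (AlgebraicClosure ℚ ≃ₐ[ℚ] AlgebraicClosure ℚ)
local notation "Qbar" => AlgebraicClosure ℚ

/-! ### the Lucas sequence -/

section lucas

variable {E : Type*} [Ring E]

/-- the Lucas sequence `V_j(T, ℓ)` -/
def mzf2b_ch_V (T : E) (ℓ : ℕ) : ℕ → E
  | 0 => 2
  | 1 => T
  | (j + 2) => T * mzf2b_ch_V T ℓ (j + 1) - (ℓ : E) * mzf2b_ch_V T ℓ j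

theorem mzf2b_ch_V_mem (T : E) (ℓ : ℕ) (R : Subring E) (hT : T ∈ R) (j : ℕ) :
    mzf2b_ch_V T ℓ j ∈ R := by
  induction j using Nat.twoStepInduction with
  | zero => exact natCast_mem R 2
  | one => exact hT
  | more j ih0 ih1 =>
    exact R.sub_mem (R.mul_mem hT ih1) (R.mul_mem (natCast_mem R ℓ) ih0)

theorem mzf2b_ch_V_map {E' : Type*} [Ring E'] (f : E →+* E') (T : E) (ℓ : ℕ) (j : ℕ) :
    f (mzf2b_ch_V T ℓ j) = mzf2b_ch_V (f T) ℓ j := by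
  induction j using Nat.twoStepInduction with
  | zero => simp only [mzf2b_ch_V]; exact map_ofNat f 2
  | one => rfl
  | more j ih0 ih1 =>
    simp only [mzf2b_ch_V, map_sub, map_mul, map_natCast, ih0, ih1]

/-- if `Φ² - T Φ + ℓ = 0`, `Φ` invertible and commuting with `T`, then
`Φ^j + ℓ^j Φ^{-j} = V_j(T, ℓ)` -/
theorem mzf2b_ch_lucas (Φ Φi T : E) (ℓ : ℕ) (hc : Commute Φ T)
    (hΦ' : Φi * Φ = 1) (hrel : Φ * Φ - T * Φ + (ℓ : E) = 0) (j : ℕ) :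
    Φ ^ j + (ℓ : E) ^ j * Φi ^ j = mzf2b_ch_V T ℓ j := by
  set Ψ : E := T - Φ with hΨ
  have hcΨ : Commute Φ Ψ := hc.sub_right (Commute.refl Φ)
  have hΦΨ : Φ * Ψ = (ℓ : E) := by
    rw [hΨ, mul_sub, hc.eq]
    have : T * Φ - Φ * Φ = (ℓ : E) - (Φ * Φ - T * Φ + (ℓ : E)) := by abel
    rw [this, hrel, sub_zero]
  have hΨℓ : Ψ = (ℓ : E) * Φi := by
    have : Φi * (Φ * Ψ) = Φi * (ℓ : E) := by rw [hΦΨ]
    rw [← mul_assoc, hΦ', one_mul] at this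
    rw [this]
    exact ((Nat.cast_commute ℓ Φi).eq).symm
  have hcℓ : Commute (ℓ : E) Φi := Nat.cast_commute ℓ Φi
  have hΨj : Ψ ^ j = (ℓ : E) ^ j * Φi ^ j := by rw [hΨℓ, hcℓ.mul_pow]
  rw [← hΨj]
  have hsum : Φ + Ψ = T := by rw [hΨ]; abel
  have hcT : Commute T Ψ := (Commute.refl T).sub_right hc.symm
  induction j using Nat.twoStepInduction with
  | zero => simp only [pow_zero, mzf2b_ch_V]; norm_num
  | one => simp only [pow_one, mzf2b_ch_V]; exact hsum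
  | more j ih0 ih1 =>
    have h1 : Φ ^ (j + 2) + Ψ ^ (j + 2) =
        (Φ + Ψ) * (Φ ^ (j + 1) + Ψ ^ (j + 1)) - (Φ * Ψ) * (Φ ^ j + Ψ ^ j) := by
      have e1 : Ψ * Φ ^ (j + 1) = (Φ * Ψ) * Φ ^ j := by
        rw [pow_succ', ← mul_assoc, hcΨ.eq]
      have e2 : Φ * Ψ ^ (j + 1) = (Φ * Ψ) * Ψ ^ j := by
        rw [pow_succ', ← mul_assoc]
      rw [add_mul, mul_add, mul_add, e1, e2, mul_add, pow_succ' Φ (j + 1), pow_succ' Ψ (j + 1)]
      abel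
    have ihj : Ψ ^ j = (ℓ : E) ^ j * Φi ^ j := by rw [hΨℓ, hcℓ.mul_pow]
    have ihj1 : Ψ ^ (j + 1) = (ℓ : E) ^ (j + 1) * Φi ^ (j + 1) := by rw [hΨℓ, hcℓ.mul_pow]
    rw [h1, hsum, hΦΨ, ih1 ihj1, ih0 ihj]
    rfl

end lucas

/-! ### the level -/

section level

variable (N r : ℕ) [NeZero N] [hr : Fact r.Prime]

/-- `J₀(N)[r^k]` as a subgroup -/
def mzf2b_ch_K (k : ℕ) : AddSubgroup (JZero N) := tm_K (JZero N) r k

theorem mzf2b_ch_mem_K {k : ℕ} {y : JZero N} : y ∈ mzf2b_ch_K N r k ↔ r ^ k • y = 0 := Iff.rfl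

instance mzf2b_ch_K_finite (k : ℕ) : Finite (mzf2b_ch_K N r k) := tj_finite N r k

/-- a finite normal field trivialising `J₀(N)[r^k]` and `μ_{r^k}` -/
theorem mzf2b_ch_exists_level (k : ℕ) :
    ∃ L : IntermediateField ℚ Qbar, FiniteDimensional ℚ L ∧ Normal ℚ L ∧
      ∀ σ : GQ, (∀ y ∈ L, σ y = y) → (∀ x : JZero N, r ^ k • x = 0 → σ • x = x) ∧
        PadicInt.toZModPow k (cya_chi r σ) = 1 := by
  have hpp : r.Prime := hr.out
  haveI : NeZero (r ^ k) := ⟨pow_ne_zero _ hpp.ne_zero⟩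
  obtain ⟨L₁, hL₁, h1⟩ := mzf1c_exists_fixing (mzf2b_ch_K N r k)
  obtain ⟨ζ, hζ⟩ := HasEnoughRootsOfUnity.exists_primitiveRoot Qbar (r ^ k)
  haveI : Algebra.IsAlgebraic ℚ Qbar := AlgebraicClosure.isAlgebraic ℚ
  have hint : IsIntegral ℚ ζ := (Algebra.IsAlgebraic.isAlgebraic (R := ℚ) ζ).isIntegral
  obtain ⟨L, hLfd, hLn, h1L, h2L⟩ := mzf1c_exists_normal L₁ (IntermediateField.adjoin ℚ {ζ}) hL₁
    (IntermediateField.adjoin.finiteDimensional hint)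
  refine ⟨L, hLfd, hLn, fun σ hσ => ⟨fun x hx => h1 σ (fun y hy => hσ y (h1L hy)) x hx, ?_⟩⟩
  have hσζ : σ ζ = ζ := hσ ζ (h2L (IntermediateField.mem_adjoin_simple_self ℚ ζ))
  have := cya_chi_toZModPow r σ (n := k) (a := 1) (fun μ hμ => by
    obtain ⟨i, -, rfl⟩ := hζ.eq_pow_of_pow_eq_one hμ
    rw [map_pow, hσζ, pow_one])
  rw [this, Nat.cast_one]

end level

/-! ### the main statement -/

section main

variable (N r : ℕ) [NeZero N] [hr : Fact r.Prime]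

/-- the Hecke operator as an element of the Hecke ring -/
theorem mzf2b_ch_hecke_mem (S : Set ℕ) (ℓ : Nat.Primes) (hℓN : ¬ (ℓ : ℕ) ∣ N) (hℓS : (ℓ : ℕ) ∉ S) :
    (heckeOperatorBar N ℓ).toAddMonoidHom ∈ mzf2t_ring N S :=
  Subring.subset_closure ⟨ℓ, hℓN, hℓS, rfl⟩

/-- **[CHEB-T]**: `g + χ(g) g⁻¹` acts on `J₀(N)[r^k]` as an element of the Hecke ring -/
theorem mzf2b_ch_main (S : Finset ℕ) (hS : ∀ q : ℕ, q.Prime → q ∣ N → q ∈ S) (hSr : r ∈ S)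
    (g : GQ) (k : ℕ) :
    ∃ x ∈ mzf2t_ring N (↑S : Set ℕ), ∀ y : JZero N, r ^ k • y = 0 →
      g • y + (PadicInt.toZModPow k (cya_chi r g)).val • g⁻¹ • y = x y := by
  have hpp : r.Prime := hr.out
  haveI : NeZero (r ^ k) := ⟨pow_ne_zero _ hpp.ne_zero⟩
  obtain ⟨L, hLfd, hLn, hL⟩ := mzf2b_ch_exists_level N r k
  haveI := hLfd
  haveI := hLn
  obtain ⟨ℓ, A, φ, j, hℓ, hℓS, hA, hφ, hj⟩ := Fermat.Agent.WC.wc_main L S g
  have hℓN : ¬ ℓ ∣ N := fun h => hℓS (hS ℓ hℓ h)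
  have hℓr : ℓ ≠ r := fun h => hℓS (h ▸ hSr)
  -- the error term
  set τ : GQ := g⁻¹ * φ ^ j with hτ
  have hτL : ∀ y ∈ L, τ y = y := by
    intro y hy
    rw [hτ, AlgEquiv.mul_apply, hj y hy]
    show (g⁻¹ * g) y = y
    rw [inv_mul_cancel]
    rfl
  obtain ⟨hτW, hτc⟩ := hL τ hτL
  have hprod : φ ^ j = g * τ := (mul_inv_cancel_left g (φ ^ j)).symm
  have hτinv : ∀ x : JZero N, r ^ k • x = 0 → τ⁻¹ • x = x := fun x hx => by
    conv_lhs => rw [← hτW x hx]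
    rw [inv_smul_smul]
  -- the cyclotomic character
  have hcycφ : PadicInt.toZModPow k (cya_chi r φ) = ((ℓ : ℕ) : ZMod (r ^ k)) :=
    cya_chi_toZModPow r φ (fun μ hμ => cya_frob_rootsOfUnity r hℓ hℓr A hA φ hφ k hμ)
  have hcyc : PadicInt.toZModPow k (cya_chi r g) = ((ℓ ^ j : ℕ) : ZMod (r ^ k)) := by
    have h1 : cya_chi r (φ ^ j) = cya_chi r g * cya_chi r τ := by rw [hprod, map_mul]
    have h2 := congrArg (PadicInt.toZModPow k) h1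
    rw [map_mul, hτc, mul_one, map_pow, map_pow, hcycφ] at h2
    rw [← h2, Nat.cast_pow]
  -- the Lucas relation on the Tate module
  let T : AddMonoid.End (JZero N) := (heckeOperatorBar N ⟨ℓ, hℓ⟩).toAddMonoidHom
  have hfrob := tj_frob N r (fun ℓ hℓ hℓN A hA => tji_nodeE N ℓ hℓ hℓN A hA)
    (fun ℓ hℓ hℓN A hA h m hm z hmz hz => tji_S18 N ℓ hℓ hℓN A hA h m hm z hmz hz)
    ℓ hℓ hℓN hℓr A hA φ hφ
  have hrel : tj_rho N r φ * tj_rho N r φ - tm_map (JZero N) r T * tj_rho N r φ +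
      ((ℓ : ℕ) : Module.End ℤ_[r] (tj_T N r)) = 0 := by
    have : ((ℓ : ℕ) : Module.End ℤ_[r] (tj_T N r)) = ((ℓ : ℕ) : ℤ_[r]) • 1 := by
      rw [Nat.cast_smul_eq_nsmul, nsmul_eq_mul, mul_one]
    rw [this]
    exact hfrob
  have hluc := mzf2b_ch_lucas (tj_rho N r φ) (tj_rho N r φ⁻¹) (tm_map (JZero N) r T) ℓ
    (tj_commute N r ⟨ℓ, hℓ⟩ φ).symm
    (by rw [← map_mul, inv_mul_cancel, map_one]) hrel j
  rw [← mzf2b_ch_V_map] at hluc
  refine ⟨mzf2b_ch_V T ℓ j, mzf2b_ch_V_mem T ℓ _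
    (mzf2b_ch_hecke_mem N (↑S : Set ℕ) ⟨ℓ, hℓ⟩ hℓN hℓS) j, fun y hy => ?_⟩
  -- evaluate at a lift of `y`
  obtain ⟨x, hx⟩ := tm_exists_of_div (p := r)
    (fun z _ => mzs_dv_div N r hpp.ne_zero z) k hy
  have hgy : r ^ k • (g⁻¹ • y) = 0 := by
    rw [smul_comm, hy]
    exact map_zero (mzf2t_gal N g⁻¹)
  have h1 := congrArg (fun F : Module.End ℤ_[r] (tj_T N r) => (F x).1 k) hluc
  simp only [LinearMap.add_apply, tm_add_apply] at h1
  -- the three terms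
  have e1 : ((tj_rho N r φ ^ j) x).1 k = g • y := by
    rw [← map_pow, tj_rho_apply, hx, hprod, mul_smul, hτW y hy]
  have e2 : ((tj_rho N r φ⁻¹ ^ j) x).1 k = g⁻¹ • y := by
    rw [← map_pow, tj_rho_apply, hx, inv_pow, hprod, mul_inv_rev, mul_smul, hτinv _ hgy]
  have e3 : ((((ℓ : ℕ) : Module.End ℤ_[r] (tj_T N r)) ^ j * tj_rho N r φ⁻¹ ^ j) x).1 k =
      (PadicInt.toZModPow k (cya_chi r g)).val • g⁻¹ • y := by
    rw [Module.End.mul_apply, ← Nat.cast_pow]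
    rw [Module.End.natCast_apply, tm_nsmul_apply, e2, hcyc, tm_val_nsmul hgy]
  have e4 : ((tm_map (JZero N) r (mzf2b_ch_V T ℓ j)) x).1 k = mzf2b_ch_V T ℓ j y := by
    rw [tm_map_apply, hx]
  rw [e1, e3, e4] at h1
  exact h1

end main

end Fermat.Agent.MZ
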