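/-
MAZUR / (F2) / [CONJ] (helper28, prefix `mzf2_`): the analytic side of complex conjugation.

* `mzf2_refl : ℍ → ℍ`, `z ↦ -z̄`, with `mzf2_refl (γ • z) = jConjSL γ • mzf2_refl z`;
* `mzf2_cj g := z ↦ conj (g (-z̄))`, a ring involution of `ℍ → ℂ` preserving holomorphy;
* **`mzf2_hasLaurentQ_cj`**: if `g` has the Laurent `q`-expansion `f` then `mzf2_cj g` has the
  Laurent `q`-expansion `coeffMap conj f`.
-/
import Mathlib
import Fermat.Agent.S24.Bridge.Field
import Fermat.Prelude.Def_ModularCurve_PeriodHomPair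

set_option autoImplicit false

open UpperHalfPlane ModularForm Filter Topology Function Complex
open scoped MatrixGroups Manifold Real ComplexConjugate
open Fermat.Agent.S23.QF (IsQFun)

noncomputable section

namespace Fermat.Agent.MZ

open Fermat.Agent.S24 ModularCurve.Period

local notation "𝕢" => Periodic.qParam

/-! ### the reflection `z ↦ -z̄` -/

/-- the reflection `z ↦ -z̄` of the upper half plane -/
def mzf2_refl (z : ℍ) : ℍ := ⟨-(conj (z : ℂ)), by simpa using z.im_pos⟩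

theorem mzf2_refl_coe (z : ℍ) : ((mzf2_refl z : ℍ) : ℂ) = -(conj (z : ℂ)) := rfl

theorem mzf2_refl_refl (z : ℍ) : mzf2_refl (mzf2_refl z) = z := by
  apply UpperHalfPlane.ext
  rw [mzf2_refl_coe, mzf2_refl_coe, map_neg, Complex.conj_conj, neg_neg]

theorem mzf2_refl_im (z : ℍ) : (mzf2_refl z).im = z.im := by
  show (-(conj (z : ℂ))).im = (z : ℂ).im
  simp

theorem mzf2_refl_mk {w : ℂ} (hw : 0 < w.im) (hw' : 0 < (-(conj w)).im) :
    mzf2_refl ⟨w, hw⟩ = ⟨-(conj w), hw'⟩ := rfl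

theorem mzf2_refl_smul (γ : SL(2, ℤ)) (z : ℍ) :
    mzf2_refl (γ • z) = jConjSL γ • mzf2_refl z := by
  apply UpperHalfPlane.ext
  rw [mzf2_refl_coe, coe_specialLinearGroup_apply, coe_specialLinearGroup_apply, mzf2_refl_coe]
  have e00 : (jConjSL γ) 0 0 = γ 0 0 := jConjMat_apply_zero_zero _
  have e01 : (jConjSL γ) 0 1 = -γ 0 1 := jConjMat_apply_zero_one _
  have e10 : (jConjSL γ) 1 0 = -γ 1 0 := jConjMat_apply_one_zero _
  have e11 : (jConjSL γ) 1 1 = γ 1 1 := jConjMat_apply_one_one _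
  rw [e00, e01, e10, e11]
  simp only [map_div₀, map_add, map_mul, Complex.conj_ofReal, map_neg, Complex.ofReal_neg]
  rw [← neg_div]
  congr 1 <;> ring

/-! ### the involution `g ↦ conj ∘ g ∘ refl` -/

/-- `g ↦ (z ↦ conj (g (-z̄)))` -/
def mzf2_cj (g : ℍ → ℂ) : ℍ → ℂ := fun z => conj (g (mzf2_refl z))

theorem mzf2_cj_apply (g : ℍ → ℂ) (z : ℍ) : mzf2_cj g z = conj (g (mzf2_refl z)) := rfl

theorem mzf2_cj_cj (g : ℍ → ℂ) : mzf2_cj (mzf2_cj g) = g := by
  funext z
  rw [mzf2_cj_apply, mzf2_cj_apply, Complex.conj_conj, mzf2_refl_refl]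

theorem mzf2_cj_mul (g h : ℍ → ℂ) : mzf2_cj (g * h) = mzf2_cj g * mzf2_cj h := by
  funext z
  simp only [mzf2_cj_apply, Pi.mul_apply, map_mul]

theorem mzf2_cj_add (g h : ℍ → ℂ) : mzf2_cj (g + h) = mzf2_cj g + mzf2_cj h := by
  funext z
  simp only [mzf2_cj_apply, Pi.add_apply, map_add]

theorem mzf2_cj_pow (g : ℍ → ℂ) (n : ℕ) : mzf2_cj (g ^ n) = mzf2_cj g ^ n := by
  funext z
  simp only [mzf2_cj_apply, Pi.pow_apply, map_pow]

theorem mzf2_cj_zero : mzf2_cj 0 = 0 := by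
  funext z
  simp [mzf2_cj_apply]

theorem mzf2_cj_eq_zero_iff (g : ℍ → ℂ) : mzf2_cj g = 0 ↔ g = 0 := by
  constructor
  · intro h
    rw [← mzf2_cj_cj g, h, mzf2_cj_zero]
  · rintro rfl
    exact mzf2_cj_zero

theorem mzf2_cj_const (c : ℂ) : mzf2_cj (fun _ => c) = fun _ => conj c := rfl

theorem mzf2_cj_qH : mzf2_cj qH = qH := by
  funext z
  rw [mzf2_cj_apply]
  unfold qH Periodic.qParam
  rw [← Complex.exp_conj, mzf2_refl_coe]
  congr 1
  simp only [map_div₀, map_mul, map_neg, Complex.conj_conj, Complex.conj_I, Complex.conj_ofReal,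
    map_ofNat]
  ring

theorem mzf2_conj_qParam_refl (z : ℍ) : conj (𝕢 1 ((mzf2_refl z : ℍ) : ℂ)) = 𝕢 1 (z : ℂ) :=
  congrFun mzf2_cj_qH z

theorem mzf2_ofComplex_refl {w : ℂ} (hw : 0 < w.im) :
    ofComplex (-(conj w)) = mzf2_refl (ofComplex w) := by
  have hw' : 0 < (-(conj w)).im := by simpa using hw
  rw [ofComplex_apply_of_im_pos hw, ofComplex_apply_of_im_pos hw']
  rfl

theorem mzf2_cj_mdiff {g : ℍ → ℂ} (hg : MDiff g) : MDiff (mzf2_cj g) := by
  rw [UpperHalfPlane.mdifferentiable_iff] at hg ⊢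
  intro w hw
  have hw0 : 0 < w.im := hw
  have hw' : 0 < (-(conj w)).im := by simpa using hw0
  have hopen : IsOpen {z : ℂ | 0 < z.im} := isOpen_lt continuous_const Complex.continuous_im
  have h1 : DifferentiableAt ℂ (g ∘ ofComplex) (-(conj w)) :=
    (hg _ hw').differentiableAt (hopen.mem_nhds hw')
  have h2 : DifferentiableAt ℂ ((g ∘ ofComplex) ∘ fun u : ℂ => -u) (conj w) :=
    DifferentiableAt.comp (g := g ∘ ofComplex) (f := fun u : ℂ => -u) (conj w) h1
      differentiableAt_id.neg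
  have h3 := h2.conj_conj
  rw [Complex.conj_conj] at h3
  refine (h3.congr_of_eventuallyEq ?_).differentiableWithinAt
  filter_upwards [hopen.mem_nhds hw0] with u hu
  have hu0 : 0 < u.im := hu
  simp only [comp_apply, mzf2_cj_apply]
  rw [mzf2_ofComplex_refl hu0]

theorem mzf2_isQFun_cj {G : ℍ → ℂ} (hG : IsQFun G) : IsQFun (mzf2_cj G) := by
  refine ⟨mzf2_cj_mdiff hG.mdiff, ?_, ?_⟩
  · intro w
    by_cases hw : 0 < w.im
    · have hw1 : 0 < (w + 1).im := by simpa using hw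
      simp only [comp_apply, mzf2_cj_apply]
      rw [← mzf2_ofComplex_refl hw, ← mzf2_ofComplex_refl hw1]
      have hp := hG.periodic (-(conj (w + 1)))
      simp only [comp_apply] at hp
      rw [← hp]
      congr 3
      simp only [map_add, map_one]
      ring
    · have hw0 : w.im ≤ 0 := not_lt.mp hw
      have hw1 : (w + 1).im ≤ 0 := by simpa using hw0
      simp [comp_apply, ofComplex_apply_of_im_nonpos hw0, ofComplex_apply_of_im_nonpos hw1]
  · obtain ⟨M, A, h⟩ := isBoundedAtImInfty_iff.mp hG.bdd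
    refine isBoundedAtImInfty_iff.mpr ⟨M, A, fun z hz => ?_⟩
    rw [mzf2_cj_apply, Complex.norm_conj]
    exact h _ (by rw [mzf2_refl_im]; exact hz)

theorem mzf2_qExpansion_cj_coeff {G : ℍ → ℂ} (hG : IsQFun G) (n : ℕ) :
    (qExpansion 1 (mzf2_cj G)).coeff n = conj ((qExpansion 1 G).coeff n) := by
  refine (br_qExpansion_coeff_unique (mzf2_isQFun_cj hG)
    (c := fun n => conj ((qExpansion 1 G).coeff n)) ?_ n).symm
  intro τ
  have h := UpperHalfPlane.hasSum_qExpansion one_pos hG.periodic' hG.mdiff hG.bdd (mzf2_refl τ)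
  have h2 := h.map (starRingEnd ℂ) Complex.continuous_conj
  rw [mzf2_cj_apply]
  refine h2.congr_fun fun m => ?_
  simp only [comp_apply, smul_eq_mul, map_mul, map_pow]
  rw [mzf2_conj_qParam_refl]

/-- **conjugation of Laurent `q`-expansions** -/
theorem mzf2_hasLaurentQ_cj {g : ℍ → ℂ} {f : LaurentSeries ℂ} (h : br_HasLaurentQ g f) :
    br_HasLaurentQ (mzf2_cj g) (ModularCurve.coeffMap (starRingEnd ℂ) f) := by
  obtain ⟨m, h1, h2⟩ := h
  have e : qH ^ m * mzf2_cj g = mzf2_cj (qH ^ m * g) := by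
    rw [mzf2_cj_mul, mzf2_cj_pow, mzf2_cj_qH]
  refine ⟨m, by rw [e]; exact mzf2_isQFun_cj h1, ?_⟩
  rw [e]
  ext k
  have h3 : conj ((HahnSeries.ofPowerSeries ℤ ℂ (qExpansion 1 (qH ^ m * g))).coeff k) =
      conj ((HahnSeries.single (m : ℤ) (1 : ℂ) * f).coeff k) := by rw [h2]
  have h4 : (HahnSeries.ofPowerSeries ℤ ℂ (qExpansion 1 (mzf2_cj (qH ^ m * g)))).coeff k =
      conj ((HahnSeries.ofPowerSeries ℤ ℂ (qExpansion 1 (qH ^ m * g))).coeff k) := by
    rw [br_ofPowerSeries_coeff_natCast, br_ofPowerSeries_coeff_natCast]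
    split_ifs with hk
    · exact mzf2_qExpansion_cj_coeff h1 _
    · rw [map_zero]
  rw [h4, h3]
  have e1 : (HahnSeries.single (m : ℤ) (1 : ℂ) * f).coeff k = f.coeff (k - m) := by
    rw [HahnSeries.coeff_single_mul, one_mul]  
  have e2 : (HahnSeries.single (m : ℤ) (1 : ℂ) * ModularCurve.coeffMap (starRingEnd ℂ) f).coeff k =
      (ModularCurve.coeffMap (starRingEnd ℂ) f).coeff (k - m) := by
    rw [HahnSeries.coeff_single_mul, one_mul]
  rw [e1, e2, ModularCurve.coeffMap_coeff]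

end Fermat.Agent.MZ
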