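/-
MAZUR / (F2) / [CONJ] (helper28, prefix `mzf2_`): complex conjugation on the characters of
`n`-divisible functions.

`c : Gal(Q̄/ℚ)` is a complex conjugation for the embedding `br_iota : Q̄ → ℂ` of the gateway
(`mzf2_IsConj c : br_iota (c x) = conj (br_iota x)`).  Then
* `A0 N` is stable under the coefficientwise action of `c` (`mzf2_cA0`);
* key lemma (K) `mzf2_an_cA0`: `an (c a) (z) = conj (an a (-z̄))`;
* **`mzf2_hasChar_conj`**: if `f` has the character `χ` then `c • f` has the character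
  `γ ↦ conj (χ (J γ J))` (`mzf2_conjChar`).
-/
import Mathlib
import Fermat.Agent.MZ.F2.ConjAn
import Fermat.Agent.JT3.Gateway.Defs
import Fermat.Agent.S24.Bridge.Degree
import Fermat.Prelude.Def_ModularCurve_ArithmeticGalois

set_option autoImplicit false
set_option linter.unusedSectionVars false

open UpperHalfPlane CongruenceSubgroup
open scoped MatrixGroups Manifold ComplexConjugate

noncomputable section

namespace Fermat.Agent.MZ

open Fermat.Agent.S24 Fermat.Agent.S24.Br Fermat.Agent.JT3 ModularCurve ModularCurve.Period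
  AlgebraicCurve

local notation "GQ" => (AlgebraicClosure ℚ ≃ₐ[ℚ] AlgebraicClosure ℚ)

/-- `c` is a complex conjugation with respect to the embedding `br_iota : Q̄ → ℂ` -/
def mzf2_IsConj (c : GQ) : Prop := ∀ x : Kbar, br_iota (c x) = conj (br_iota x)

variable (N : ℕ) [NeZero N] (c : GQ)

/-- `A0 N` is stable under the coefficientwise Galois action -/
theorem mzf2_coeffMap_mem_A0 {a : LaurentSeries Kbar} (ha : a ∈ A0 N) :
    coeffMap (c : Kbar →+* Kbar) a ∈ A0 N := by
  induction ha using Algebra.adjoin_induction with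
  | mem y hy =>
    obtain ⟨d, hd, hdN, rfl⟩ := hy
    rw [barGen, coeffMap_coeffEmb]
    exact Algebra.subset_adjoin ⟨d, hd, hdN, rfl⟩
  | algebraMap r =>
    rw [coeffMap_algebraMap]
    exact Subalgebra.algebraMap_mem _ _
  | add x y _ _ hx hy => rw [map_add]; exact add_mem hx hy
  | mul x y _ _ hx hy => rw [map_mul]; exact mul_mem hx hy

/-- the Galois action on `A0 N` -/
def mzf2_cA0 (a : A0 N) : A0 N :=
  ⟨coeffMap (c : Kbar →+* Kbar) (a : LaurentSeries Kbar), mzf2_coeffMap_mem_A0 N c a.2⟩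

theorem mzf2_cA0_coe (a : A0 N) :
    ((mzf2_cA0 N c a : A0 N) : LaurentSeries Kbar) =
      coeffMap (c : Kbar →+* Kbar) (a : LaurentSeries Kbar) := rfl

theorem mzf2_cA0_ne_zero {a : A0 N} (ha : a ≠ 0) : mzf2_cA0 N c a ≠ 0 := by
  intro h
  apply ha
  have h1 : coeffMap (c : Kbar →+* Kbar) (a : LaurentSeries Kbar) = 0 := by
    have := congrArg (fun x : A0 N => (x : LaurentSeries Kbar)) h
    simpa [mzf2_cA0_coe] using this
  apply Subtype.ext
  show (a : LaurentSeries Kbar) = 0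
  refine br_coeffMap_injective (c : Kbar →+* Kbar) c.injective ?_
  rw [h1, map_zero]

/-- the action of `c` on the function field commutes with `A0 N → Fbar N` -/
theorem mzf2_smul_algebraMap (a : A0 N) :
    arithmeticGalois (modularFunctionFieldFull N) c • (algebraMap (A0 N) (Fbar N) a) =
      algebraMap (A0 N) (Fbar N) (mzf2_cA0 N c a) := by
  apply Subtype.ext
  rfl

variable {c}

/-- **key lemma (K)**: `an (c a) (z) = conj (an a (-z̄))` -/
theorem mzf2_an_cA0 (hc : mzf2_IsConj c) (a : A0 N) :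
    (gw_ctxBar N).an (mzf2_cA0 N c a) = mzf2_cj ((gw_ctxBar N).an a) := by
  rw [gw_ctxBar_an, gw_ctxBar_an, br_an_coe]
  refine br_anFun_eq N _ ?_
  have h := mzf2_hasLaurentQ_cj (br_an_spec N a)
  have e : coeffMap (starRingEnd ℂ)
      (coeffMap (br_iota : Kbar →+* ℂ) (a : LaurentSeries Kbar)) =
      coeffMap (br_iota : Kbar →+* ℂ) ((mzf2_cA0 N c a : A0 N) : LaurentSeries Kbar) := by
    rw [mzf2_cA0_coe, coeffMap_coeffMap, coeffMap_coeffMap]
    exact coeffMap_congr (RingHom.ext fun x => (hc x).symm) _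
  rw [← e]
  exact h

/-- the conjugate character `γ ↦ conj (χ (J γ J))` -/
def mzf2_conjChar (χ : ↥(Gamma0 N) →* ℂˣ) : ↥(Gamma0 N) →* ℂˣ :=
  (Units.map ((starRingEnd ℂ : ℂ →+* ℂ) : ℂ →* ℂ)).comp (χ.comp (jConjGamma0 N))

theorem mzf2_conjChar_apply (χ : ↥(Gamma0 N) →* ℂˣ) (γ : ↥(Gamma0 N)) :
    ((mzf2_conjChar N χ γ : ℂˣ) : ℂ) = conj ((χ (jConjGamma0 N γ) : ℂˣ) : ℂ) := rfl

theorem mzf2_conjChar_conjChar (χ : ↥(Gamma0 N) →* ℂˣ) :
    mzf2_conjChar N (mzf2_conjChar N χ) = χ := by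
  refine MonoidHom.ext fun γ => Units.ext ?_
  rw [mzf2_conjChar_apply, mzf2_conjChar_apply, Complex.conj_conj, jConjGamma0_jConjGamma0]

theorem mzf2_conjChar_mul (χ χ' : ↥(Gamma0 N) →* ℂˣ) :
    mzf2_conjChar N (χ * χ') = mzf2_conjChar N χ * mzf2_conjChar N χ' := by
  refine MonoidHom.ext fun γ => Units.ext ?_
  simp only [mzf2_conjChar_apply, MonoidHom.mul_apply, Units.val_mul, map_mul]

variable {N}

/-- **complex conjugation on characters**: if `f` has the character `χ` then `c • f` has the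
character `γ ↦ conj (χ (J γ J))` -/
theorem mzf2_hasChar_conj (hc : mzf2_IsConj c) {n : ℕ} {f : Fbar N} {χ : ↥(Gamma0 N) →* ℂˣ}
    (h : gw_HasChar (gw_ctxBar N) n f χ) :
    gw_HasChar (gw_ctxBar N) n (arithmeticGalois (modularFunctionFieldFull N) c • f)
      (mzf2_conjChar N χ) := by
  obtain ⟨a, b, g, hb, hab, hg, hg0, hga, hgχ⟩ := h
  refine ⟨mzf2_cA0 N c a, mzf2_cA0 N c b, mzf2_cj g, mzf2_cA0_ne_zero N c hb, ?_,
    mzf2_cj_mdiff hg, fun h0 => hg0 ((mzf2_cj_eq_zero_iff g).mp h0), ?_, ?_⟩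
  · rw [← mzf2_smul_algebraMap, ← mzf2_smul_algebraMap, hab, smul_mul', smul_pow']
  · intro z
    rw [mzf2_an_cA0 N hc a, mzf2_cj_apply, mzf2_cj_apply, ← map_pow, hga]
  · intro γ z
    rw [mzf2_cj_apply, mzf2_cj_apply, mzf2_refl_smul]
    have h1 := hgχ (jConjGamma0 N γ) (mzf2_refl z)
    rw [jConjGamma0_coe] at h1
    rw [h1, map_mul, mzf2_conjChar_apply]

end Fermat.Agent.MZ
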