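/-
MAZUR / (F2) / [BAL2] (helper12, prefix `mzf2b_`): THE `r = 2` BALANCE, abstract core.

`J` an abelian group with divisible `r`-power torsion and finite free Tate module `T = tm_T J r`.
`H ⊆ End J` a ring of operators commuting on the `r`-power torsion (the Hecke ring), `W k ⊆ J[r^k]`
a compatible system of subgroups cut out by projectors `t_k ∈ H` (the `𝔓`-primary parts),
`a` (an inertia element `σ₀` at `r`), `c` (complex conjugation) automorphisms of `J` commuting with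
`H`, `ε₀ ∈ ℤ_r` (`= χ_cyc(σ₀) ≠ 1`) with
* `loc`  : `(a - ε₀)(a - 1) = 0` on `W k`   (ordinary filtration at `r`: [HOPF] (e));
* `cheb` : `c a - ε₀ a⁻¹ c` acts on `J[r^k]` as an element of `H`   (Chebotarev + Eichler–Shimura);
* `tr`   : `trace (c x | T) = 0` for `x ∈ H`   ([CONJ] + [BAL]).
Then for every subgroup `G0 ≤ W k` on which `a = ε₀`:
  `|G0|² ≤ |W v|² |W k|`,  `v = v_r(ε₀ - 1)`      (`mzf2b_main`).
-/
import Mathlib
import Fermat.Agent.JT3.Tate.Free
import Fermat.Agent.MZ.F2.TraceTwo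

set_option autoImplicit false
set_option linter.unusedSectionVars false
set_option linter.style.haveILetI false

noncomputable section

namespace Fermat.Agent.MZ

open Fermat.Agent.JT3

variable {J : Type*} [AddCommGroup J] {r : ℕ} [hr : Fact r.Prime]

/-- the hypotheses of the abstract core -/
structure mzf2b_Hyp (H : Subring (AddMonoid.End J)) (W : ℕ → AddSubgroup J)
    (a ai c : AddMonoid.End J) (ε₀ : ℤ_[r]) : Prop where
  comm : ∀ x ∈ H, ∀ y ∈ H, ∀ z : J, (∃ n : ℕ, r ^ n • z = 0) → x (y z) = y (x z)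
  comm_a : ∀ x ∈ H, ∀ z : J, (∃ n : ℕ, r ^ n • z = 0) → x (a z) = a (x z)
  comm_c : ∀ x ∈ H, ∀ z : J, (∃ n : ℕ, r ^ n • z = 0) → x (c z) = c (x z)
  a_ai : ∀ z : J, a (ai z) = z
  ai_a : ∀ z : J, ai (a z) = z
  c_c : ∀ z : J, c (c z) = z
  Wfin : ∀ k, Finite (W k)
  Wtor : ∀ k, ∀ y ∈ W k, r ^ k • y = 0
  Wmono : ∀ k, W k ≤ W (k + 1)
  Wcap : ∀ k, ∀ y ∈ W (k + 1), r ^ k • y = 0 → y ∈ W k
  proj : ∀ k, ∃ t ∈ H, (∀ y : J, r ^ k • y = 0 → t y ∈ W k) ∧ ∀ y ∈ W k, t y = y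
  div : ∀ y : J, (∃ n : ℕ, r ^ n • y = 0) → ∃ z : J, r • z = y
  loc : ∀ k, ∀ y ∈ W k, a (a y - y) = (PadicInt.toZModPow k ε₀).val • (a y - y)
  cheb : ∀ k, ∃ x ∈ H, ∀ y : J, r ^ k • y = 0 →
    c (a y) - (PadicInt.toZModPow k ε₀).val • ai (c y) = x y
  tr : ∀ x ∈ H, LinearMap.trace ℤ_[r] (tm_T J r) (tm_map J r c * tm_map J r x) = 0

section core

variable {H : Subring (AddMonoid.End J)} {W : ℕ → AddSubgroup J} {a ai c : AddMonoid.End J}
  {ε₀ : ℤ_[r]} (hyp : mzf2b_Hyp H W a ai c ε₀)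

include hyp

/-- the chosen projector at level `k` -/
def mzf2b_t (k : ℕ) : AddMonoid.End J := Classical.choose (hyp.proj k)

theorem mzf2b_t_mem (k : ℕ) : mzf2b_t hyp k ∈ H := (Classical.choose_spec (hyp.proj k)).1

theorem mzf2b_t_maps (k : ℕ) {y : J} (hy : r ^ k • y = 0) : mzf2b_t hyp k y ∈ W k :=
  (Classical.choose_spec (hyp.proj k)).2.1 y hy

theorem mzf2b_t_id (k : ℕ) {y : J} (hy : y ∈ W k) : mzf2b_t hyp k y = y :=
  (Classical.choose_spec (hyp.proj k)).2.2 y hy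

/-- the projectors are compatible -/
theorem mzf2b_t_succ (k : ℕ) {y : J} (hy : r ^ k • y = 0) :
    mzf2b_t hyp (k + 1) y = mzf2b_t hyp k y := by
  have hy1 : r ^ (k + 1) • y = 0 := by rw [pow_succ, mul_nsmul, hy, smul_zero]
  have h1 : mzf2b_t hyp (k + 1) y ∈ W (k + 1) := mzf2b_t_maps hyp (k + 1) hy1
  have h2 : mzf2b_t hyp (k + 1) y ∈ W k :=
    hyp.Wcap k _ h1 (by rw [← map_nsmul, hy, map_zero])
  have h3 : mzf2b_t hyp k y ∈ W (k + 1) := hyp.Wmono k (mzf2b_t_maps hyp k hy)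
  have h4 := mzf2b_t_id hyp k h2
  have h5 := mzf2b_t_id hyp (k + 1) h3
  rw [← h4, hyp.comm _ (mzf2b_t_mem hyp k) _ (mzf2b_t_mem hyp (k + 1)) y ⟨k, hy⟩, h5]

/-- **the projector `e` onto the `W`-part of the Tate module** -/
def mzf2b_e : Module.End ℤ_[r] (tm_T J r) where
  toFun x := ⟨fun k => mzf2b_t hyp k (x.1 k), fun k =>
    ⟨by rw [← map_nsmul, tm_tor, map_zero],
     by rw [← map_nsmul, tm_compat, mzf2b_t_succ hyp k (tm_tor x k)]⟩⟩
  map_add' x y := tm_ext fun k => map_add (mzf2b_t hyp k) (x.1 k) (y.1 k)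
  map_smul' s x := tm_ext fun k => map_nsmul (mzf2b_t hyp k) _ _

theorem mzf2b_e_apply (x : tm_T J r) (k : ℕ) :
    (mzf2b_e hyp x).1 k = mzf2b_t hyp k (x.1 k) := rfl

theorem mzf2b_e_mem (x : tm_T J r) (k : ℕ) : (mzf2b_e hyp x).1 k ∈ W k :=
  mzf2b_t_maps hyp k (tm_tor x k)

theorem mzf2b_e_idem : mzf2b_e hyp * mzf2b_e hyp = mzf2b_e hyp :=
  LinearMap.ext fun x => tm_ext fun k => mzf2b_t_id hyp k (mzf2b_e_mem hyp x k)

/-- `e` commutes with the operators commuting with `H` -/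
theorem mzf2b_e_comm (f : AddMonoid.End J)
    (hf : ∀ x ∈ H, ∀ z : J, (∃ n : ℕ, r ^ n • z = 0) → x (f z) = f (x z)) :
    tm_map J r f * mzf2b_e hyp = mzf2b_e hyp * tm_map J r f :=
  LinearMap.ext fun x => tm_ext fun k =>
    (hf _ (mzf2b_t_mem hyp k) (x.1 k) ⟨k, tm_tor x k⟩).symm

end core

/-! ### traces of endomorphisms vanishing at level `k` -/

section small

variable [Module.Free ℤ_[r] (tm_T J r)] [Module.Finite ℤ_[r] (tm_T J r)]

/-- an endomorphism of the Tate module vanishing at level `k` has trace divisible by `r ^ k` -/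
theorem mzf2b_trace_small (F : Module.End ℤ_[r] (tm_T J r)) (k : ℕ)
    (hF : ∀ x : tm_T J r, (F x).1 k = 0) :
    ∃ s : ℤ_[r], LinearMap.trace ℤ_[r] (tm_T J r) F = (r : ℤ_[r]) ^ k * s := by
  classical
  let b := Module.Free.chooseBasis ℤ_[r] (tm_T J r)
  have hy : ∀ i, ∃ y : tm_T J r, F (b i) = ((r : ℤ_[r]) ^ k) • y := fun i =>
    tm_exists_eq_smul (F (b i)) k (hF (b i))
  choose y hy using hy
  refine ⟨∑ i, b.repr (y i) i, ?_⟩
  rw [LinearMap.trace_eq_matrix_trace ℤ_[r] b F, Matrix.trace, Finset.mul_sum]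
  refine Finset.sum_congr rfl fun i _ => ?_
  rw [Matrix.diag_apply, LinearMap.toMatrix_apply, hy i, map_smul, Finsupp.smul_apply,
    smul_eq_mul]

/-- an element of `ℤ_r` divisible by every power of `r` is zero -/
theorem mzf2b_eq_zero_of_forall_dvd (z : ℤ_[r]) (h : ∀ k : ℕ, ∃ s : ℤ_[r], z = (r : ℤ_[r]) ^ k * s) :
    z = 0 := by
  by_contra hz
  have hpos : 0 < ‖z‖ := norm_pos_iff.2 hz
  have hr1 : (r : ℝ)⁻¹ < 1 := by
    apply inv_lt_one_of_one_lt₀
    exact_mod_cast hr.out.one_lt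
  have hr0 : (0 : ℝ) ≤ (r : ℝ)⁻¹ := by positivity
  obtain ⟨k, hk⟩ := exists_pow_lt_of_lt_one hpos hr1
  obtain ⟨s, hs⟩ := h k
  have : ‖z‖ ≤ ((r : ℝ)⁻¹) ^ k := by
    rw [hs, norm_mul, norm_pow, PadicInt.norm_p]
    calc ((r : ℝ)⁻¹) ^ k * ‖s‖ ≤ ((r : ℝ)⁻¹) ^ k * 1 :=
          mul_le_mul_of_nonneg_left (PadicInt.norm_le_one s) (pow_nonneg hr0 k)
      _ = ((r : ℝ)⁻¹) ^ k := mul_one _
  exact absurd hk (not_lt.2 this)

end small

section core2

variable {H : Subring (AddMonoid.End J)} {W : ℕ → AddSubgroup J} {a ai c : AddMonoid.End J}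
  {ε₀ : ℤ_[r]} (hyp : mzf2b_Hyp H W a ai c ε₀)
  [Module.Free ℤ_[r] (tm_T J r)] [Module.Finite ℤ_[r] (tm_T J r)]

include hyp

theorem mzf2b_C_sq : tm_map J r c * tm_map J r c = 1 := by
  rw [← map_mul, ← map_one (tm_map J r)]
  congr 1
  exact AddMonoidHom.ext fun z => hyp.c_c z

theorem mzf2b_Ai_A : tm_map J r ai * tm_map J r a = 1 := by
  rw [← map_mul, ← map_one (tm_map J r)]
  congr 1
  exact AddMonoidHom.ext fun z => hyp.ai_a z

/-- the key trace vanishes -/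
theorem mzf2b_trace_key :
    LinearMap.trace ℤ_[r] (tm_T J r)
      (tm_map J r c * (tm_map J r c * tm_map J r a - ε₀ • (tm_map J r ai * tm_map J r c)) *
        mzf2b_e hyp) = 0 := by
  apply mzf2b_eq_zero_of_forall_dvd
  intro k
  obtain ⟨x, hxH, hx⟩ := hyp.cheb k
  set X := tm_map J r c * (tm_map J r c * tm_map J r a - ε₀ • (tm_map J r ai * tm_map J r c)) *
        mzf2b_e hyp with hX
  have hxt : x * mzf2b_t hyp k ∈ H := H.mul_mem hxH (mzf2b_t_mem hyp k)
  obtain ⟨s, hs⟩ := mzf2b_trace_small (X - tm_map J r c * tm_map J r (x * mzf2b_t hyp k)) k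
    (fun z => by
      have hz : r ^ k • mzf2b_t hyp k (z.1 k) = 0 := by rw [← map_nsmul, tm_tor, map_zero]
      have := hx _ hz
      rw [LinearMap.sub_apply, tm_sub_apply, sub_eq_zero]
      show c (c (a (mzf2b_t hyp k (z.1 k))) -
          (PadicInt.toZModPow k ε₀).val • ai (c (mzf2b_t hyp k (z.1 k)))) =
        c (x (mzf2b_t hyp k (z.1 k)))
      rw [this])
  refine ⟨s, ?_⟩
  rw [map_sub, hyp.tr _ hxt, sub_zero] at hs
  exact hs

/-- `trace (A e) = ε₀ trace (A⁻¹ e)` -/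
theorem mzf2b_trace_id :
    LinearMap.trace ℤ_[r] (tm_T J r) (tm_map J r a * mzf2b_e hyp) =
      ε₀ * LinearMap.trace ℤ_[r] (tm_T J r) (tm_map J r ai * mzf2b_e hyp) := by
  have h0 := mzf2b_trace_key hyp
  have hCe : tm_map J r c * mzf2b_e hyp = mzf2b_e hyp * tm_map J r c :=
    mzf2b_e_comm hyp c hyp.comm_c
  have hCC := mzf2b_C_sq hyp
  have h1 : tm_map J r c * (tm_map J r c * tm_map J r a - ε₀ • (tm_map J r ai * tm_map J r c)) *
        mzf2b_e hyp = tm_map J r a * mzf2b_e hyp -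
          ε₀ • (tm_map J r c * ((tm_map J r ai * tm_map J r c) * mzf2b_e hyp)) := by
    rw [mul_sub, ← mul_assoc, hCC, one_mul, sub_mul, mul_smul_comm, smul_mul_assoc, mul_assoc]
  have h2 : LinearMap.trace ℤ_[r] (tm_T J r)
      (tm_map J r c * ((tm_map J r ai * tm_map J r c) * mzf2b_e hyp)) =
      LinearMap.trace ℤ_[r] (tm_T J r) (tm_map J r ai * mzf2b_e hyp) := by
    rw [LinearMap.trace_mul_comm, mul_assoc, mul_assoc, ← hCe, ← mul_assoc (tm_map J r c), hCC,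
      one_mul]
  rw [h1, map_sub, map_smul, h2, smul_eq_mul, sub_eq_zero] at h0
  exact h0

/-- the ordinary relation on the `W`-part of the Tate module -/
theorem mzf2b_loc_tate :
    (tm_map J r a - 1) * (tm_map J r a - ε₀ • 1) * mzf2b_e hyp = 0 := by
  refine LinearMap.ext fun x => tm_ext fun k => ?_
  have hy : mzf2b_t hyp k (x.1 k) ∈ W k := mzf2b_e_mem hyp x k
  have h := hyp.loc k _ hy
  set y := mzf2b_t hyp k (x.1 k) with hydef
  show a (a y - (PadicInt.toZModPow k ε₀).val • y) - (a y - (PadicInt.toZModPow k ε₀).val • y) = 0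
  rw [map_sub] at h
  rw [map_sub, map_nsmul]
  rw [smul_sub] at h
  rw [sub_eq_zero]
  have : a (a y) = a y + ((PadicInt.toZModPow k ε₀).val • a y - (PadicInt.toZModPow k ε₀).val • y) := by
    rw [← h]; abel
  rw [this]; abel

/-- **half**: the rank of `(A - 1) e` is half the rank of `e` -/
theorem mzf2b_rank_half (hε : ε₀ ≠ 1) :
    2 * Module.finrank ℤ_[r] (LinearMap.range ((tm_map J r a - 1) * mzf2b_e hyp)) =
      Module.finrank ℤ_[r] (LinearMap.range (mzf2b_e hyp)) :=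
  mzf2b_half (mzf2b_e hyp) (tm_map J r a) (tm_map J r ai) ε₀ hε (mzf2b_e_idem hyp)
    (mzf2b_e_comm hyp a hyp.comm_a) (mzf2b_Ai_A hyp) (mzf2b_loc_tate hyp) (mzf2b_trace_id hyp)

end core2

/-! ### counting at finite level -/

section count

variable {H : Subring (AddMonoid.End J)} {W : ℕ → AddSubgroup J} {a ai c : AddMonoid.End J}
  {ε₀ : ℤ_[r]} (hyp : mzf2b_Hyp H W a ai c ε₀)

theorem mzf2b_val_sub {k : ℕ} [NeZero k] {y : J} (h : k • y = 0) (s t : ZMod k) :
    (s - t).val • y = s.val • y - t.val • y := by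
  have := tm_val_add h (s - t) t
  rw [sub_add_cancel] at this
  rw [this, add_sub_cancel_right]

include hyp

theorem mzf2b_W_mono {j k : ℕ} (hjk : j ≤ k) : W j ≤ W k := by
  induction k, hjk using Nat.le_induction with
  | base => exact le_rfl
  | succ k _ ih => exact ih.trans (hyp.Wmono k)

theorem mzf2b_W_cap {j k : ℕ} (hjk : j ≤ k) {y : J} (hy : y ∈ W k) (hj : r ^ j • y = 0) :
    y ∈ W j := by
  induction k, hjk using Nat.le_induction with
  | base => exact hy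
  | succ k hk ih =>
    refine ih (hyp.Wcap k y hy ?_)
    obtain ⟨i, rfl⟩ := Nat.exists_eq_add_of_le hk
    rw [pow_add, mul_nsmul, hj, smul_zero]

variable [Module.Free ℤ_[r] (tm_T J r)] [Module.Finite ℤ_[r] (tm_T J r)]

/-- **lower bound**: `|W k| ≥ r ^ (k * rank e)` -/
theorem mzf2b_card_W_ge (k : ℕ) :
    r ^ (k * Module.finrank ℤ_[r] (LinearMap.range (mzf2b_e hyp))) ≤ Nat.card (W k) := by
  classical
  haveI := hyp.Wfin k
  haveI : NeZero (r ^ k) := ⟨pow_ne_zero _ hr.out.ne_zero⟩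
  set d := Module.finrank ℤ_[r] (LinearMap.range (mzf2b_e hyp)) with hd
  let b : Module.Basis (Fin d) ℤ_[r] (LinearMap.range (mzf2b_e hyp)) :=
    Module.finBasis ℤ_[r] (LinearMap.range (mzf2b_e hyp))
  have hbW : ∀ i, ((b i : tm_T J r).1 k) ∈ W k := fun i => by
    obtain ⟨x, hx⟩ := (b i).2
    rw [← hx]
    exact mzf2b_e_mem hyp x k
  let φ : (Fin d → ZMod (r ^ k)) → W k := fun cc =>
    ⟨∑ i, (cc i).val • ((b i : tm_T J r).1 k),
      (W k).sum_mem fun i _ => (W k).nsmul_mem (hbW i) _⟩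
  have hφ : Function.Injective φ := by
    intro cc cc' hcc
    have hcc' : ∑ i, (cc i).val • ((b i : tm_T J r).1 k) =
        ∑ i, (cc' i).val • ((b i : tm_T J r).1 k) := congrArg Subtype.val hcc
    -- the difference, in the Tate module
    set z : LinearMap.range (mzf2b_e hyp) :=
      ∑ i, ((((cc i).val : ℕ) : ℤ_[r]) - (((cc' i).val : ℕ) : ℤ_[r])) • b i with hz
    have hzk : (z : tm_T J r).1 k = 0 := by
      have h1 : (z : tm_T J r) =
          ∑ i, ((((cc i).val : ℕ) : ℤ_[r]) - (((cc' i).val : ℕ) : ℤ_[r])) • (b i : tm_T J r) := by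
        rw [hz]
        simp only [Submodule.coe_sum, Submodule.coe_smul]
      have h2 : ∀ (s : Finset (Fin d)) (g : Fin d → tm_T J r), (∑ i ∈ s, g i).1 k =
          ∑ i ∈ s, (g i).1 k := by
        intro s g
        exact map_sum (tm_proj J r k) g s
      rw [h1, h2]
      simp only [sub_smul, tm_sub_apply, tm_natCast_smul_apply, Finset.sum_sub_distrib]
      rw [hcc', sub_self]
    obtain ⟨y, hy⟩ := tm_exists_eq_smul (z : tm_T J r) k hzk
    have hez : mzf2b_e hyp (z : tm_T J r) = z := by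
      obtain ⟨x, hx⟩ := z.2
      rw [← hx]
      exact LinearMap.congr_fun (mzf2b_e_idem hyp) x
    have hz2 : z = ((r : ℤ_[r]) ^ k) • (⟨mzf2b_e hyp y, ⟨y, rfl⟩⟩ : LinearMap.range (mzf2b_e hyp)) := by
      apply Subtype.ext
      rw [Submodule.coe_smul, ← hez, hy, map_smul]
    funext i
    have h3 : b.repr z i = (((cc i).val : ℕ) : ℤ_[r]) - (((cc' i).val : ℕ) : ℤ_[r]) := by
      rw [hz, b.repr_sum_self]
    have h4 : b.repr z i = (r : ℤ_[r]) ^ k * b.repr ⟨mzf2b_e hyp y, ⟨y, rfl⟩⟩ i := by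
      rw [hz2, map_smul, Finsupp.smul_apply, smul_eq_mul]
    have h5 : PadicInt.toZModPow k ((((cc i).val : ℕ) : ℤ_[r]) - (((cc' i).val : ℕ) : ℤ_[r])) = 0 := by
      rw [← h3, h4, map_mul, map_pow, map_natCast]
      have : ((r : ZMod (r ^ k)) ^ k) = 0 := by
        rw [← Nat.cast_pow]; exact ZMod.natCast_self _
      rw [this, zero_mul]
    rw [map_sub, map_natCast, map_natCast, ZMod.natCast_zmod_val, ZMod.natCast_zmod_val,
      sub_eq_zero] at h5
    exact h5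
  have hcard := Nat.card_le_card_of_injective φ hφ
  rw [Nat.card_fun, Nat.card_eq_fintype_card, ZMod.card, Nat.card_eq_fintype_card,
    Fintype.card_fin, ← pow_mul] at hcard
  exact hcard

omit hyp in
/-- `y ↦ a y - y` -/
def mzf2b_am (a : AddMonoid.End J) : J →+ J where
  toFun y := a y - y
  map_zero' := by rw [map_zero, sub_zero]
  map_add' x y := by rw [map_add]; abel

omit hyp in
/-- the subgroup `(a - 1) W_k` -/
def mzf2b_D (W : ℕ → AddSubgroup J) (a : AddMonoid.End J) (k : ℕ) : AddSubgroup J :=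
  (W k).map (mzf2b_am a)

omit hyp in
theorem mzf2b_mem_D {k : ℕ} {z : J} :
    z ∈ mzf2b_D W a k ↔ ∃ y ∈ W k, a y - y = z := by
  unfold mzf2b_D
  rw [AddSubgroup.mem_map]
  rfl

/-- **upper bound**: `|(a - 1) W_k| ≤ r ^ (k * rank ((A - 1) e))` -/
theorem mzf2b_card_D_le (k : ℕ) :
    Nat.card (mzf2b_D W a k) ≤
      r ^ (k * Module.finrank ℤ_[r] (LinearMap.range ((tm_map J r a - 1) * mzf2b_e hyp))) := by
  classical
  haveI : NeZero (r ^ k) := ⟨pow_ne_zero _ hr.out.ne_zero⟩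
  set B : Module.End ℤ_[r] (tm_T J r) := (tm_map J r a - 1) * mzf2b_e hyp with hB
  set m := Module.finrank ℤ_[r] (LinearMap.range B) with hm
  let β : Module.Basis (Fin m) ℤ_[r] (LinearMap.range B) := Module.finBasis ℤ_[r] (LinearMap.range B)
  let ψ : (Fin m → ZMod (r ^ k)) → J := fun cc => ∑ i, (cc i).val • ((β i : tm_T J r).1 k)
  have hsub : (mzf2b_D W a k : Set J) ⊆ Set.range ψ := by
    intro z hz
    obtain ⟨y, hy, rfl⟩ := mzf2b_mem_D.1 hz
    obtain ⟨x, hx⟩ := tm_exists_of_div hyp.div k (hyp.Wtor k y hy)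
    have hBx : (B x).1 k = a y - y := by
      show a (mzf2b_t hyp k (x.1 k)) - mzf2b_t hyp k (x.1 k) = a y - y
      rw [hx, mzf2b_t_id hyp k hy]
    set w : LinearMap.range B := ⟨B x, ⟨x, rfl⟩⟩ with hw
    refine ⟨fun i => PadicInt.toZModPow k (β.repr w i), ?_⟩
    have h1 : (w : tm_T J r) = ∑ i, β.repr w i • (β i : tm_T J r) := by
      conv_lhs => rw [← β.sum_repr w]
      simp only [Submodule.coe_sum, Submodule.coe_smul]
    have h2 : ∀ (s : Finset (Fin m)) (g : Fin m → tm_T J r), (∑ i ∈ s, g i).1 k =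
        ∑ i ∈ s, (g i).1 k := by
      intro s g
      exact map_sum (tm_proj J r k) g s
    have h3 : (w : tm_T J r).1 k = a y - y := hBx
    rw [← h3, h1, h2]
    rfl
  have hfin : (Set.range ψ).Finite := Set.finite_range ψ
  calc Nat.card (mzf2b_D W a k) = (mzf2b_D W a k : Set J).ncard := rfl
    _ ≤ (Set.range ψ).ncard := Set.ncard_le_ncard hsub hfin
    _ ≤ Nat.card (Fin m → ZMod (r ^ k)) := by
      rw [← Set.image_univ]
      calc (ψ '' Set.univ).ncard ≤ (Set.univ : Set (Fin m → ZMod (r ^ k))).ncard :=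
            Set.ncard_image_le Set.finite_univ
        _ = Nat.card (Fin m → ZMod (r ^ k)) := Set.ncard_univ _
    _ = r ^ (k * m) := by
      rw [Nat.card_fun, Nat.card_eq_fintype_card, ZMod.card, Nat.card_eq_fintype_card,
        Fintype.card_fin, ← pow_mul]

/-- **[BAL2], abstract form**: a subgroup of `W k` on which `a` acts through `ε₀` has at most
`|W v| · |W k|^(1/2)` elements. -/
theorem mzf2b_main (hε : ε₀ ≠ 1) (v : ℕ) (w w' : ℤ_[r]) (hw : ε₀ - 1 = (r : ℤ_[r]) ^ v * w)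
    (hww' : w' * w = 1) (k : ℕ) (G0 : AddSubgroup J) (hG0 : G0 ≤ W k)
    (hG0a : ∀ z ∈ G0, a z = (PadicInt.toZModPow k ε₀).val • z) :
    Nat.card G0 ^ 2 ≤ Nat.card (W v) ^ 2 * Nat.card (W k) := by
  classical
  haveI := hyp.Wfin k
  haveI := hyp.Wfin v
  haveI : NeZero (r ^ k) := ⟨pow_ne_zero _ hr.out.ne_zero⟩
  haveI : Finite G0 := Finite.of_injective (fun z : G0 => (⟨z.1, hG0 z.2⟩ : W k))
    (fun z z' h => Subtype.ext (congrArg (fun u : W k => (u : J)) h))
  set m := Module.finrank ℤ_[r] (LinearMap.range ((tm_map J r a - 1) * mzf2b_e hyp)) with hm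
  set d := Module.finrank ℤ_[r] (LinearMap.range (mzf2b_e hyp)) with hd
  have hhalf : 2 * m = d := mzf2b_rank_half hyp hε
  have hWk : r ^ (k * d) ≤ Nat.card (W k) := mzf2b_card_W_ge hyp k
  have hDk : Nat.card (mzf2b_D W a k) ≤ r ^ (k * m) := mzf2b_card_D_le hyp k
  haveI : Finite (mzf2b_D W a k) := by
    unfold mzf2b_D
    exact Set.Finite.to_subtype ((Set.toFinite (W k : Set J)).image _)
  -- the homomorphism `z ↦ a z - z` on `G0`
  let f : G0 →+ J := (mzf2b_am a).comp G0.subtype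
  have hrange : f.range ≤ mzf2b_D W a k := by
    rintro _ ⟨z, rfl⟩
    exact mzf2b_mem_D.2 ⟨z.1, hG0 z.2, rfl⟩
  have h1 : Nat.card f.range ≤ r ^ (k * m) := (AddSubgroup.card_le_of_le hrange).trans hDk
  -- the kernel sits in `W v`
  have hker : ∀ z : f.ker, (z.1 : J) ∈ W v := by
    intro z
    have hzW : (z.1 : J) ∈ W k := hG0 z.1.2
    have htor : r ^ k • (z.1 : J) = 0 := hyp.Wtor k _ hzW
    have hz0 : a (z.1 : J) - (z.1 : J) = 0 := z.2
    have hz1 : (PadicInt.toZModPow k ε₀).val • (z.1 : J) = (z.1 : J) := by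
      rw [← hG0a _ z.1.2]; exact sub_eq_zero.1 hz0
    -- `(ε₀ - 1) z = 0`
    have hz2 : (PadicInt.toZModPow k (ε₀ - 1)).val • (z.1 : J) = 0 := by
      rw [map_sub, map_one, mzf2b_val_sub htor, hz1, tm_val_one htor, sub_self]
    -- `r ^ v z = 0`
    have hz3 : r ^ v • (z.1 : J) = 0 := by
      have h3 : (PadicInt.toZModPow k (w' * (ε₀ - 1))).val • (z.1 : J) = 0 := by
        rw [map_mul, tm_val_mul htor, hz2, smul_zero]
      have h4 : w' * (ε₀ - 1) = ((r ^ v : ℕ) : ℤ_[r]) := by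
        rw [hw, mul_comm ((r : ℤ_[r]) ^ v), ← mul_assoc, hww', one_mul, Nat.cast_pow]
      rw [h4, map_natCast, tm_val_nsmul htor] at h3
      exact h3
    rcases le_total v k with hvk | hkv
    · exact mzf2b_W_cap hyp hvk hzW hz3
    · exact mzf2b_W_mono hyp hkv hzW
  have h2 : Nat.card f.ker ≤ Nat.card (W v) :=
    Nat.card_le_card_of_injective (fun z : f.ker => (⟨(z.1 : J), hker z⟩ : W v))
      (fun z z' h => Subtype.ext (Subtype.ext (congrArg (fun u : W v => (u : J)) h)))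
  have h3 : Nat.card G0 = Nat.card f.ker * Nat.card f.range := by
    rw [← AddSubgroup.index_ker f, AddSubgroup.card_mul_index]
  calc Nat.card G0 ^ 2 = (Nat.card f.ker * Nat.card f.range) ^ 2 := by rw [h3]
    _ ≤ (Nat.card (W v) * r ^ (k * m)) ^ 2 :=
      Nat.pow_le_pow_left (Nat.mul_le_mul h2 h1) 2
    _ = Nat.card (W v) ^ 2 * r ^ (k * d) := by
      rw [mul_pow, ← pow_mul, ← hhalf]
      congr 2
      ring
    _ ≤ Nat.card (W v) ^ 2 * Nat.card (W k) := Nat.mul_le_mul_left _ hWk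

end count

end Fermat.Agent.MZ
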