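/-
MAZUR / (F2) (helper12, prefix `mzf2k_`): THE BALANCE FOR COMPLEX CONJUGATION, abstract core.

In the setting of `MZ/F2/Core.lean` (`mzf2b_Hyp`; only the fields about `H`, `W`, `c` are used):
`trace(c x | T) = 0` for `x` in the Hecke ring `H` implies, for every `k` and every subgroup `F`
containing the `c`-fixed points of `W k`,
      `|W k| ≤ |F|²`                                  (`mzf2k_main`).
Valid for every prime `r`, including `r = 2` (no eigenspace decomposition is used: `B = (C + 1) e`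
satisfies `B² = 2 B`, so `trace B = 2 rank B`, and `trace B = trace (C e) + trace e = rank e`).
-/
import Mathlib
import Fermat.Agent.MZ.F2.Core

set_option autoImplicit false
set_option linter.unusedSectionVars false
set_option linter.style.haveILetI false

noncomputable section

namespace Fermat.Agent.MZ

open Fermat.Agent.JT3

variable {J : Type*} [AddCommGroup J] {r : ℕ} [hr : Fact r.Prime]

section core

variable {H : Subring (AddMonoid.End J)} {W : ℕ → AddSubgroup J} {a ai c : AddMonoid.End J}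
  {ε₀ : ℤ_[r]} (hyp : mzf2b_Hyp H W a ai c ε₀)
  [Module.Free ℤ_[r] (tm_T J r)] [Module.Finite ℤ_[r] (tm_T J r)]

include hyp

/-- `trace(C e) = 0` -/
theorem mzf2k_trace_Ce :
    LinearMap.trace ℤ_[r] (tm_T J r) (tm_map J r c * mzf2b_e hyp) = 0 := by
  apply mzf2b_eq_zero_of_forall_dvd
  intro k
  obtain ⟨s, hs⟩ := mzf2b_trace_small
    (tm_map J r c * mzf2b_e hyp - tm_map J r c * tm_map J r (mzf2b_t hyp k)) k
    (fun z => by
      rw [LinearMap.sub_apply, tm_sub_apply, sub_eq_zero]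
      rfl)
  refine ⟨s, ?_⟩
  rw [map_sub, hyp.tr _ (mzf2b_t_mem hyp k), sub_zero] at hs
  exact hs

/-- the rank of `e` is twice the rank of `(C + 1) e` -/
theorem mzf2k_rank :
    Module.finrank ℤ_[r] (LinearMap.range (mzf2b_e hyp)) =
      2 * Module.finrank ℤ_[r] (LinearMap.range ((tm_map J r c + 1) * mzf2b_e hyp)) := by
  have hCC := mzf2b_C_sq hyp
  have hCe : tm_map J r c * mzf2b_e hyp = mzf2b_e hyp * tm_map J r c :=
    mzf2b_e_comm hyp c hyp.comm_c
  have hee := mzf2b_e_idem hyp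
  set C := tm_map J r c with hC
  set e := mzf2b_e hyp with he
  set B : Module.End ℤ_[r] (tm_T J r) := (C + 1) * e with hB
  have hcomm : e * (C + 1) = (C + 1) * e := by
    rw [mul_add, add_mul, hCe, mul_one, one_mul]
  have hBB : B * B = (2 : ℤ_[r]) • B := by
    rw [hB]
    calc (C + 1) * e * ((C + 1) * e) = (C + 1) * (e * (C + 1)) * e := by simp only [mul_assoc]
      _ = (C + 1) * (C + 1) * (e * e) := by rw [hcomm]; simp only [mul_assoc]
      _ = (2 : ℤ_[r]) • ((C + 1) * e) := by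
        rw [hee]
        have : (C + 1) * (C + 1) = (2 : ℤ_[r]) • (C + 1) := by
          rw [add_mul, mul_add, mul_add, hCC, mul_one, one_mul, one_mul, two_smul]
          abel
        rw [this, smul_mul_assoc]
  have htB := mzf2b_trace_quasiIdem B 2 hBB
  have hte : LinearMap.trace ℤ_[r] (tm_T J r) e =
      (Module.finrank ℤ_[r] (LinearMap.range e) : ℤ_[r]) :=
    (LinearMap.IsIdempotentElem.isProj_range e hee).trace
  have h1 : LinearMap.trace ℤ_[r] (tm_T J r) B =
      LinearMap.trace ℤ_[r] (tm_T J r) (C * e) + LinearMap.trace ℤ_[r] (tm_T J r) e := by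
    rw [hB, add_mul, one_mul, map_add]
  rw [mzf2k_trace_Ce hyp, zero_add, hte] at h1
  rw [h1] at htB
  exact_mod_cast htB

/-- the `c`-fixed part of the `W`-part of the Tate module -/
def mzf2k_Lp : Submodule ℤ_[r] (tm_T J r) :=
  LinearMap.ker (mzf2b_e hyp - 1) ⊓ LinearMap.ker (tm_map J r c - 1)

theorem mzf2k_mem_Lp {x : tm_T J r} :
    x ∈ mzf2k_Lp hyp ↔ mzf2b_e hyp x = x ∧ tm_map J r c x = x := by
  unfold mzf2k_Lp
  rw [Submodule.mem_inf, LinearMap.mem_ker, LinearMap.mem_ker, LinearMap.sub_apply,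
    LinearMap.sub_apply, Module.End.one_apply, sub_eq_zero, sub_eq_zero]

theorem mzf2k_range_le_Lp :
    LinearMap.range ((tm_map J r c + 1) * mzf2b_e hyp) ≤ mzf2k_Lp hyp := by
  rintro _ ⟨x, rfl⟩
  have hCC := mzf2b_C_sq hyp
  have hCe : tm_map J r c * mzf2b_e hyp = mzf2b_e hyp * tm_map J r c :=
    mzf2b_e_comm hyp c hyp.comm_c
  have hee := mzf2b_e_idem hyp
  rw [mzf2k_mem_Lp]
  constructor
  · have : mzf2b_e hyp * ((tm_map J r c + 1) * mzf2b_e hyp) =
        (tm_map J r c + 1) * mzf2b_e hyp := by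
      rw [← mul_assoc, mul_add, mul_one, ← hCe, add_mul, mul_assoc, hee, add_mul, one_mul]
    exact LinearMap.congr_fun this x
  · have : tm_map J r c * ((tm_map J r c + 1) * mzf2b_e hyp) =
        (tm_map J r c + 1) * mzf2b_e hyp := by
      rw [← mul_assoc, mul_add, hCC, mul_one, add_comm]
    exact LinearMap.congr_fun this x

theorem mzf2k_rank_le :
    Module.finrank ℤ_[r] (LinearMap.range (mzf2b_e hyp)) ≤
      2 * Module.finrank ℤ_[r] (mzf2k_Lp hyp) := by
  rw [mzf2k_rank hyp]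
  exact Nat.mul_le_mul_left 2 (Submodule.finrank_mono (mzf2k_range_le_Lp hyp))

/-- **lower bound**: the `c`-fixed points of `W k` contain `r ^ (k * rank L⁺)` elements -/
theorem mzf2k_card_fixed_ge (k : ℕ) (F : AddSubgroup J) [Finite F]
    (hF : ∀ y ∈ W k, c y = y → y ∈ F) :
    r ^ (k * Module.finrank ℤ_[r] (mzf2k_Lp hyp)) ≤ Nat.card F := by
  classical
  haveI : NeZero (r ^ k) := ⟨pow_ne_zero _ hr.out.ne_zero⟩
  set d := Module.finrank ℤ_[r] (mzf2k_Lp hyp) with hd
  let b : Module.Basis (Fin d) ℤ_[r] (mzf2k_Lp hyp) := Module.finBasis ℤ_[r] (mzf2k_Lp hyp)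
  have hbF : ∀ i, ((b i : tm_T J r).1 k) ∈ F := fun i => by
    obtain ⟨h1, h2⟩ := (mzf2k_mem_Lp hyp).1 (b i).2
    refine hF _ ?_ ?_
    · rw [← h1]
      exact mzf2b_e_mem hyp _ k
    · have := congrArg (fun x : tm_T J r => x.1 k) h2
      exact this
  let φ : (Fin d → ZMod (r ^ k)) → F := fun cc =>
    ⟨∑ i, (cc i).val • ((b i : tm_T J r).1 k), F.sum_mem fun i _ => F.nsmul_mem (hbF i) _⟩
  have hφ : Function.Injective φ := by
    intro cc cc' hcc
    have hcc' : ∑ i, (cc i).val • ((b i : tm_T J r).1 k) =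
        ∑ i, (cc' i).val • ((b i : tm_T J r).1 k) := congrArg Subtype.val hcc
    set z : mzf2k_Lp hyp :=
      ∑ i, ((((cc i).val : ℕ) : ℤ_[r]) - (((cc' i).val : ℕ) : ℤ_[r])) • b i with hz
    have hzk : (z : tm_T J r).1 k = 0 := by
      have h1 : (z : tm_T J r) =
          ∑ i, ((((cc i).val : ℕ) : ℤ_[r]) - (((cc' i).val : ℕ) : ℤ_[r])) • (b i : tm_T J r) := by
        rw [hz]
        simp only [Submodule.coe_sum, Submodule.coe_smul]
      have h2 : ∀ (s : Finset (Fin d)) (g : Fin d → tm_T J r), (∑ i ∈ s, g i).1 k =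
          ∑ i ∈ s, (g i).1 k := by
        intro s g
        exact map_sum (tm_proj J r k) g s
      rw [h1, h2]
      simp only [sub_smul, tm_sub_apply, tm_natCast_smul_apply, Finset.sum_sub_distrib]
      rw [hcc', sub_self]
    obtain ⟨y, hy⟩ := tm_exists_eq_smul (z : tm_T J r) k hzk
    -- `y` lies in `L⁺` (saturation)
    have hrk : ((r : ℤ_[r]) ^ k) ≠ 0 := pow_ne_zero _ (by exact_mod_cast hr.out.ne_zero)
    obtain ⟨hz1, hz2⟩ := (mzf2k_mem_Lp hyp).1 z.2
    have hyL : y ∈ mzf2k_Lp hyp := by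
      rw [mzf2k_mem_Lp]
      constructor
      · have : ((r : ℤ_[r]) ^ k) • (mzf2b_e hyp y - y) = 0 := by
          rw [smul_sub, ← map_smul, ← hy, hz1, sub_self]
        exact sub_eq_zero.1 ((smul_eq_zero.1 this).resolve_left hrk)
      · have : ((r : ℤ_[r]) ^ k) • (tm_map J r c y - y) = 0 := by
          rw [smul_sub, ← map_smul, ← hy, hz2, sub_self]
        exact sub_eq_zero.1 ((smul_eq_zero.1 this).resolve_left hrk)
    have hz2' : z = ((r : ℤ_[r]) ^ k) • (⟨y, hyL⟩ : mzf2k_Lp hyp) := by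
      apply Subtype.ext
      rw [Submodule.coe_smul, hy]
    funext i
    have h3 : b.repr z i = (((cc i).val : ℕ) : ℤ_[r]) - (((cc' i).val : ℕ) : ℤ_[r]) := by
      rw [hz, b.repr_sum_self]
    have h4 : b.repr z i = (r : ℤ_[r]) ^ k * b.repr ⟨y, hyL⟩ i := by
      rw [hz2', map_smul, Finsupp.smul_apply, smul_eq_mul]
    have h5 : PadicInt.toZModPow k
        ((((cc i).val : ℕ) : ℤ_[r]) - (((cc' i).val : ℕ) : ℤ_[r])) = 0 := by
      rw [← h3, h4, map_mul, map_pow, map_natCast]
      have : ((r : ZMod (r ^ k)) ^ k) = 0 := by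
        rw [← Nat.cast_pow]; exact ZMod.natCast_self _
      rw [this, zero_mul]
    rw [map_sub, map_natCast, map_natCast, ZMod.natCast_zmod_val, ZMod.natCast_zmod_val,
      sub_eq_zero] at h5
    exact h5
  have hcard := Nat.card_le_card_of_injective φ hφ
  rw [Nat.card_fun, Nat.card_eq_fintype_card, ZMod.card, Nat.card_eq_fintype_card,
    Fintype.card_fin, ← pow_mul] at hcard
  exact hcard

/-- **upper bound**: `|W k| ≤ r ^ (k * rank e)` -/
theorem mzf2k_card_W_le (k : ℕ) :
    Nat.card (W k) ≤ r ^ (k * Module.finrank ℤ_[r] (LinearMap.range (mzf2b_e hyp))) := by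
  classical
  haveI : NeZero (r ^ k) := ⟨pow_ne_zero _ hr.out.ne_zero⟩
  set d := Module.finrank ℤ_[r] (LinearMap.range (mzf2b_e hyp)) with hd
  let β : Module.Basis (Fin d) ℤ_[r] (LinearMap.range (mzf2b_e hyp)) :=
    Module.finBasis ℤ_[r] (LinearMap.range (mzf2b_e hyp))
  let ψ : (Fin d → ZMod (r ^ k)) → J := fun cc => ∑ i, (cc i).val • ((β i : tm_T J r).1 k)
  have hsub : (W k : Set J) ⊆ Set.range ψ := by
    intro y hy
    obtain ⟨x, hx⟩ := tm_exists_of_div hyp.div k (hyp.Wtor k y hy)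
    have hex : (mzf2b_e hyp x).1 k = y := by
      rw [mzf2b_e_apply, hx, mzf2b_t_id hyp k hy]
    set w : LinearMap.range (mzf2b_e hyp) := ⟨mzf2b_e hyp x, ⟨x, rfl⟩⟩ with hw
    refine ⟨fun i => PadicInt.toZModPow k (β.repr w i), ?_⟩
    have h1 : (w : tm_T J r) = ∑ i, β.repr w i • (β i : tm_T J r) := by
      conv_lhs => rw [← β.sum_repr w]
      simp only [Submodule.coe_sum, Submodule.coe_smul]
    have h2 : ∀ (s : Finset (Fin d)) (g : Fin d → tm_T J r), (∑ i ∈ s, g i).1 k =
        ∑ i ∈ s, (g i).1 k := by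
      intro s g
      exact map_sum (tm_proj J r k) g s
    have h3 : (w : tm_T J r).1 k = y := hex
    rw [← h3, h1, h2]
    rfl
  have hfin : (Set.range ψ).Finite := Set.finite_range ψ
  calc Nat.card (W k) = (W k : Set J).ncard := rfl
    _ ≤ (Set.range ψ).ncard := Set.ncard_le_ncard hsub hfin
    _ ≤ Nat.card (Fin d → ZMod (r ^ k)) := by
      rw [← Set.image_univ]
      calc (ψ '' Set.univ).ncard ≤ (Set.univ : Set (Fin d → ZMod (r ^ k))).ncard :=
            Set.ncard_image_le Set.finite_univ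
        _ = Nat.card (Fin d → ZMod (r ^ k)) := Set.ncard_univ _
    _ = r ^ (k * d) := by
      rw [Nat.card_fun, Nat.card_eq_fintype_card, ZMod.card, Nat.card_eq_fintype_card,
        Fintype.card_fin, ← pow_mul]

/-- **(F2), abstract form, all primes `r`**: `|W k| ≤ |F|²` for every subgroup `F` containing the
`c`-fixed points of `W k`. -/
theorem mzf2k_main (k : ℕ) (F : AddSubgroup J) [Finite F]
    (hF : ∀ y ∈ W k, c y = y → y ∈ F) : Nat.card (W k) ≤ Nat.card F ^ 2 := by
  have h1 := mzf2k_card_W_le hyp k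
  have h2 := mzf2k_card_fixed_ge hyp k F hF
  have h3 := mzf2k_rank_le hyp
  have hr1 : 1 ≤ r := hr.out.one_lt.le
  calc Nat.card (W k) ≤ r ^ (k * Module.finrank ℤ_[r] (LinearMap.range (mzf2b_e hyp))) := h1
    _ ≤ r ^ (k * (2 * Module.finrank ℤ_[r] (mzf2k_Lp hyp))) :=
      Nat.pow_le_pow_right hr1 (Nat.mul_le_mul_left k h3)
    _ = (r ^ (k * Module.finrank ℤ_[r] (mzf2k_Lp hyp))) ^ 2 := by
      rw [← pow_mul]
      congr 1
      ring
    _ ≤ Nat.card F ^ 2 := Nat.pow_le_pow_left h2 2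

end core

end Fermat.Agent.MZ
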