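/-
MAZUR / (F2) / [BAL2] (helper12, prefix `mzf2b_in_`): THE `r = 2` BALANCE ON `J₀(p)`.

`W_k = mzs_in_W p r S k` (helper15's Eisenstein-primary part of `J₀(p)[r^k]`), `σ₀ ∈ G_ℚ` with
`ε₀ = χ_cyc(σ₀) ≠ 1` such that `(σ₀ - ε₀)(σ₀ - 1) = 0` on every `W_k` (an inertia element at `r`:
[HOPF] (e)).  Then every subgroup `G0 ≤ W_k` on which `σ₀` acts through `ε₀` satisfies
   `|G0|² ≤ |W_v|² |W_k|`,   `v = v_r(ε₀ - 1)`         (`mzf2b_in_main`).
Inputs: `mzf2b_main` (abstract core), `mzf2b_ch_main` ([CHEB-T]), `mzf2t_trace` ([CONJ] + [BAL]),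
`mzs_in_retract` (helper15), `mzs_tc_comm`, `mzs_dv_div` (helper17), `egh_comm`.
-/
import Mathlib
import Fermat.Agent.MZ.F2.Core
import Fermat.Agent.MZ.F2.Cheb
import Fermat.Agent.MZ.S.Inst

set_option autoImplicit false
set_option linter.unusedSectionVars false
set_option linter.style.haveILetI false
set_option synthInstance.maxHeartbeats 400000
set_option maxHeartbeats 1000000

noncomputable section

namespace Fermat.Agent.MZ

open Fermat.Agent.JT3 ModularCurve

local notation "GQ" => (AlgebraicClosure ℚ ≃ₐ[ℚ] AlgebraicClosure ℚ)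
local notation "Qbar" => AlgebraicClosure ℚ

variable (p r : ℕ) [NeZero p] [hr : Fact r.Prime]

/-! ### the Hecke ring: commutation properties -/

section ring

variable (S : Set ℕ)

theorem mzf2b_in_tors_map (x : AddMonoid.End (JZero p)) {z : JZero p}
    (hz : ∃ n : ℕ, r ^ n • z = 0) : ∃ n : ℕ, r ^ n • x z = 0 := by
  obtain ⟨n, hn⟩ := hz
  exact ⟨n, by rw [← map_nsmul, hn, map_zero]⟩

/-- elements of the Hecke ring commute with Galois -/
theorem mzf2b_in_comm_gal (x : AddMonoid.End (JZero p)) (hx : x ∈ mzf2t_ring p S) (σ : GQ)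
    (z : JZero p) : x (mzf2t_gal p σ z) = mzf2t_gal p σ (x z) := by
  unfold mzf2t_ring at hx
  induction hx using Subring.closure_induction generalizing z with
  | mem x hx =>
    obtain ⟨ℓ, -, -, rfl⟩ := hx
    exact (egh_comm p ℓ σ z).symm
  | zero => exact (map_zero (mzf2t_gal p σ)).symm
  | one => rfl
  | add x x' _ _ hx hx' =>
    show x _ + x' _ = mzf2t_gal p σ (x z + x' z)
    rw [hx, hx', map_add]
  | neg x _ hx =>
    show -(x _) = mzf2t_gal p σ (-(x z))
    rw [hx, map_neg]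
  | mul x x' _ _ hx hx' =>
    show x (x' _) = mzf2t_gal p σ (x (x' z))
    rw [hx', hx]

/-- elements of the Hecke ring commute with each other on the torsion -/
theorem mzf2b_in_comm (x y : AddMonoid.End (JZero p))
    (hx : x ∈ mzf2t_ring p S) (hy : y ∈ mzf2t_ring p S) (z : JZero p)
    (hz : ∃ n : ℕ, r ^ n • z = 0) : x (y z) = y (x z) := by
  have hpp : r.Prime := hr.out
  -- first: `y` a generator
  have hgen : ∀ (ℓ : Nat.Primes), ¬ (ℓ : ℕ) ∣ p → ∀ x ∈ mzf2t_ring p S, ∀ z : JZero p,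
      (∃ n : ℕ, r ^ n • z = 0) →
      x ((heckeOperatorBar p ℓ).toAddMonoidHom z) = (heckeOperatorBar p ℓ).toAddMonoidHom (x z) := by
    intro ℓ hℓ x hx
    unfold mzf2t_ring at hx
    induction hx using Subring.closure_induction with
    | mem x hx =>
      obtain ⟨ℓ', hℓ', -, rfl⟩ := hx
      rintro z ⟨n, hn⟩
      exact mzs_tc_comm p ℓ' ℓ hℓ' hℓ (pow_ne_zero n hpp.ne_zero) hn
    | zero => intro z _; exact (map_zero _).symm
    | one => intro z _; rfl
    | add x x' _ _ hx hx' =>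
      intro z hz
      show x _ + x' _ = (heckeOperatorBar p ℓ).toAddMonoidHom (x z + x' z)
      rw [hx z hz, hx' z hz, map_add]
    | neg x _ hx =>
      intro z hz
      show -(x _) = (heckeOperatorBar p ℓ).toAddMonoidHom (-(x z))
      rw [hx z hz, map_neg]
    | mul x x' _ _ hx hx' =>
      intro z hz
      show x (x' _) = (heckeOperatorBar p ℓ).toAddMonoidHom (x (x' z))
      rw [hx' z hz, hx _ (mzf2b_in_tors_map p r x' hz)]
  unfold mzf2t_ring at hy
  induction hy using Subring.closure_induction generalizing z with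
  | mem y hy =>
    obtain ⟨ℓ, hℓ, -, rfl⟩ := hy
    exact hgen ℓ hℓ x hx z hz
  | zero => exact map_zero x
  | one => rfl
  | add y y' _ _ hy hy' =>
    show x (y z + y' z) = y (x z) + y' (x z)
    rw [map_add, hy z hz, hy' z hz]
  | neg y _ hy =>
    show x (-(y z)) = -(y (x z))
    rw [map_neg, hy z hz]
  | mul y y' _ _ hy hy' =>
    show x (y (y' z)) = y (y' (x z))
    rw [hy _ (mzf2b_in_tors_map p r y' hz), hy' z hz]

end ring

/-! ### the retraction lies in the Hecke ring -/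

section retract

variable (S : Finset ℕ)

theorem mzf2b_in_adjoin_mem (hp : p.Prime) (hpS : p ∈ S) (t : Module.End ℤ (JZero p))
    (ht : t ∈ Algebra.adjoin ℤ (Set.range (mzs_in_T p S))) :
    (addMonoidEndRingEquivInt (JZero p)).symm t ∈ mzf2t_ring p (↑S : Set ℕ) := by
  induction ht using Algebra.adjoin_induction with
  | mem x hx =>
    obtain ⟨ℓ, rfl⟩ := hx
    exact Subring.subset_closure ⟨ℓ.1, mzs_in_not_dvd hp hpS ℓ, ℓ.2, rfl⟩
  | algebraMap n =>
    have : (addMonoidEndRingEquivInt (JZero p)).symm (algebraMap ℤ (Module.End ℤ (JZero p)) n) =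
        ((n : ℤ) : AddMonoid.End (JZero p)) := by
      rw [eq_intCast (algebraMap ℤ (Module.End ℤ (JZero p))) n, map_intCast]
    rw [this]
    exact intCast_mem _ n
  | add x y _ _ hx hy =>
    rw [map_add]
    exact Subring.add_mem _ hx hy
  | mul x y _ _ hx hy =>
    rw [map_mul]
    exact Subring.mul_mem _ hx hy

theorem mzf2b_in_symm_apply (t : Module.End ℤ (JZero p)) (z : JZero p) :
    (addMonoidEndRingEquivInt (JZero p)).symm t z = t z := rfl

end retract

/-! ### complex conjugation and the cyclotomic character -/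

section conj

theorem mzf2b_in_chi_cc (k : ℕ) :
    PadicInt.toZModPow k (cya_chi r complexConjugation) = -1 := by
  have hpp : r.Prime := hr.out
  have hpos : 1 ≤ r ^ k := Nat.one_le_pow _ _ hpp.pos
  have h1 := cya_chi_toZModPow r complexConjugation (n := k) (a := r ^ k - 1) (fun μ hμ => by
    rw [cya_complexConjugation_rootsOfUnity (pow_ne_zero k hpp.ne_zero) hμ]
    apply inv_eq_of_mul_eq_one_left
    rw [← pow_succ, Nat.sub_add_cancel hpos, hμ])
  rw [h1, Nat.cast_sub hpos, Nat.cast_one, ZMod.natCast_self, zero_sub]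

omit hr in
theorem mzf2b_in_val_neg {J : Type*} [AddCommGroup J] {n : ℕ} [NeZero n] {y : J} (h : n • y = 0)
    (b : ZMod n) : (-b).val • y = -(b.val • y) := by
  have := tm_val_add h (-b) b
  rw [neg_add_cancel, ZMod.val_zero, zero_nsmul] at this
  exact eq_neg_of_add_eq_zero_left this.symm

end conj

/-! ### the hypotheses of the abstract core -/

section hyp

variable (S : Finset ℕ)

/-- **the abstract core applies to `J₀(p)`** -/
theorem mzf2b_in_hyp (hp : p.Prime) (hp5 : 5 ≤ p) (hpS : p ∈ S) (hrS : r ∈ S) (σ₀ : GQ)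
    (hloc : ∀ k, ∀ y ∈ mzs_in_W p r S k,
      σ₀ • (σ₀ • y - y) = (PadicInt.toZModPow k (cya_chi r σ₀)).val • (σ₀ • y - y)) :
    mzf2b_Hyp (mzf2t_ring p (↑S : Set ℕ)) (mzs_in_W p r S) (mzf2t_gal p σ₀) (mzf2t_gal p σ₀⁻¹)
      (mzf2t_gal p complexConjugation) (cya_chi r σ₀) where
  comm x hx y hy z hz := mzf2b_in_comm p r _ x y hx hy z hz
  comm_a x hx z _ := mzf2b_in_comm_gal p _ x hx σ₀ z
  comm_c x hx z _ := mzf2b_in_comm_gal p _ x hx complexConjugation z
  a_ai z := smul_inv_smul σ₀ z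
  ai_a z := inv_smul_smul σ₀ z
  c_c z := by
    show complexConjugation • complexConjugation • z = z
    rw [← mul_smul, complexConjugation_mul_self, one_smul]
  Wfin k := by
    haveI := tj_finite p r k
    exact Finite.of_injective (fun y : mzs_in_W p r S k =>
      (⟨y.1, y.2.1⟩ : {x : JZero p // r ^ k • x = 0}))
      (fun y y' h => Subtype.ext (congrArg (fun u : {x : JZero p // r ^ k • x = 0} => u.1) h))
  Wtor k y hy := hy.1
  Wmono k := mzs_hl_W_mono _ _ (Nat.le_succ k)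
  Wcap k y hy h := ⟨h, hy.2⟩
  proj k := by
    obtain ⟨t, ht, -, h2, h3⟩ := mzs_in_retract p hp hp5 r hr.out S hpS k
    exact ⟨(addMonoidEndRingEquivInt (JZero p)).symm t, mzf2b_in_adjoin_mem p S hp hpS t ht,
      h2, h3⟩
  div y _ := mzs_dv_div p r hr.out.ne_zero y
  loc := hloc
  cheb k := by
    haveI : NeZero (r ^ k) := ⟨pow_ne_zero _ hr.out.ne_zero⟩
    obtain ⟨x, hx, h⟩ := mzf2b_ch_main p r S
      (fun q hq hqp => ((Nat.prime_dvd_prime_iff_eq hq hp).1 hqp) ▸ hpS) hrS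
      (complexConjugation * σ₀) k
    refine ⟨x, hx, fun y hy => ?_⟩
    rw [← h y hy]
    have hz : r ^ k • (σ₀⁻¹ • complexConjugation • y) = 0 := by
      have : σ₀⁻¹ • complexConjugation • y =
          mzf2t_gal p σ₀⁻¹ (mzf2t_gal p complexConjugation y) := rfl
      rw [this, ← map_nsmul, ← map_nsmul, hy, map_zero, map_zero]
    have hinv : (complexConjugation * σ₀)⁻¹ • y = σ₀⁻¹ • complexConjugation • y := by
      rw [mul_inv_rev, complexConjugation_inv, mul_smul]
    rw [hinv, map_mul, map_mul, mzf2b_in_chi_cc, neg_one_mul, mzf2b_in_val_neg hz, mul_smul]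
    show complexConjugation • σ₀ • y -
      (PadicInt.toZModPow k (cya_chi r σ₀)).val • σ₀⁻¹ • complexConjugation • y = _
    rw [sub_eq_add_neg]
  tr x hx := mzf2t_trace p r _ x hx

/-- **[BAL2] on `J₀(p)`**: if `σ₀` satisfies `(σ₀ - ε₀)(σ₀ - 1) = 0` on every `W_k`
(`ε₀ = χ_cyc(σ₀) ≠ 1`, `ε₀ - 1 = r^v · unit`), then a subgroup `G0 ≤ W_k` on which `σ₀` acts through
`ε₀` has `|G0|² ≤ |W_v|² |W_k|`. -/
theorem mzf2b_in_main (hp : p.Prime) (hp5 : 5 ≤ p) (hpS : p ∈ S) (hrS : r ∈ S) (σ₀ : GQ)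
    (hloc : ∀ k, ∀ y ∈ mzs_in_W p r S k,
      σ₀ • (σ₀ • y - y) = (PadicInt.toZModPow k (cya_chi r σ₀)).val • (σ₀ • y - y))
    (v : ℕ) (w w' : ℤ_[r]) (hw : cya_chi r σ₀ - 1 = (r : ℤ_[r]) ^ v * w) (hww' : w' * w = 1)
    (hε : cya_chi r σ₀ ≠ 1)
    (k : ℕ) (G0 : AddSubgroup (JZero p)) (hG0 : G0 ≤ mzs_in_W p r S k)
    (hG0a : ∀ z ∈ G0, σ₀ • z = (PadicInt.toZModPow k (cya_chi r σ₀)).val • z) :
    Nat.card G0 ^ 2 ≤ Nat.card (mzs_in_W p r S v) ^ 2 * Nat.card (mzs_in_W p r S k) :=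
  mzf2b_main (mzf2b_in_hyp p r S hp hp5 hpS hrS σ₀ hloc) hε v w w' hw hww' k G0 hG0 hG0a

end hyp

end Fermat.Agent.MZ
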