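/-
MAZUR / (F2) (helper12, prefix `mzf2k_in_`): THE (F2) SEAM ON `J₀(p)`, ALL PRIMES `r` (odd and `2`).

`W_k = mzs_in_W p r S k` (helper15's Eisenstein-primary part of `J₀(p)[r^k]`), `c` = complex
conjugation:
      `|W_k| ≤ |W_k^{c = 1}|²`                          (`mzf2k_in_main`, `mzf2k_in_main'`).
Inputs: `mzf2k_main` (abstract core: `trace(c x | T_r J) = 0` on the Hecke ring ⟹ the `c`-fixed part
of `e_𝔓 T_r J` has half the rank), `mzf2t_trace` ([CONJ] helper28 + [BAL] helper20),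
`mzs_in_retract` (helper15).
-/
import Mathlib
import Fermat.Agent.MZ.F2.ConjCore
import Fermat.Agent.MZ.F2.CountTwo

set_option autoImplicit false
set_option linter.unusedSectionVars false
set_option linter.style.haveILetI false
set_option synthInstance.maxHeartbeats 400000
set_option maxHeartbeats 1000000

noncomputable section

namespace Fermat.Agent.MZ

open Fermat.Agent.JT3 ModularCurve

local notation "GQ" => (AlgebraicClosure ℚ ≃ₐ[ℚ] AlgebraicClosure ℚ)

variable (p r : ℕ) [NeZero p] [hr : Fact r.Prime] (S : Finset ℕ)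

/-- the points of `W_k` fixed by complex conjugation -/
def mzf2k_in_fix (k : ℕ) : AddSubgroup (JZero p) where
  carrier := {y | y ∈ mzs_in_W p r S k ∧ complexConjugation • y = y}
  zero_mem' := ⟨(mzs_in_W p r S k).zero_mem, map_zero (mzf2t_gal p complexConjugation)⟩
  add_mem' := by
    rintro x y ⟨hx, hx'⟩ ⟨hy, hy'⟩
    refine ⟨(mzs_in_W p r S k).add_mem hx hy, ?_⟩
    have := map_add (mzf2t_gal p complexConjugation) x y
    rw [mzf2t_gal_apply, mzf2t_gal_apply, mzf2t_gal_apply, hx', hy'] at this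
    exact this
  neg_mem' := by
    rintro x ⟨hx, hx'⟩
    refine ⟨(mzs_in_W p r S k).neg_mem hx, ?_⟩
    have := map_neg (mzf2t_gal p complexConjugation) x
    rw [mzf2t_gal_apply, mzf2t_gal_apply, hx'] at this
    exact this

theorem mzf2k_in_mem_fix (k : ℕ) (y : JZero p) :
    y ∈ mzf2k_in_fix p r S k ↔ y ∈ mzs_in_W p r S k ∧ complexConjugation • y = y := Iff.rfl

theorem mzf2k_in_fix_le (k : ℕ) : mzf2k_in_fix p r S k ≤ mzs_in_W p r S k := fun _ h => h.1

/-- the hypotheses of the abstract core, with the trivial inertia element -/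
theorem mzf2k_in_hyp (hp : p.Prime) (hp5 : 5 ≤ p) (hpS : p ∈ S) (hrS : r ∈ S) :
    mzf2b_Hyp (mzf2t_ring p (↑S : Set ℕ)) (mzs_in_W p r S) (mzf2t_gal p 1) (mzf2t_gal p 1⁻¹)
      (mzf2t_gal p complexConjugation) (cya_chi r 1) :=
  mzf2b_in_hyp p r S hp hp5 hpS hrS 1 (fun k y _ => by
    have h1 : (1 : GQ) • y = y := one_smul GQ y
    rw [h1, sub_self]
    show mzf2t_gal p 1 (0 : JZero p) = _
    rw [map_zero, smul_zero])

/-- **(F2) on `J₀(p)`, every prime `r`**: `|W_k| ≤ |F|²` for every finite subgroup `F` containing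
the points of `W_k` fixed by complex conjugation. -/
theorem mzf2k_in_main (hp : p.Prime) (hp5 : 5 ≤ p) (hpS : p ∈ S) (hrS : r ∈ S) (k : ℕ)
    (F : AddSubgroup (JZero p)) [Finite F]
    (hF : ∀ y ∈ mzs_in_W p r S k, complexConjugation • y = y → y ∈ F) :
    Nat.card (mzs_in_W p r S k) ≤ Nat.card F ^ 2 :=
  mzf2k_main (mzf2k_in_hyp p r S hp hp5 hpS hrS) k F hF

/-- **(F2) on `J₀(p)`**: `|W_k| ≤ |W_k^{c = 1}|²` -/
theorem mzf2k_in_main' (hp : p.Prime) (hp5 : 5 ≤ p) (hpS : p ∈ S) (hrS : r ∈ S) (k : ℕ) :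
    Nat.card (mzs_in_W p r S k) ≤ Nat.card (mzf2k_in_fix p r S k) ^ 2 := by
  haveI : Finite (mzs_in_W p r S k) := (mzf2k_in_hyp p r S hp hp5 hpS hrS).Wfin k
  haveI : Finite (mzf2k_in_fix p r S k) :=
    Finite.of_injective (fun y : mzf2k_in_fix p r S k => (⟨y.1, y.2.1⟩ : mzs_in_W p r S k))
      (fun y y' h => Subtype.ext (congrArg (fun u : mzs_in_W p r S k => (u : JZero p)) h))
  exact mzf2k_in_main p r S hp hp5 hpS hrS k _ (fun y hy hc => ⟨hy, hc⟩)

end Fermat.Agent.MZ
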