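/-
MAZUR project, node (F2), cell [CNT] (helper20).  Prefix `mzf2_`.  Mathlib + `MZ/F1/Kolchin.lean`.

COUNTING THE CONSTITUENTS WITH AN ODD INVOLUTION.  `r` an odd prime, `χ : G →* (ZMod r)ˣ`, `c ∈ G` with
`χ c = -1` acting as an involution on a finite `r`-group `W` with a series
`W = F 0 ≥ F 1 ≥ ... ≥ F n = V` (`mzf1a_IsSeries`, constituents `1` (`ε i = false`) or `χ`
(`ε i = true`)).  Then

  `card W^{c = 1} = r ^ #{i < n | ε i = false} * card V^{c = 1}`      (`mzf2_cnt`),

so for `V = 0` the number of trivial constituents is `log_r card W^{c=1}`.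

Proof.  One step `U' ≤ U` of index `r`: if `c` acts trivially on `U / U'` then `U^c + U' = U`
(average `x ↦ (x + c x)/2`, possible since `card U` is odd), so `[U^c : U'^c] = r`; if `c` acts by
`-1` then `2x ∈ U'` for `x ∈ U^c`, hence `U^c = U'^c`.
-/
import Mathlib
import Fermat.Agent.MZ.F1.Kolchin

set_option autoImplicit false
set_option linter.style.haveILetI false

namespace Fermat.Agent.MZ

section cnt

variable {G : Type*} [Group G] {r : ℕ} [hr : Fact r.Prime] {M : Type*} [AddCommGroup M]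
  [DistribMulAction G M]

/-- the subgroup of `c`-fixed elements of `U` -/
def mzf2_fix (c : G) (U : AddSubgroup M) : AddSubgroup M where
  carrier := {x | x ∈ U ∧ c • x = x}
  zero_mem' := ⟨U.zero_mem, smul_zero c⟩
  add_mem' := fun {a b} ha hb => ⟨U.add_mem ha.1 hb.1, by rw [smul_add, ha.2, hb.2]⟩
  neg_mem' := fun {a} ha => ⟨U.neg_mem ha.1, by rw [smul_neg, ha.2]⟩

theorem mzf2_mem_fix {c : G} {U : AddSubgroup M} {x : M} :
    x ∈ mzf2_fix c U ↔ x ∈ U ∧ c • x = x := Iff.rfl

theorem mzf2_fix_le (c : G) (U : AddSubgroup M) : mzf2_fix c U ≤ U := fun _ hx => hx.1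

theorem mzf2_fix_inf (c : G) {U' U : AddSubgroup M} (h : U' ≤ U) :
    mzf2_fix c U' = U' ⊓ mzf2_fix c U := by
  ext x
  constructor
  · exact fun hx => ⟨hx.1, h hx.1, hx.2⟩
  · exact fun hx => ⟨hx.1, hx.2.2⟩

/-- **one step, trivial action of `c` on the quotient**: the index of the fixed parts is the index -/
theorem mzf2_step_triv (c : G) {U' U : AddSubgroup M} (h : U' ≤ U)
    (hodd : Odd (Nat.card U)) (hcU : ∀ x ∈ U, c • x ∈ U) (hc2 : ∀ x ∈ U, c • c • x = x)
    (hact : ∀ x ∈ U, c • x - x ∈ U') :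
    (mzf2_fix c U').relIndex (mzf2_fix c U) = U'.relIndex U := by
  -- elements of `U` are killed by `q = card U`
  set q := Nat.card U with hq
  have hkill : ∀ x ∈ U, q • x = 0 := by
    intro x hx
    have := card_nsmul_eq_zero' (G := U) (x := ⟨x, hx⟩)
    exact congrArg Subtype.val this
  obtain ⟨m, hm⟩ := hodd
  -- `2 (m + 1) = q + 1`
  have h2m : 2 * (m + 1) = q + 1 := by omega
  -- the average
  have havg : ∀ x ∈ U, ∃ x' ∈ mzf2_fix c U, x - x' ∈ U' := by
    intro x hx
    obtain ⟨z, hz⟩ : ∃ z : M, z = x + c • x := ⟨_, rfl⟩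
    have hzU : z ∈ U := by rw [hz]; exact U.add_mem hx (hcU x hx)
    have hcz : c • z = z := by rw [hz, smul_add, hc2 x hx, add_comm]
    refine ⟨(m + 1) • z, ⟨U.nsmul_mem hzU _, ?_⟩, ?_⟩
    · rw [smul_comm, hcz]
    · obtain ⟨y, hy⟩ : ∃ y : M, y = x - (m + 1) • z := ⟨_, rfl⟩
      have hyU : y ∈ U := by rw [hy]; exact U.sub_mem hx (U.nsmul_mem hzU _)
      have h1 : 2 • y = -(c • x - x) := by
        have h4 : 2 • ((m + 1) • z) = z := by
          rw [← mul_nsmul, mul_comm, h2m, add_nsmul, one_nsmul, hkill z hzU, zero_add]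
        rw [hy, smul_sub, h4, hz, two_nsmul]
        abel
      have h3 : y = (m + 1) • (2 • y) := by
        rw [← mul_nsmul, h2m, add_nsmul, one_nsmul, hkill y hyU, zero_add]
      rw [← hy, h3, h1]
      exact U'.nsmul_mem (U'.neg_mem (hact x hx)) _
  have hsup : mzf2_fix c U ⊔ U' = U := by
    apply le_antisymm (sup_le (mzf2_fix_le c U) h)
    intro x hx
    obtain ⟨x', hx', hd⟩ := havg x hx
    have : x = x' + (x - x') := by abel
    rw [this]
    exact AddSubgroup.add_mem_sup hx' hd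
  rw [mzf2_fix_inf c h, AddSubgroup.inf_relIndex_right]
  conv_rhs => rw [← hsup]
  rw [AddSubgroup.relIndex_sup_right]

/-- **one step, `c` acts by `-1` on the quotient**: the fixed parts agree -/
theorem mzf2_step_neg (c : G) {U' U : AddSubgroup M} (h : U' ≤ U) (hr2 : r ≠ 2)
    (hrU : ∀ x ∈ U, r • x ∈ U') (hact : ∀ x ∈ U, c • x + x ∈ U') :
    mzf2_fix c U' = mzf2_fix c U := by
  apply le_antisymm
  · exact fun x hx => ⟨h hx.1, hx.2⟩
  · intro x hx
    refine ⟨?_, hx.2⟩
    have h2 : 2 • x ∈ U' := by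
      have := hact x hx.1
      rwa [hx.2, ← two_nsmul] at this
    obtain ⟨m, hm⟩ := hr.out.odd_of_ne_two hr2
    -- `x = (m + 1) (2 x) - r x`
    have : x = (m + 1) • (2 • x) - r • x := by
      have h3 : 2 * (m + 1) = r + 1 := by omega
      rw [← mul_nsmul, h3, add_nsmul, one_nsmul]
      abel
    rw [this]
    exact U'.sub_mem (U'.nsmul_mem h2 _) (hrU x hx.1)

variable (χ : G →* (ZMod r)ˣ)

/-- the number of trivial constituents among the first `i` steps -/
def mzf2_nTriv (ε : ℕ → Bool) (i : ℕ) : ℕ := ((Finset.range i).filter fun j => ε j = false).card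

theorem mzf2_nTriv_zero (ε : ℕ → Bool) : mzf2_nTriv ε 0 = 0 := by
  simp [mzf2_nTriv]

theorem mzf2_nTriv_succ (ε : ℕ → Bool) (i : ℕ) :
    mzf2_nTriv ε (i + 1) = mzf2_nTriv ε i + if ε i = false then 1 else 0 := by
  unfold mzf2_nTriv
  rw [Finset.range_add_one, Finset.filter_insert]
  split_ifs with h
  · rw [Finset.card_insert_of_notMem (by simp)]
  · rw [add_zero]

variable {χ}

/-- **[CNT]**: with an odd involution `c` (`χ c = -1`, `r` odd), the order of the `c`-fixed part of
`W` is `r ^ #{trivial constituents}` times the order of the `c`-fixed part of `V`. -/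
theorem mzf2_cnt {W V : AddSubgroup M} {n : ℕ} {F : ℕ → AddSubgroup M} {ε : ℕ → Bool}
    (h : mzf1a_IsSeries χ W V n F ε) (hWodd : Odd (Nat.card W))
    (hr2 : r ≠ 2) (c : G) (hcW : ∀ x ∈ W, c • x ∈ W) (hc2 : ∀ x ∈ W, c • c • x = x)
    (hχc : ((χ c : (ZMod r)ˣ) : ZMod r) = -1) :
    Nat.card (mzf2_fix c W) = r ^ mzf2_nTriv ε n * Nat.card (mzf2_fix c V) := by
  obtain ⟨h0, hn, hstep⟩ := h
  -- the chain is decreasing
  have hle : ∀ i ≤ n, F i ≤ W := by
    intro i hi
    induction i with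
    | zero => exact h0.le
    | succ i ih => exact (hstep i hi).1.trans (ih (Nat.le_of_succ_le hi))
  have hcF : ∀ i ≤ n, ∀ x ∈ F i, c • x ∈ F i := by
    intro i hi
    cases i with
    | zero => rw [h0]; exact hcW
    | succ i => exact (hstep i hi).2.1 c
  have hodd : ∀ i ≤ n, Odd (Nat.card (F i)) := by
    intro i hi
    have hdvd : Nat.card (F i) ∣ Nat.card W := AddSubgroup.card_dvd_of_le (hle i hi)
    exact Odd.of_dvd_nat hWodd hdvd
  -- the value of `a(c)`
  have hac : mzf1a_a χ c + 1 = r := by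
    have h1 : ((mzf1a_a χ c + 1 : ℕ) : ZMod r) = 0 := by
      rw [Nat.cast_add, mzf1a_a_cast, hχc, Nat.cast_one, neg_add_cancel]
    have h2 : r ∣ mzf1a_a χ c + 1 := (ZMod.natCast_eq_zero_iff _ _).mp h1
    have h3 : mzf1a_a χ c < r := by
      haveI : NeZero r := ⟨hr.out.ne_zero⟩
      exact ZMod.val_lt _
    exact Nat.eq_of_dvd_of_lt_two_mul (Nat.succ_ne_zero _) h2 (by omega)
  have key : ∀ i ≤ n, Nat.card (mzf2_fix c (F 0)) =
      r ^ mzf2_nTriv ε i * Nat.card (mzf2_fix c (F i)) := by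
    intro i hi
    induction i with
    | zero => rw [mzf2_nTriv_zero, pow_zero, one_mul]
    | succ i ih =>
      have hi' : i < n := hi
      obtain ⟨hsub, -, hidx, hact⟩ := hstep i hi'
      rw [ih hi'.le, mzf2_nTriv_succ]
      by_cases hε : ε i = false
      · rw [if_pos hε, pow_succ, mul_assoc]
        congr 1
        have hrel := mzf2_step_triv c hsub (hodd i hi'.le)
          (hcF i hi'.le) (fun x hx => hc2 x (hle i hi'.le hx)) (fun x hx => by
            have := hact c x hx
            rwa [hε] at this)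
        rw [hidx] at hrel
        have hmul := AddSubgroup.relIndex_mul_relIndex (⊥ : AddSubgroup M)
          (mzf2_fix c (F (i + 1))) (mzf2_fix c (F i)) bot_le (fun x hx => ⟨hsub hx.1, hx.2⟩)
        rw [AddSubgroup.relIndex_bot_left, AddSubgroup.relIndex_bot_left, hrel] at hmul
        rw [← hmul, mul_comm]
      · rw [if_neg hε, add_zero]
        have hε' : ε i = true := by simpa using hε
        have hrU : ∀ x ∈ F i, r • x ∈ F (i + 1) := by
          intro x hx
          have := AddSubgroup.nsmul_relIndex_mem (F (i + 1)) hx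
          rwa [hidx] at this
        suffices hfix : mzf2_fix c (F (i + 1)) = mzf2_fix c (F i) by rw [hfix]
        refine mzf2_step_neg (r := r) c hsub hr2 hrU fun x hx => ?_
        have h1 := hact c x hx
        rw [hε', if_pos rfl] at h1
        have h2 : c • x + x = (c • x - mzf1a_a χ c • x) + r • x := by
          have h5 : r • x = mzf1a_a χ c • x + x := by
            conv_lhs => rw [← hac]
            rw [add_nsmul, one_nsmul]
          rw [h5]
          abel
        rw [h2]
        exact (F (i + 1)).add_mem h1 (hrU x hx)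
  have := key n le_rfl
  rwa [h0, hn] at this

/-- the case `V = 0` -/
theorem mzf2_cnt_bot {W : AddSubgroup M} {n : ℕ} {F : ℕ → AddSubgroup M} {ε : ℕ → Bool}
    (h : mzf1a_IsSeries χ W ⊥ n F ε) (hWodd : Odd (Nat.card W))
    (hr2 : r ≠ 2) (c : G) (hcW : ∀ x ∈ W, c • x ∈ W) (hc2 : ∀ x ∈ W, c • c • x = x)
    (hχc : ((χ c : (ZMod r)ˣ) : ZMod r) = -1) :
    Nat.card (mzf2_fix c W) = r ^ mzf2_nTriv ε n := by
  rw [mzf2_cnt h hWodd hr2 c hcW hc2 hχc]
  have : mzf2_fix c (⊥ : AddSubgroup M) = ⊥ := by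
    rw [eq_bot_iff]
    exact mzf2_fix_le c ⊥
  rw [this, AddSubgroup.card_bot, mul_one]

end cnt

end Fermat.Agent.MZ
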