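/-
MAZUR project, node (F2), cell [CNT], second file (helper20).  Prefix `mzf2_`.

1. `mzf2_cnt_steps` : the count of `MZ/F2/Count.lean` in STEP FORM (no character, no series
   structure): `c` acts on the layers `F i / F (i+1)` (index `r`, `r` odd) by `+1` (`ε i = false`) or by
   `a` with `a + 1 = r` (`ε i = true`); then `card (F 0)^{c=1} = r ^ #{i<n | ε i = false} * card (F n)^{c=1}`.
2. `mzf2_series_card` : for such a chain `card (F 0) = r ^ n * card (F n)`.
3. `mzf2_cnt_series` : the instance for the output shape `mzf1_Series r W` of (F1) (`MZ/F1/Final.lean`,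
   helper7): for `c : G_ℚ` with `dspk_cyc r c = -1`, `c • c • x = x` on `W`, `r` odd:
   `card W = r ^ n` and `card W^{c=1} = r ^ #{i < n | eps i = false}`; hence
   `mzf2_half_of_sq` : `card W ≤ (card W^{c=1})^2 → n ≤ 2 * #{i<n | eps i = false}`.
-/
import Mathlib
import Fermat.Agent.MZ.F2.Count
import Fermat.Agent.MZ.F1.Final

set_option autoImplicit false
set_option linter.style.haveILetI false

namespace Fermat.Agent.MZ

section steps

variable {G : Type*} [Group G] {r : ℕ} [hr : Fact r.Prime] {M : Type*} [AddCommGroup M]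
  [DistribMulAction G M]

theorem mzf2_nTriv_def (ε : ℕ → Bool) (n : ℕ) :
    mzf2_nTriv ε n = ((Finset.range n).filter fun j => ε j = false).card := rfl

theorem mzf2_nTriv_le (ε : ℕ → Bool) (n : ℕ) : mzf2_nTriv ε n ≤ n := by
  rw [mzf2_nTriv_def]
  exact (Finset.card_filter_le _ _).trans (Finset.card_range n).le

/-- the order of a chain with all indices `r` -/
theorem mzf2_series_card {n : ℕ} {F : ℕ → AddSubgroup M}
    (hstep : ∀ i < n, F (i + 1) ≤ F i ∧ (F (i + 1)).relIndex (F i) = r) :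
    Nat.card (F 0) = r ^ n * Nat.card (F n) := by
  induction n with
  | zero => rw [pow_zero, one_mul]
  | succ n ih =>
    rw [ih fun i hi => hstep i (Nat.lt_succ_of_lt hi)]
    obtain ⟨hsub, hidx⟩ := hstep n (Nat.lt_succ_self n)
    have hmul := AddSubgroup.relIndex_mul_relIndex (⊥ : AddSubgroup M) (F (n + 1)) (F n) bot_le hsub
    rw [AddSubgroup.relIndex_bot_left, AddSubgroup.relIndex_bot_left, hidx] at hmul
    rw [← hmul, pow_succ, mul_assoc, mul_comm (Nat.card _) r]

/-- **[CNT], step form** -/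
theorem mzf2_cnt_steps (c : G) (a : ℕ) (ha : a + 1 = r) (hr2 : r ≠ 2) {n : ℕ}
    {F : ℕ → AddSubgroup M} {ε : ℕ → Bool}
    (hstep : ∀ i < n, F (i + 1) ≤ F i ∧ (∀ x ∈ F i, c • x ∈ F i) ∧
      (F (i + 1)).relIndex (F i) = r ∧
        ∀ x ∈ F i, c • x - (if ε i then a • x else x) ∈ F (i + 1))
    (hodd : Odd (Nat.card (F 0))) (hc2 : ∀ x ∈ F 0, c • c • x = x) :
    Nat.card (mzf2_fix c (F 0)) = r ^ mzf2_nTriv ε n * Nat.card (mzf2_fix c (F n)) := by
  have hle : ∀ i ≤ n, F i ≤ F 0 := by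
    intro i hi
    induction i with
    | zero => exact le_rfl
    | succ i ih => exact (hstep i hi).1.trans (ih (Nat.le_of_succ_le hi))
  have hoddi : ∀ i ≤ n, Odd (Nat.card (F i)) := fun i hi =>
    Odd.of_dvd_nat hodd (AddSubgroup.card_dvd_of_le (hle i hi))
  have key : ∀ i ≤ n, Nat.card (mzf2_fix c (F 0)) =
      r ^ mzf2_nTriv ε i * Nat.card (mzf2_fix c (F i)) := by
    intro i hi
    induction i with
    | zero => rw [mzf2_nTriv_zero, pow_zero, one_mul]
    | succ i ih =>
      have hi' : i < n := hi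
      obtain ⟨hsub, hcF, hidx, hact⟩ := hstep i hi'
      rw [ih hi'.le, mzf2_nTriv_succ]
      by_cases hε : ε i = false
      · rw [if_pos hε, pow_succ, mul_assoc]
        congr 1
        have hrel := mzf2_step_triv c hsub (hoddi i hi'.le) hcF
          (fun x hx => hc2 x (hle i hi'.le hx)) (fun x hx => by
            have := hact x hx
            rwa [hε] at this)
        rw [hidx] at hrel
        have hmul := AddSubgroup.relIndex_mul_relIndex (⊥ : AddSubgroup M)
          (mzf2_fix c (F (i + 1))) (mzf2_fix c (F i)) bot_le (fun x hx => ⟨hsub hx.1, hx.2⟩)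
        rw [AddSubgroup.relIndex_bot_left, AddSubgroup.relIndex_bot_left, hrel] at hmul
        rw [← hmul, mul_comm]
      · rw [if_neg hε, add_zero]
        have hε' : ε i = true := by simpa using hε
        have hrU : ∀ x ∈ F i, r • x ∈ F (i + 1) := by
          intro x hx
          have := AddSubgroup.nsmul_relIndex_mem (F (i + 1)) hx
          rwa [hidx] at this
        suffices hfix : mzf2_fix c (F (i + 1)) = mzf2_fix c (F i) by rw [hfix]
        refine mzf2_step_neg (r := r) c hsub hr2 hrU fun x hx => ?_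
        have h1 := hact x hx
        rw [hε', if_pos rfl] at h1
        have h2 : c • x + x = (c • x - a • x) + r • x := by
          have h5 : r • x = a • x + x := by
            conv_lhs => rw [← ha]
            rw [add_nsmul, one_nsmul]
          rw [h5]
          abel
        rw [h2]
        exact (F (i + 1)).add_mem h1 (hrU x hx)
  exact key n le_rfl

end steps

section series

open Fermat.Agent.DS

local notation "GQ" => (AlgebraicClosure ℚ ≃ₐ[ℚ] AlgebraicClosure ℚ)

variable {r : ℕ} [hr : Fact r.Prime] {J : Type*} [AddCommGroup J] [DistribMulAction GQ J]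

/-- `cyc c = -1` means `mzf1_cyc r c + 1 = r` -/
theorem mzf2_cyc_add_one (c : GQ) (hχc : ((dspk_cyc r c : (ZMod r)ˣ) : ZMod r) = -1) :
    mzf1_cyc r c + 1 = r := by
  haveI : NeZero r := ⟨hr.out.ne_zero⟩
  have h1 : ((mzf1_cyc r c + 1 : ℕ) : ZMod r) = 0 := by
    rw [Nat.cast_add, mzf1_cyc, ZMod.natCast_zmod_val, hχc, Nat.cast_one, neg_add_cancel]
  have h2 : r ∣ mzf1_cyc r c + 1 := (ZMod.natCast_eq_zero_iff _ _).mp h1
  have h3 : mzf1_cyc r c < r := ZMod.val_lt _
  exact Nat.eq_of_dvd_of_lt_two_mul (Nat.succ_ne_zero _) h2 (by omega)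

/-- **[CNT] for the (F1) output shape**: `card W = r ^ n` and
`card W^{c=1} = r ^ #{i < n | eps i = false}`. -/
theorem mzf2_cnt_series (hr2 : r ≠ 2) (c : GQ)
    (hχc : ((dspk_cyc r c : (ZMod r)ˣ) : ZMod r) = -1) {W : AddSubgroup J} {n : ℕ}
    {F : ℕ → AddSubgroup J} {eps : ℕ → Bool} (h0 : F 0 = W) (hn : F n = ⊥)
    (hstep : ∀ i < n, F (i + 1) ≤ F i ∧ (∀ σ : GQ, ∀ x ∈ F i, σ • x ∈ F i) ∧
      (F (i + 1)).relIndex (F i) = r ∧
        ∀ σ : GQ, ∀ x ∈ F i, σ • x - (if eps i then mzf1_cyc r σ • x else x) ∈ F (i + 1))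
    (hc2 : ∀ x ∈ W, c • c • x = x) :
    Nat.card W = r ^ n ∧
      Nat.card (mzf2_fix c W) = r ^ ((Finset.range n).filter fun i => eps i = false).card := by
  have hcard : Nat.card (F 0) = r ^ n := by
    rw [mzf2_series_card (r := r) (n := n) (F := F) fun i hi => ⟨(hstep i hi).1, (hstep i hi).2.2.1⟩,
      hn, AddSubgroup.card_bot, mul_one]
  have hodd : Odd (Nat.card (F 0)) := by
    rw [hcard]
    exact (hr.out.odd_of_ne_two hr2).pow
  have hfixbot : mzf2_fix c (⊥ : AddSubgroup J) = ⊥ := by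
    rw [eq_bot_iff]
    exact mzf2_fix_le c ⊥
  have := mzf2_cnt_steps (r := r) c (mzf1_cyc r c) (mzf2_cyc_add_one c hχc) hr2 (n := n) (F := F)
    (ε := eps) (fun i hi => ⟨(hstep i hi).1, (hstep i hi).2.1 c, (hstep i hi).2.2.1,
      (hstep i hi).2.2.2 c⟩) hodd (by rw [h0]; exact hc2)
  rw [hn, hfixbot, AddSubgroup.card_bot, mul_one, h0] at this
  rw [h0] at hcard
  exact ⟨hcard, this⟩

/-- (F2) in the form consumed with the descent: if `card W ≤ (card W^{c=1})^2` then at least half of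
the constituents are trivial. -/
theorem mzf2_half_of_sq (hr2 : r ≠ 2) (c : GQ)
    (hχc : ((dspk_cyc r c : (ZMod r)ˣ) : ZMod r) = -1) {W : AddSubgroup J} {n : ℕ}
    {F : ℕ → AddSubgroup J} {eps : ℕ → Bool} (h0 : F 0 = W) (hn : F n = ⊥)
    (hstep : ∀ i < n, F (i + 1) ≤ F i ∧ (∀ σ : GQ, ∀ x ∈ F i, σ • x ∈ F i) ∧
      (F (i + 1)).relIndex (F i) = r ∧
        ∀ σ : GQ, ∀ x ∈ F i, σ • x - (if eps i then mzf1_cyc r σ • x else x) ∈ F (i + 1))
    (hc2 : ∀ x ∈ W, c • c • x = x)
    (hsq : Nat.card W ≤ Nat.card (mzf2_fix c W) ^ 2) :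
    n ≤ 2 * ((Finset.range n).filter fun i => eps i = false).card ∧
      Nat.card W ≤ (r ^ ((Finset.range n).filter fun i => eps i = false).card) ^ 2 := by
  obtain ⟨h1, h2⟩ := mzf2_cnt_series hr2 c hχc h0 hn hstep hc2
  rw [h2] at hsq
  refine ⟨?_, hsq⟩
  rw [h1, ← pow_mul] at hsq
  have := (Nat.pow_le_pow_iff_right hr.out.one_lt).mp hsq
  omega

end series

end Fermat.Agent.MZ
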