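/-
MAZUR project, node (F2), cell [LA] (helper20).  Prefix `mzf2h_`.  Mathlib only.

THE HALF-RANK COUNT.  `R` a principal ideal domain of characteristic `0` (in the application `ℤ_[r]`), `L` a
free `R`-module of finite rank (the Tate module), `c, e ∈ End_R L` with `c * c = 1` (complex
conjugation), `e * e = e` (the projector onto the `𝔓`-primary part), `c * e = e * c` and

  `trace (c * e) = 0`    ([CONJ] + [BAL]).

Let `f : L →+ J` be additive with kernel `π ^ k • L` (the `k`-th projection of the Tate module, `π = r`),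
`R ⧸ (π ^ k)` finite, and `cJ : J →+ J` with `f ∘ c = cJ ∘ f`.  Then for `W := f (range e)`:

  `Nat.card W ≤ (Nat.card {w ∈ W | cJ w = w}) ^ 2`          (`mzf2h_main`).

No diagonalisation of `c` is used, so `π = 2` is allowed.

Proof.  `g := (1 + c) * e` satisfies `g * g = 2 • g`, hence `trace g = 2 * rank (range g)`
(`mzf2h_trace_of_sq`: `trace (ι ∘ g') = trace (g' ∘ ι)` and `g' ∘ ι = 2` on `range g`); also
`trace g = trace e + trace (c * e) = rank (range e)`.  So `rank (range e) = 2 h`, `h := rank (range g)`.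
`range g ≤ P⁺ := ker (e - 1) ⊓ ker (c - 1)`, a SATURATED submodule, so `f P⁺` has at least `q ^ h`
elements (`q := card (R ⧸ π ^ k)`), whereas `f (range e)` has at most `q ^ (2 h)` elements.
-/
import Mathlib

set_option autoImplicit false
set_option linter.unusedSectionVars false
set_option linter.style.haveILetI false

namespace Fermat.Agent.MZ

open Module

section trace

variable {R : Type*} [CommRing R] [IsDomain R] [IsPrincipalIdealRing R]
  {L : Type*} [AddCommGroup L] [Module R L] [Module.Free R L] [Module.Finite R L]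

/-- an endomorphism with `g * g = a • g` has trace `a * rank (range g)` -/
theorem mzf2h_trace_of_sq (g : Module.End R L) (a : R) (h : g * g = a • g) :
    LinearMap.trace R L g = a * (finrank R (LinearMap.range g) : R) := by
  have h1 : g = (LinearMap.range g).subtype ∘ₗ g.rangeRestrict := by
    ext x; rfl
  have h2 : g.rangeRestrict ∘ₗ (LinearMap.range g).subtype = a • LinearMap.id := by
    ext ⟨y, x, rfl⟩
    have := LinearMap.congr_fun h x
    simpa using this
  conv_lhs => rw [h1]
  rw [LinearMap.trace_comp_comm', h2, map_smul, LinearMap.trace_id, smul_eq_mul]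

end trace

section count

variable {R : Type*} [CommRing R] [IsDomain R] [IsPrincipalIdealRing R]
  {L : Type*} [AddCommGroup L] [Module R L] [Module.Free R L] [Module.Finite R L]
  {J : Type*} [AddCommGroup J]

/-- the parametrisation of the image of a submodule by coefficient vectors modulo `I` -/
noncomputable def mzf2h_phi (I : Ideal R) (S : Submodule R L) (f : L →+ J)
    (a : Fin (finrank R S) → R ⧸ I) : J :=
  f (((∑ i, (a i).out • Module.finBasis R S i : S) : L))

theorem mzf2h_phi_mem (I : Ideal R) (S : Submodule R L) (f : L →+ J)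
    (a : Fin (finrank R S) → R ⧸ I) : mzf2h_phi I S f a ∈ S.toAddSubgroup.map f :=
  ⟨_, (∑ i, (a i).out • Module.finBasis R S i : S).2, rfl⟩

/-- the parametrisation is onto the image as soon as `f` kills `π ^ k • L` -/
theorem mzf2h_phi_surj (π : R) (k : ℕ) (S : Submodule R L) (f : L →+ J)
    (hf : ∀ y : L, f (π ^ k • y) = 0) {w : J} (hw : w ∈ S.toAddSubgroup.map f) :
    ∃ a, mzf2h_phi (Ideal.span {π ^ k}) S f a = w := by
  obtain ⟨s, hs, rfl⟩ := hw
  set b := Module.finBasis R S
  set s' : S := ⟨s, hs⟩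
  refine ⟨fun i => Ideal.Quotient.mk _ (b.repr s' i), ?_⟩
  have hd : ∀ i, ∃ d : R, (Ideal.Quotient.mk (Ideal.span {π ^ k}) (b.repr s' i)).out - b.repr s' i
      = π ^ k * d := by
    intro i
    have : (Ideal.Quotient.mk (Ideal.span {π ^ k}) (b.repr s' i)).out - b.repr s' i ∈
        Ideal.span {π ^ k} := by
      rw [← Ideal.Quotient.eq]
      exact Quotient.out_eq _
    obtain ⟨d, hd⟩ := Ideal.mem_span_singleton'.mp this
    exact ⟨d, by rw [← hd, mul_comm]⟩
  choose d hd using hd
  have hsum : (∑ i, (Ideal.Quotient.mk (Ideal.span {π ^ k}) (b.repr s' i)).out • b i : S) =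
      s' + π ^ k • ∑ i, d i • b i := by
    conv_rhs => rw [← b.sum_repr s']
    rw [Finset.smul_sum, ← Finset.sum_add_distrib]
    refine Finset.sum_congr rfl fun i _ => ?_
    rw [smul_smul, ← hd i, sub_smul]
    abel
  unfold mzf2h_phi
  rw [hsum]
  push_cast
  rw [map_add, hf, add_zero]

/-- the parametrisation is injective if `S` is saturated and the kernel of `f` is `π ^ k • L` -/
theorem mzf2h_phi_inj (π : R) (k : ℕ) (S : Submodule R L) (f : L →+ J)
    (hsat : ∀ y : L, π ^ k • y ∈ S → y ∈ S) (hf : ∀ x : L, f x = 0 → ∃ y, x = π ^ k • y) :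
    Function.Injective (mzf2h_phi (Ideal.span {π ^ k}) S f) := by
  intro a a' h
  set b := Module.finBasis R S
  unfold mzf2h_phi at h
  rw [← sub_eq_zero, ← map_sub] at h
  obtain ⟨y, hy⟩ := hf _ h
  have hyS : y ∈ S := by
    apply hsat
    rw [← hy]
    exact S.sub_mem (Subtype.mem _) (Subtype.mem _)
  have hS : (∑ i, (a i).out • b i : S) - ∑ i, (a' i).out • b i = π ^ k • (⟨y, hyS⟩ : S) := by
    apply Subtype.ext
    rw [Submodule.coe_sub, Submodule.coe_smul]
    exact hy
  have hcoef : ∀ i, (a i).out - (a' i).out = π ^ k * b.repr ⟨y, hyS⟩ i := by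
    intro i
    have := congrArg (fun z => b.repr z i) hS
    simp only [map_sub, map_sum, map_smul, Finsupp.coe_sub, Finsupp.coe_finsetSum,
      Finsupp.coe_smul, Pi.sub_apply, Finset.sum_apply, Pi.smul_apply, smul_eq_mul,
      Module.Basis.repr_self] at this
    simpa [Finsupp.single_apply] using this
  funext i
  rw [← Quotient.out_eq (a i), ← Quotient.out_eq (a' i)]
  show Ideal.Quotient.mk _ (a i).out = Ideal.Quotient.mk _ (a' i).out
  rw [Ideal.Quotient.eq, hcoef i]
  exact Ideal.mul_mem_right _ _ (Ideal.mem_span_singleton_self _)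

variable (π : R) (k : ℕ) [Finite (R ⧸ Ideal.span {π ^ k})]

/-- upper bound for the image of a submodule -/
theorem mzf2h_card_le (S : Submodule R L) (f : L →+ J) (hf : ∀ y : L, f (π ^ k • y) = 0) :
    Finite (S.toAddSubgroup.map f) ∧
      Nat.card (S.toAddSubgroup.map f) ≤ Nat.card (R ⧸ Ideal.span {π ^ k}) ^ finrank R S := by
  set φ : (Fin (finrank R S) → R ⧸ Ideal.span {π ^ k}) → S.toAddSubgroup.map f :=
    fun a => ⟨mzf2h_phi _ S f a, mzf2h_phi_mem _ S f a⟩
  have hφ : Function.Surjective φ := by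
    rintro ⟨w, hw⟩
    obtain ⟨a, ha⟩ := mzf2h_phi_surj π k S f hf hw
    exact ⟨a, Subtype.ext ha⟩
  refine ⟨Finite.of_surjective φ hφ, ?_⟩
  have := Nat.card_le_card_of_surjective φ hφ
  rwa [Nat.card_fun, Nat.card_fin] at this

/-- lower bound for the image of a saturated submodule -/
theorem mzf2h_le_card (S : Submodule R L) (f : L →+ J)
    (hsat : ∀ y : L, π ^ k • y ∈ S → y ∈ S) (hf : ∀ x : L, f x = 0 ↔ ∃ y, x = π ^ k • y) :
    Nat.card (R ⧸ Ideal.span {π ^ k}) ^ finrank R S ≤ Nat.card (S.toAddSubgroup.map f) := by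
  have hf0 : ∀ y : L, f (π ^ k • y) = 0 := fun y => (hf _).mpr ⟨y, rfl⟩
  haveI := (mzf2h_card_le π k S f hf0).1
  set φ : (Fin (finrank R S) → R ⧸ Ideal.span {π ^ k}) → S.toAddSubgroup.map f :=
    fun a => ⟨mzf2h_phi _ S f a, mzf2h_phi_mem _ S f a⟩
  have hφ : Function.Injective φ := by
    intro a a' h
    exact mzf2h_phi_inj π k S f hsat (fun x hx => (hf x).mp hx) (congrArg Subtype.val h)
  have := Nat.card_le_card_of_injective φ hφ
  rwa [Nat.card_fun, Nat.card_fin] at this

end count

section main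

variable {R : Type*} [CommRing R] [IsDomain R] [IsPrincipalIdealRing R] [CharZero R]
  {L : Type*} [AddCommGroup L] [Module R L] [Module.Free R L] [Module.Finite R L]
  {J : Type*} [AddCommGroup J]

/-- the rank of the image of the projector is twice the rank of the image of `(1 + c) * e` -/
theorem mzf2h_rank (c e : Module.End R L) (hc : c * c = 1) (he : e * e = e) (hce : c * e = e * c)
    (htr : LinearMap.trace R L (c * e) = 0) :
    finrank R (LinearMap.range e) = 2 * finrank R (LinearMap.range ((1 + c) * e)) := by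
  have hg : ((1 + c) * e) * ((1 + c) * e) = (2 : R) • ((1 + c) * e) := by
    have h1 : ((1 + c) * e) * ((1 + c) * e) = (1 + c) * (1 + c) * (e * e) := by
      have : e * (1 + c) = (1 + c) * e := by rw [mul_add, add_mul, mul_one, one_mul, hce]
      calc ((1 + c) * e) * ((1 + c) * e) = (1 + c) * (e * (1 + c)) * e := by noncomm_ring
        _ = (1 + c) * ((1 + c) * e) * e := by rw [this]
        _ = (1 + c) * (1 + c) * (e * e) := by noncomm_ring
    have h2 : (1 + c) * (1 + c) = (2 : R) • (1 + c) := by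
      have : (1 + c) * (1 + c) = 1 + c + c + c * c := by noncomm_ring
      rw [this, hc, two_smul]
      abel
    rw [h1, h2, he, smul_mul_assoc]
  have t1 := mzf2h_trace_of_sq ((1 + c) * e) 2 hg
  have t2 := mzf2h_trace_of_sq e 1 (by rw [he, one_smul])
  have t3 : LinearMap.trace R L ((1 + c) * e) = LinearMap.trace R L e := by
    rw [add_mul, one_mul, map_add, htr, add_zero]
  rw [t3, t2, one_mul] at t1
  exact_mod_cast t1

/-- **[LA]** the half-rank count -/
theorem mzf2h_main (c e : Module.End R L) (hc : c * c = 1) (he : e * e = e) (hce : c * e = e * c)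
    (htr : LinearMap.trace R L (c * e) = 0) (π : R) (hπ : π ≠ 0) (k : ℕ)
    [Finite (R ⧸ Ideal.span {π ^ k})] (f : L →+ J) (hf : ∀ x : L, f x = 0 ↔ ∃ y, x = π ^ k • y)
    (cJ : J →+ J) (hfc : ∀ x : L, f (c x) = cJ (f x))
    (W : AddSubgroup J) (hW : ∀ w : J, w ∈ W ↔ ∃ x : L, f (e x) = w) :
    Finite W ∧ Nat.card W ≤ Nat.card {w : J // w ∈ W ∧ cJ w = w} ^ 2 := by
  have hf0 : ∀ y : L, f (π ^ k • y) = 0 := fun y => (hf _).mpr ⟨y, rfl⟩
  have hWeq : W = (LinearMap.range e).toAddSubgroup.map f := by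
    ext w
    rw [hW]
    constructor
    · rintro ⟨x, rfl⟩
      exact ⟨e x, ⟨x, rfl⟩, rfl⟩
    · rintro ⟨_, ⟨x, rfl⟩, rfl⟩
      exact ⟨x, rfl⟩
  obtain ⟨hfin, hle⟩ := mzf2h_card_le π k (LinearMap.range e) f hf0
  rw [← hWeq] at hfin hle
  refine ⟨hfin, ?_⟩
  -- the saturated submodule `P⁺`
  set P : Submodule R L := LinearMap.ker (e - 1) ⊓ LinearMap.ker (c - 1) with hP
  have hPmem : ∀ x : L, x ∈ P ↔ e x = x ∧ c x = x := by
    intro x
    rw [hP, Submodule.mem_inf, LinearMap.mem_ker, LinearMap.mem_ker, LinearMap.sub_apply,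
      LinearMap.sub_apply, Module.End.one_apply, sub_eq_zero, sub_eq_zero]
  have hsat : ∀ y : L, π ^ k • y ∈ P → y ∈ P := by
    intro y hy
    rw [hPmem] at hy ⊢
    have hπk : π ^ k ≠ 0 := pow_ne_zero k hπ
    constructor
    · have := hy.1
      rw [map_smul] at this
      exact smul_right_injective L hπk this
    · have := hy.2
      rw [map_smul] at this
      exact smul_right_injective L hπk this
  have hgP : LinearMap.range ((1 + c) * e) ≤ P := by
    rintro _ ⟨x, rfl⟩
    rw [hPmem]
    constructor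
    · have : e * ((1 + c) * e) = (1 + c) * e := by
        have h1 : e * (1 + c) = (1 + c) * e := by rw [mul_add, add_mul, mul_one, one_mul, hce]
        rw [← mul_assoc, h1, mul_assoc, he]
      exact LinearMap.congr_fun this x
    · have : c * ((1 + c) * e) = (1 + c) * e := by
        rw [← mul_assoc, mul_add, mul_one, hc, add_comm]
      exact LinearMap.congr_fun this x
  have hrank := mzf2h_rank c e hc he hce htr
  set h := finrank R (LinearMap.range ((1 + c) * e)) with hh
  have hhP : h ≤ finrank R P := Submodule.finrank_mono hgP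
  have hlow := mzf2h_le_card π k P f hsat hf
  -- `f P⁺` sits in the fixed part
  set q := Nat.card (R ⧸ Ideal.span {π ^ k}) with hq
  have hq1 : 1 ≤ q := Nat.one_le_iff_ne_zero.mpr Nat.card_pos.ne'
  haveI : Finite {w : J // w ∈ W ∧ cJ w = w} :=
    Finite.of_injective (fun w => (⟨w.1, w.2.1⟩ : W)) (fun a b hab => by
      have h1 : a.1 = b.1 := congrArg (fun z : W => z.1) hab
      exact Subtype.ext h1)
  have hfix : Nat.card (P.toAddSubgroup.map f) ≤ Nat.card {w : J // w ∈ W ∧ cJ w = w} := by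
    refine Nat.card_le_card_of_injective
      (fun w => (⟨w.1, ?_, ?_⟩ : {w : J // w ∈ W ∧ cJ w = w})) (fun a b hab => by
        have h1 : a.1 = b.1 := congrArg (fun z : {w : J // w ∈ W ∧ cJ w = w} => z.1) hab
        exact Subtype.ext h1)
    · obtain ⟨x, hx, hxw⟩ := w.2
      rw [hW]
      exact ⟨x, by rw [((hPmem x).mp hx).1]; exact hxw⟩
    · obtain ⟨x, hx, hxw⟩ := w.2
      rw [← hxw, ← hfc, ((hPmem x).mp hx).2]
  calc Nat.card W ≤ q ^ finrank R (LinearMap.range e) := hle
    _ = (q ^ h) ^ 2 := by rw [hrank, ← pow_mul, mul_comm]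
    _ ≤ (q ^ finrank R P) ^ 2 := Nat.pow_le_pow_left (Nat.pow_le_pow_right hq1 hhP) 2
    _ ≤ Nat.card {w : J // w ∈ W ∧ cJ w = w} ^ 2 := Nat.pow_le_pow_left (hlow.trans hfix) 2

end main

section padic

variable (p : ℕ) [hp : Fact p.Prime]

theorem mzf2h_padic_finite (k : ℕ) : Finite (ℤ_[p] ⧸ Ideal.span {(p : ℤ_[p]) ^ k}) := by
  rw [← PadicInt.ker_toZModPow (p := p) k]
  haveI : NeZero (p ^ k) := ⟨pow_ne_zero k hp.out.ne_zero⟩
  exact Finite.of_injective _ (RingHom.kerLift_injective (PadicInt.toZModPow (p := p) k))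

/-- **[LA]** over `ℤ_[p]` -/
theorem mzf2h_main_padic {L : Type*} [AddCommGroup L] [Module ℤ_[p] L] [Module.Free ℤ_[p] L]
    [Module.Finite ℤ_[p] L] {J : Type*} [AddCommGroup J]
    (c e : Module.End ℤ_[p] L) (hc : c * c = 1) (he : e * e = e) (hce : c * e = e * c)
    (htr : LinearMap.trace ℤ_[p] L (c * e) = 0) (k : ℕ) (f : L →+ J)
    (hf : ∀ x : L, f x = 0 ↔ ∃ y, x = (p : ℤ_[p]) ^ k • y)
    (cJ : J →+ J) (hfc : ∀ x : L, f (c x) = cJ (f x))
    (W : AddSubgroup J) (hW : ∀ w : J, w ∈ W ↔ ∃ x : L, f (e x) = w) :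
    Finite W ∧ Nat.card W ≤ Nat.card {w : J // w ∈ W ∧ cJ w = w} ^ 2 := by
  haveI := mzf2h_padic_finite p k
  exact mzf2h_main c e hc he hce htr (p : ℤ_[p]) (by exact_mod_cast hp.out.ne_zero) k f hf cJ hfc
    W hW

end padic

end Fermat.Agent.MZ
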