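/-
MAZUR project, node (F2), cell [TATE-CNT] (helper20).  Prefix `mzf2c_`.
Imports `JT3/Tate/{Module,Free}` (generic Tate module of an abelian group, Mathlib only) and [LA]
(`MZ/F2/HalfRank.lean`).

FROM `trace (c * t | T_p J) = 0` TO THE COUNT `card W_k ≤ (card W_k^{c = 1}) ^ 2`.

`J` an abelian group, `p` a prime, `L := tm_T J p` free of finite rank over `ℤ_[p]`;
`c : AddMonoid.End J` an involution on the `p`-power torsion (complex conjugation);
`W k ≤ J[p ^ k]` (`= J[p^k][𝔓^∞]`) with retractions `t k : AddMonoid.End J` (`t k (J[p^k]) ⊆ W k`,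
`t k = id` on `W k`) which commute with `c` and with each other on the `p`-power torsion;
`W k ≤ W (k+1)`, `W (k+1) ∩ J[p^k] ≤ W k`; the `p`-power torsion is `p`-divisible; and

  `trace (tm_map c * tm_map (t k)) = 0` for all `k`.

Then (`mzf2c_main`)   `Nat.card (W k) ≤ Nat.card {w // w ∈ W k ∧ c w = w} ^ 2`   for all `k`.

Proof: `(e x) n := t n (x n)` is a well defined idempotent of `L` (two commuting projectors of
`J[p^n]` onto `W n` agree, so `t (n+1) = t n` on `J[p^n]`), `e ≡ tm_map (t k) mod p^k`, hence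
`trace (c e) ≡ 0 mod p^k` for all `k`; the `k`-th projection has kernel `p^k L` and maps
`range e` onto `W k`; apply [LA].
-/
import Mathlib
import Fermat.Agent.JT3.Tate.Module
import Fermat.Agent.JT3.Tate.Free
import Fermat.Agent.MZ.F2.HalfRank

set_option autoImplicit false
set_option linter.unusedSectionVars false
set_option linter.style.haveILetI false

noncomputable section

namespace Fermat.Agent.MZ

open Fermat.Agent.JT3

section tc

variable {J : Type*} [AddCommGroup J] {p : ℕ} [hp : Fact p.Prime]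

/-- the hypotheses on the system `(W k, t k)` -/
structure mzf2c_Sys (p : ℕ) (W : ℕ → AddSubgroup J) (t : ℕ → AddMonoid.End J) : Prop where
  tors : ∀ k, ∀ x ∈ W k, p ^ k • x = 0
  mono : ∀ k, W k ≤ W (k + 1)
  cut : ∀ k, ∀ x ∈ W (k + 1), p ^ k • x = 0 → x ∈ W k
  into : ∀ k (x : J), p ^ k • x = 0 → t k x ∈ W k
  id : ∀ k, ∀ x ∈ W k, t k x = x
  comm : ∀ (k k' : ℕ) (x : J), (∃ n : ℕ, p ^ n • x = 0) → t k (t k' x) = t k' (t k x)

variable {W : ℕ → AddSubgroup J} {t : ℕ → AddMonoid.End J}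

/-- consecutive retractions agree on `J[p ^ n]` -/
theorem mzf2c_succ (h : mzf2c_Sys p W t) (n : ℕ) {y : J} (hy : p ^ n • y = 0) :
    t (n + 1) y = t n y := by
  have hy1 : p ^ (n + 1) • y = 0 := by rw [pow_succ, mul_nsmul, hy, smul_zero]
  have h1 : t (n + 1) (t n y) = t n y := h.id (n + 1) _ (h.mono n (h.into n y hy))
  have h2 : t (n + 1) y ∈ W n := by
    refine h.cut n _ (h.into (n + 1) y hy1) ?_
    rw [← map_nsmul, hy, map_zero]
  have h3 : t n (t (n + 1) y) = t (n + 1) y := h.id n _ h2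
  rw [← h3, h.comm n (n + 1) y ⟨n, hy⟩, h1]

/-- the projector of the Tate module: `(e x) n = t n (x n)` -/
def mzf2c_e (h : mzf2c_Sys p W t) : Module.End ℤ_[p] (tm_T J p) where
  toFun x := ⟨fun n => t n (x.1 n), fun n =>
    ⟨by rw [← map_nsmul, tm_tor, map_zero], by
      rw [← map_nsmul, tm_compat]
      exact mzf2c_succ h n (tm_tor x n)⟩⟩
  map_add' x y := tm_ext fun n => map_add (t n) (x.1 n) (y.1 n)
  map_smul' a x := tm_ext fun n => by
    show t n ((a • x).1 n) = (a • (⟨fun n => t n (x.1 n), _⟩ : tm_T J p)).1 n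
    rw [tm_smul_apply, tm_smul_apply, map_nsmul]

theorem mzf2c_e_apply (h : mzf2c_Sys p W t) (x : tm_T J p) (n : ℕ) :
    (mzf2c_e h x).1 n = t n (x.1 n) := rfl

theorem mzf2c_e_idem (h : mzf2c_Sys p W t) : mzf2c_e h * mzf2c_e h = mzf2c_e h := by
  refine LinearMap.ext fun x => tm_ext fun n => ?_
  show t n (t n (x.1 n)) = t n (x.1 n)
  exact h.id n _ (h.into n _ (tm_tor x n))

/-- `e ≡ tm_map (t k)` modulo `p ^ k` -/
theorem mzf2c_e_congr (h : mzf2c_Sys p W t) (k : ℕ) (x : tm_T J p) :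
    ∃ y : tm_T J p, mzf2c_e h x - tm_map J p (t k) x = ((p : ℤ_[p]) ^ k) • y := by
  apply tm_exists_eq_smul
  rw [tm_sub_apply, mzf2c_e_apply, tm_map_apply, sub_self]

/-- an endomorphism of a free module with image in `a • L` has trace divisible by `a` -/
theorem mzf2c_trace_dvd {R : Type*} [CommRing R] {L : Type*} [AddCommGroup L] [Module R L]
    [Module.Free R L] [Module.Finite R L] (g : Module.End R L) (a : R)
    (hg : ∀ x : L, ∃ y : L, g x = a • y) : a ∣ LinearMap.trace R L g := by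
  classical
  set b := Module.Free.chooseBasis R L
  rw [LinearMap.trace_eq_matrix_trace R b, Matrix.trace]
  refine Finset.dvd_sum fun i _ => ?_
  obtain ⟨y, hy⟩ := hg (b i)
  rw [Matrix.diag_apply, LinearMap.toMatrix_apply, hy, map_smul, Finsupp.smul_apply, smul_eq_mul]
  exact dvd_mul_right _ _

/-- an element of `ℤ_[p]` divisible by all powers of `p` is zero -/
theorem mzf2c_eq_zero_of_dvd (a : ℤ_[p]) (h : ∀ k : ℕ, (p : ℤ_[p]) ^ k ∣ a) : a = 0 := by
  rw [← PadicInt.ext_of_toZModPow]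
  intro k
  obtain ⟨d, hd⟩ := h k
  have hmem : a ∈ RingHom.ker (PadicInt.toZModPow (p := p) k) := by
    rw [PadicInt.ker_toZModPow, hd]
    exact Ideal.mul_mem_right _ _ (Ideal.mem_span_singleton_self _)
  rw [RingHom.mem_ker.mp hmem, map_zero]

variable [Module.Free ℤ_[p] (tm_T J p)] [Module.Finite ℤ_[p] (tm_T J p)]

/-- the trace of `c * e` vanishes if all the `trace (c * t k)` do -/
theorem mzf2c_trace (h : mzf2c_Sys p W t) (cL : Module.End ℤ_[p] (tm_T J p))
    (htr : ∀ k, LinearMap.trace ℤ_[p] (tm_T J p) (cL * tm_map J p (t k)) = 0) :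
    LinearMap.trace ℤ_[p] (tm_T J p) (cL * mzf2c_e h) = 0 := by
  apply mzf2c_eq_zero_of_dvd
  intro k
  have h1 : cL * mzf2c_e h = (cL * mzf2c_e h - cL * tm_map J p (t k)) + cL * tm_map J p (t k) := by
    abel
  rw [h1, map_add, htr k, add_zero]
  apply mzf2c_trace_dvd
  intro x
  obtain ⟨y, hy⟩ := mzf2c_e_congr h k x
  refine ⟨cL y, ?_⟩
  rw [LinearMap.sub_apply, Module.End.mul_apply, Module.End.mul_apply, ← map_sub, hy, map_smul]

/-- **[TATE-CNT]** -/
theorem mzf2c_main (h : mzf2c_Sys p W t) (c : AddMonoid.End J)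
    (hc2 : ∀ x : J, (∃ n : ℕ, p ^ n • x = 0) → c (c x) = x)
    (hct : ∀ (k : ℕ) (x : J), (∃ n : ℕ, p ^ n • x = 0) → t k (c x) = c (t k x))
    (hdiv : ∀ y : J, (∃ n : ℕ, p ^ n • y = 0) → ∃ z : J, p • z = y)
    (htr : ∀ k, LinearMap.trace ℤ_[p] (tm_T J p) (tm_map J p c * tm_map J p (t k)) = 0)
    (k : ℕ) :
    Finite (W k) ∧ Nat.card (W k) ≤ Nat.card {w : J // w ∈ W k ∧ c w = w} ^ 2 := by
  refine mzf2h_main_padic p (tm_map J p c) (mzf2c_e h) ?_ (mzf2c_e_idem h) ?_
    (mzf2c_trace h _ htr) k (tm_proj J p k) ?_ c ?_ (W k) ?_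
  · refine LinearMap.ext fun x => tm_ext fun n => ?_
    show c (c (x.1 n)) = x.1 n
    exact hc2 _ ⟨n, tm_tor x n⟩
  · refine LinearMap.ext fun x => tm_ext fun n => ?_
    show c (t n (x.1 n)) = t n (c (x.1 n))
    exact (hct n _ ⟨n, tm_tor x n⟩).symm
  · intro x
    constructor
    · intro hx
      exact tm_exists_eq_smul x k hx
    · rintro ⟨y, rfl⟩
      exact tm_smul_pow_apply y k
  · intro x
    rfl
  · intro w
    constructor
    · intro hw
      obtain ⟨x, hx⟩ := tm_exists_of_div hdiv k (h.tors k w hw)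
      refine ⟨x, ?_⟩
      show t k (x.1 k) = w
      rw [hx, h.id k w hw]
    · rintro ⟨x, rfl⟩
      exact h.into k _ (tm_tor x k)

end tc

end Fermat.Agent.MZ
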