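/-
MAZUR project, node (F2), instantiation of [TATE-CNT] on `J₀(p)` (helper20).  Prefix `mzf2i_`.

`W_k := mzs_in_W p r S k` (helper15, `MZ/S/Inst.lean`), `t_k :=` the retraction of `mzs_in_retract`.
From the TRACE SEAM

  `∀ t ∈ Algebra.adjoin ℤ (range (mzs_in_T p S)), trace (tj_rho p r c * tm_map t | T_r J₀(p)) = 0`

([CONJ] + [BAL] + glue) and `c * c = 1` we get, for EVERY prime `r` (also `r = 2`) and every `k`,

  `Nat.card W_k ≤ Nat.card (mzf2_fix c W_k) ^ 2`            (`mzf2i_seam`),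

and, for `r` odd with `dspk_cyc r c = -1`, along any series of the shape `mzf1_Series` of `W_k`:
`n ≤ 2 * #{i < n | eps i = false}` (`mzf2i_half`).
-/
import Mathlib
import Fermat.Agent.MZ.S.Inst
import Fermat.Agent.MZ.F2.TateCount
import Fermat.Agent.MZ.F2.CountSeries
import Fermat.Agent.JT3.Tate.Package

set_option autoImplicit false
set_option linter.unusedSectionVars false
set_option linter.style.haveILetI false
set_option synthInstance.maxHeartbeats 400000
set_option maxHeartbeats 1000000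

noncomputable section

namespace Fermat.Agent.MZ

open ModularCurve AlgebraicCurve Fermat.Agent.JT3 Fermat.Agent.DS

local notation "GQ" => (AlgebraicClosure ℚ ≃ₐ[ℚ] AlgebraicClosure ℚ)

section comm

variable {J : Type*} [AddCommGroup J] {ι : Type*} (T : ι → Module.End ℤ J)

/-- elements of the ring generated by operators commuting on the torsion commute with the
generators on the torsion -/
theorem mzf2i_adjoin_comm_gen
    (hTt : ∀ (i j : ι) (n : ℕ), n ≠ 0 → ∀ x : J, n • x = 0 → T i (T j x) = T j (T i x))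
    {a : Module.End ℤ J} (ha : a ∈ Algebra.adjoin ℤ (Set.range T)) (j : ι) (n : ℕ) (hn : n ≠ 0) :
    ∀ x : J, n • x = 0 → a (T j x) = T j (a x) := by
  induction ha using Algebra.adjoin_induction with
  | mem a ha =>
    obtain ⟨i, rfl⟩ := ha
    exact fun x hx => hTt i j n hn x hx
  | algebraMap z =>
    intro x _
    rw [Module.algebraMap_end_apply, Module.algebraMap_end_apply, map_zsmul]
  | add a b _ _ iha ihb =>
    intro x hx
    rw [LinearMap.add_apply, LinearMap.add_apply, iha x hx, ihb x hx, map_add]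
  | mul a b _ _ iha ihb =>
    intro x hx
    have hbx : n • b x = 0 := by rw [← map_nsmul, hx, map_zero]
    rw [Module.End.mul_apply, Module.End.mul_apply, ihb x hx, iha (b x) hbx]

/-- elements of the ring generated by operators commuting on the torsion commute on the torsion -/
theorem mzf2i_adjoin_comm
    (hTt : ∀ (i j : ι) (n : ℕ), n ≠ 0 → ∀ x : J, n • x = 0 → T i (T j x) = T j (T i x))
    {a b : Module.End ℤ J} (ha : a ∈ Algebra.adjoin ℤ (Set.range T))
    (hb : b ∈ Algebra.adjoin ℤ (Set.range T)) (n : ℕ) (hn : n ≠ 0) :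
    ∀ x : J, n • x = 0 → a (b x) = b (a x) := by
  induction hb using Algebra.adjoin_induction with
  | mem b hb =>
    obtain ⟨j, rfl⟩ := hb
    exact fun x hx => mzf2i_adjoin_comm_gen T hTt ha j n hn x hx
  | algebraMap z =>
    intro x _
    rw [Module.algebraMap_end_apply, Module.algebraMap_end_apply, map_zsmul]
  | add b b' _ _ ihb ihb' =>
    intro x hx
    rw [LinearMap.add_apply, LinearMap.add_apply, map_add, ihb x hx, ihb' x hx]
  | mul b b' _ _ ihb ihb' =>
    intro x hx
    have hbx : n • b' x = 0 := by rw [← map_nsmul, hx, map_zero]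
    rw [Module.End.mul_apply, Module.End.mul_apply, ihb (b' x) hbx, ihb' x hx]

end comm

variable (p : ℕ) [NeZero p] (hp : p.Prime) (hp5 : 5 ≤ p) (r : ℕ) [hr : Fact r.Prime]
  (S : Finset ℕ) (hpS : p ∈ S)

/-- the chosen retraction `J₀(p)[r^k] → W_k` -/
def mzf2i_t (k : ℕ) : Module.End ℤ (JZero p) :=
  Classical.choose (mzs_in_retract p hp hp5 r hr.out S hpS k)

theorem mzf2i_t_mem (k : ℕ) :
    mzf2i_t p hp hp5 r S hpS k ∈ Algebra.adjoin ℤ (Set.range (mzs_in_T p S)) :=
  (Classical.choose_spec (mzs_in_retract p hp hp5 r hr.out S hpS k)).1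

theorem mzf2i_t_gal (k : ℕ) (σ : GQ) (x : JZero p) :
    mzf2i_t p hp hp5 r S hpS k (σ • x) = σ • mzf2i_t p hp hp5 r S hpS k x :=
  (Classical.choose_spec (mzs_in_retract p hp hp5 r hr.out S hpS k)).2.1 σ x

theorem mzf2i_t_into (k : ℕ) (x : JZero p) (hx : r ^ k • x = 0) :
    mzf2i_t p hp hp5 r S hpS k x ∈ mzs_in_W p r S k :=
  (Classical.choose_spec (mzs_in_retract p hp hp5 r hr.out S hpS k)).2.2.1 x hx

theorem mzf2i_t_id (k : ℕ) (x : JZero p) (hx : x ∈ mzs_in_W p r S k) :
    mzf2i_t p hp hp5 r S hpS k x = x :=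
  (Classical.choose_spec (mzs_in_retract p hp hp5 r hr.out S hpS k)).2.2.2 x hx

/-- the system `(W_k, t_k)` on `J₀(p)` -/
theorem mzf2i_sys :
    mzf2c_Sys r (fun k => mzs_in_W p r S k)
      (fun k => (mzf2i_t p hp hp5 r S hpS k).toAddMonoidHom) where
  tors := fun k x hx => ((mzs_in_mem_W p r S k x).mp hx).1
  mono := fun k => mzs_hl_W_mono (mzs_in_T p S) (mzs_in_a S) (Nat.le_succ k)
  cut := fun k x hx hk => (mzs_in_mem_W p r S k x).mpr ⟨hk, ((mzs_in_mem_W p r S (k + 1) x).mp hx).2⟩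
  into := fun k x hx => mzf2i_t_into p hp hp5 r S hpS k x hx
  id := fun k x hx => mzf2i_t_id p hp hp5 r S hpS k x hx
  comm := by
    rintro k k' x ⟨n, hn⟩
    exact mzf2i_adjoin_comm (mzs_in_T p S) (mzs_in_hTt hp hpS) (mzf2i_t_mem p hp hp5 r S hpS k)
      (mzf2i_t_mem p hp hp5 r S hpS k') (r ^ n) (pow_ne_zero n hr.out.ne_zero) x hn

include hp hp5 hpS in
/-- **the (F2) seam of ruling (R7), all primes `r`**: from the trace seam to
`card W_k ≤ (card W_k^{c=1})^2`. -/
theorem mzf2i_seam (c : GQ) (hc : c * c = 1)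
    (htr : ∀ t : Module.End ℤ (JZero p), t ∈ Algebra.adjoin ℤ (Set.range (mzs_in_T p S)) →
      LinearMap.trace ℤ_[r] (tj_T p r)
        (tj_rho p r c * tm_map (JZero p) r t.toAddMonoidHom) = 0) (k : ℕ) :
    Finite (mzs_in_W p r S k) ∧
      Nat.card (mzs_in_W p r S k) ≤ Nat.card (mzf2_fix c (mzs_in_W p r S k)) ^ 2 := by
  have hmain := mzf2c_main (mzf2i_sys p hp hp5 r S hpS)
    (DistribMulAction.toAddMonoidEnd GQ (JZero p) c)
    (fun x _ => by
      show c • c • x = x
      rw [smul_smul, hc, one_smul])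
    (fun k x _ => mzf2i_t_gal p hp hp5 r S hpS k c x)
    (fun y _ => mzs_dv_div p r hr.out.ne_zero y)
    (fun k => htr _ (mzf2i_t_mem p hp hp5 r S hpS k)) k
  refine ⟨hmain.1, hmain.2.trans_eq ?_⟩
  congr 1

include hp hp5 hpS in
/-- (F2) for `r` odd along a series of `W_k` of the shape of `mzf1_Series`: at least half of the
constituents are trivial. -/
theorem mzf2i_half (hr2 : r ≠ 2) (c : GQ) (hc : c * c = 1)
    (hχc : ((dspk_cyc r c : (ZMod r)ˣ) : ZMod r) = -1)
    (htr : ∀ t : Module.End ℤ (JZero p), t ∈ Algebra.adjoin ℤ (Set.range (mzs_in_T p S)) →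
      LinearMap.trace ℤ_[r] (tj_T p r)
        (tj_rho p r c * tm_map (JZero p) r t.toAddMonoidHom) = 0) (k : ℕ)
    {n : ℕ} {F : ℕ → AddSubgroup (JZero p)} {eps : ℕ → Bool} (h0 : F 0 = mzs_in_W p r S k)
    (hn : F n = ⊥)
    (hstep : ∀ i < n, F (i + 1) ≤ F i ∧ (∀ σ : GQ, ∀ x ∈ F i, σ • x ∈ F i) ∧
      (F (i + 1)).relIndex (F i) = r ∧
        ∀ σ : GQ, ∀ x ∈ F i, σ • x - (if eps i then mzf1_cyc r σ • x else x) ∈ F (i + 1)) :
    n ≤ 2 * ((Finset.range n).filter fun i => eps i = false).card ∧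
      Nat.card (mzs_in_W p r S k) ≤
        (r ^ ((Finset.range n).filter fun i => eps i = false).card) ^ 2 :=
  mzf2_half_of_sq hr2 c hχc h0 hn hstep (fun x _ => by rw [smul_smul, hc, one_smul])
    (mzf2i_seam p hp hp5 r S hpS c hc htr k).2

end Fermat.Agent.MZ
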