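/-
MAZUR project, node (F2), cell (ii) = THE TRACE SEAM (helper20).  Prefix `mzf2ts_` (helper12 owns `MZ/F2/TraceConj.lean` and the prefix `mzf2t_`).

`N` a level, `r` a prime, `S` a finite set of primes containing the primes dividing `N`.  For every `t` in
the ring generated by the `T_ℓ = heckeOperatorBar N ℓ`, `ℓ ∉ S`, acting on `J₀(N)`:

  `trace (ρ(c) ∘ T_r(t) | T_r J₀(N)) = 0`,   `c = complexConjugation`          (`mzf2ts_trace`).

Proof: under `tjp_lattice N r : T_r J₀(N) ≃ Hom(H, ℤ_r)` the operator `tm_map t` becomes `ψ ↦ ψ ∘ s` for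
some `s` in the ring generated by the homological Hecke operators (`mzf2ts_intertwine`, induction on
`Algebra.adjoin`; `tjp_lattice_hecke`), `ρ(c)` becomes `ψ ↦ -(ψ ∘ ι_H)` ([CONJ], `mzf2_conj_lattice_cc`), and
`trace (ψ ↦ ψ ∘ s ∘ ι_H | Hom(H, ℤ_r)) = 0` ([BAL], `mzf2_bal_hecke`).
-/
import Mathlib
import Fermat.Agent.MZ.F2.ConjPic
import Fermat.Agent.MZ.F2.Bal

set_option autoImplicit false
set_option linter.unusedSectionVars false
set_option linter.style.haveILetI false
set_option synthInstance.maxHeartbeats 400000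
set_option maxHeartbeats 1000000

noncomputable section

namespace Fermat.Agent.MZ

open ModularCurve AlgebraicCurve Fermat.Agent.JT3

local notation "GQ" => (AlgebraicClosure ℚ ≃ₐ[ℚ] AlgebraicClosure ℚ)

variable (N r : ℕ) [NeZero N] [hr : Fact r.Prime] (S : Finset ℕ)

/-- the Hecke operators `T_ℓ`, `ℓ ∉ S`, on `J₀(N)` -/
def mzf2ts_T : {ℓ : Nat.Primes // (ℓ : ℕ) ∉ S} → Module.End ℤ (JZero N) :=
  fun ℓ => heckeOperatorBar N ℓ.1

/-- **intertwining**: an element of the Hecke ring of `J₀(N)` acts on `Hom(H, ℤ_r)` by composition with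
an element of the homological Hecke ring. -/
theorem mzf2ts_intertwine (hS : ∀ q : ℕ, q.Prime → q ∣ N → q ∈ S) {t : Module.End ℤ (JZero N)}
    (ht : t ∈ Algebra.adjoin ℤ (Set.range (mzf2ts_T N S))) :
    ∃ s : Module.End ℤ (gh_H N), s ∈ Algebra.adjoin ℤ (t2f_heckeSet N (↑S : Set ℕ)) ∧
      ∀ x : tj_T N r, tjp_lattice N r (tm_map (JZero N) r t.toAddMonoidHom x) =
        (tjp_lattice N r x).comp s.toAddMonoidHom := by
  induction ht using Algebra.adjoin_induction with
  | mem t ht =>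
    obtain ⟨ℓ, rfl⟩ := ht
    have hℓN : ¬ (ℓ.1 : ℕ) ∣ N := fun h => ℓ.2 (hS _ ℓ.1.2 h)
    have hgood : pk_Good N S (ℓ.1 : ℕ) := ⟨ℓ.1.2, hℓN, ℓ.2⟩
    refine ⟨t2f_TH N (ℓ.1 : ℕ), Algebra.subset_adjoin
      (t2f_mem_heckeSet_iff.mpr ⟨_, ⟨ℓ.1.2, hℓN, ℓ.2⟩, rfl⟩), fun x => ?_⟩
    have := tjp_he N r S (ℓ.1 : ℕ) hgood x
    rw [tjp_Tl_good N r S hgood] at this
    exact this
  | algebraMap z =>
    refine ⟨algebraMap ℤ _ z, Subalgebra.algebraMap_mem _ z, fun x => ?_⟩
    have h1 : tm_map (JZero N) r (algebraMap ℤ (Module.End ℤ (JZero N)) z).toAddMonoidHom x =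
        z • x := by
      refine tm_ext fun n => ?_
      show (algebraMap ℤ (Module.End ℤ (JZero N)) z) (x.1 n) = (z • x).1 n
      rw [Module.algebraMap_end_apply]
      rfl
    rw [h1, map_zsmul]
    refine AddMonoidHom.ext fun g => ?_
    show z • (tjp_lattice N r x) g = (tjp_lattice N r x) ((algebraMap ℤ (Module.End ℤ (gh_H N)) z) g)
    rw [Module.algebraMap_end_apply, map_zsmul]
  | add a b _ _ iha ihb =>
    obtain ⟨sa, hsa, ha⟩ := iha
    obtain ⟨sb, hsb, hb⟩ := ihb
    refine ⟨sa + sb, Subalgebra.add_mem _ hsa hsb, fun x => ?_⟩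
    have h1 : tm_map (JZero N) r (a + b).toAddMonoidHom x =
        tm_map (JZero N) r a.toAddMonoidHom x + tm_map (JZero N) r b.toAddMonoidHom x := by
      refine tm_ext fun n => ?_
      rfl
    rw [h1, map_add, ha x, hb x]
    refine AddMonoidHom.ext fun g => ?_
    show (tjp_lattice N r x) (sa g) + (tjp_lattice N r x) (sb g) =
      (tjp_lattice N r x) ((sa + sb) g)
    rw [LinearMap.add_apply, map_add]
  | mul a b _ _ iha ihb =>
    obtain ⟨sa, hsa, ha⟩ := iha
    obtain ⟨sb, hsb, hb⟩ := ihb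
    refine ⟨sb * sa, Subalgebra.mul_mem _ hsb hsa, fun x => ?_⟩
    have h1 : tm_map (JZero N) r (a * b).toAddMonoidHom x =
        tm_map (JZero N) r a.toAddMonoidHom (tm_map (JZero N) r b.toAddMonoidHom x) := by
      refine tm_ext fun n => ?_
      rfl
    rw [h1, ha, hb]
    rfl

/-- **the trace seam** -/
theorem mzf2ts_trace (hS : ∀ q : ℕ, q.Prime → q ∣ N → q ∈ S) {t : Module.End ℤ (JZero N)}
    (ht : t ∈ Algebra.adjoin ℤ (Set.range (mzf2ts_T N S))) :
    LinearMap.trace ℤ_[r] (tj_T N r)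
      (tj_rho N r complexConjugation * tm_map (JZero N) r t.toAddMonoidHom) = 0 := by
  obtain ⟨s, hs, hst⟩ := mzf2ts_intertwine N r S hS ht
  have hbal := mzf2_bal_hecke N (↑S : Set ℕ) hs ℤ_[r]
  have hsum : tj_rho N r complexConjugation * tm_map (JZero N) r t.toAddMonoidHom +
      (tjp_lattice N r).symm.conj
        (mzf2_pre ℤ_[r] (mzf2_iotaH N) * mzf2_pre ℤ_[r] s.toAddMonoidHom) = 0 := by
    refine LinearMap.ext fun x => ?_
    apply (tjp_lattice N r).injective
    rw [LinearMap.add_apply, map_add, LinearEquiv.conj_apply_apply, LinearEquiv.symm_symm,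
      LinearEquiv.apply_symm_apply, Module.End.mul_apply, mzf2_conj_lattice_cc, hst,
      LinearMap.zero_apply, map_zero]
    exact neg_add_cancel _
  have htr := congrArg (LinearMap.trace ℤ_[r] (tj_T N r)) hsum
  rw [map_add, map_zero, LinearMap.trace_conj', hbal, add_zero] at htr
  exact htr

end Fermat.Agent.MZ
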