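/-
MAZUR project, node (F2): CLOSED (helper20).  Prefix `mzf2f_`.

`c := complexConjugation`, `W_k := mzs_in_W p r S k` (`p ∈ S`, `p ≥ 5` prime, `r` ANY prime):

* `mzf2f_sq`  : `Nat.card W_k ≤ Nat.card (mzf2_fix c W_k) ^ 2`  (no hypothesis left);
* `mzf2f_F2`  : the same in the spelling `hF2` of [F-DESC] v2 (`MZ/Desc/Final2.lean`):
  `Nat.card ↥W_k ≤ Nat.card ↥(mzh_H0 ↥(Subgroup.zpowers c) ↥W_k) ^ 2` for any action `iW` on `↥W_k`
  compatible with the action on `J₀(p)`;
* `mzf2f_half` : for `r` odd, along a series of `W_k` of the shape `mzf1_Series`,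
  `n ≤ 2 * #{i < n | eps i = false}`.

Inputs: [CONJ] (helper28), [BAL], [CNT], [LA], [TATE-CNT], trace seam (helper20), the element `c`
(helper17), `W_k` and its retraction (helper15), divisibility (helper17).
-/
import Mathlib
import Fermat.Agent.MZ.F2.CountInst
import Fermat.Agent.MZ.F2.TraceSeam
import Fermat.Agent.MZ.F2.ConjCyc
import Fermat.Agent.MZ.H.Coh

set_option autoImplicit false
set_option linter.unusedSectionVars false
set_option linter.style.haveILetI false
set_option synthInstance.maxHeartbeats 400000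
set_option maxHeartbeats 1000000

noncomputable section

namespace Fermat.Agent.MZ

open ModularCurve AlgebraicCurve Fermat.Agent.JT3 Fermat.Agent.DS

local notation "GQ" => (AlgebraicClosure ℚ ≃ₐ[ℚ] AlgebraicClosure ℚ)

section adapter

variable {G : Type*} [Group G] {J : Type*} [AddCommGroup J] [DistribMulAction G J]

/-- the invariants of `⟨c⟩` on a subgroup `W`, for any compatible action on `↥W`, are the `c`-fixed
elements of `W` -/
theorem mzf2f_card_H0 (c : G) (W : AddSubgroup J) [iW : DistribMulAction G ↥W]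
    (hcompat : ∀ (σ : G) (w : ↥W), ((σ • w : ↥W) : J) = σ • (w : J)) :
    Nat.card ↥(mzh_H0 ↥(Subgroup.zpowers c) ↥W) = Nat.card ↥(mzf2_fix c W) := by
  refine Nat.card_congr
    { toFun := fun a => ⟨((a : ↥W) : J), (a : ↥W).2, ?_⟩
      invFun := fun x => ⟨⟨(x : J), x.2.1⟩, ?_⟩
      left_inv := fun a => rfl
      right_inv := fun x => rfl }
  · have h := a.2 ⟨c, Subgroup.mem_zpowers c⟩
    have h' : (c • (a : ↥W) : ↥W) = (a : ↥W) := h
    rw [← hcompat, h']
  · intro σ
    have hstab : Subgroup.zpowers c ≤ MulAction.stabilizer G (⟨(x : J), x.2.1⟩ : ↥W) := by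
      rw [Subgroup.zpowers_le, MulAction.mem_stabilizer_iff]
      apply Subtype.ext
      rw [hcompat]
      exact x.2.2
    exact MulAction.mem_stabilizer_iff.mp (hstab σ.2)

end adapter

variable (p : ℕ) [NeZero p] (hp : p.Prime) (hp5 : 5 ≤ p) (r : ℕ) [hr : Fact r.Prime]
  (S : Finset ℕ) (hpS : p ∈ S)

include hp hpS in
/-- the trace seam for the Hecke ring of `mzs_in_T p S` -/
theorem mzf2f_trace (t : Module.End ℤ (JZero p))
    (ht : t ∈ Algebra.adjoin ℤ (Set.range (mzs_in_T p S))) :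
    LinearMap.trace ℤ_[r] (tj_T p r)
      (tj_rho p r complexConjugation * tm_map (JZero p) r t.toAddMonoidHom) = 0 :=
  mzf2ts_trace p r S (fun q hq hqp => by
    rw [(Nat.prime_dvd_prime_iff_eq hq hp).mp hqp]
    exact hpS) ht

include hp hp5 hpS in
/-- **(F2), closed**: `card W_k ≤ (card W_k^{c=1})^2`, every prime `r`. -/
theorem mzf2f_sq (k : ℕ) :
    Finite (mzs_in_W p r S k) ∧
      Nat.card (mzs_in_W p r S k) ≤
        Nat.card (mzf2_fix (complexConjugation : GQ) (mzs_in_W p r S k)) ^ 2 :=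
  mzf2i_seam p hp hp5 r S hpS complexConjugation complexConjugation_mul_self
    (mzf2f_trace p hp r S hpS) k

include hp hp5 hpS in
/-- **(F2), closed, in the spelling `hF2` of [F-DESC] v2.** -/
theorem mzf2f_F2 (k : ℕ) [iW : DistribMulAction GQ ↥(mzs_in_W p r S k)]
    (hcompat : ∀ (σ : GQ) (w : ↥(mzs_in_W p r S k)),
      ((σ • w : ↥(mzs_in_W p r S k)) : JZero p) = σ • (w : JZero p)) :
    Nat.card ↥(mzs_in_W p r S k) ≤
      Nat.card ↥(mzh_H0 ↥(Subgroup.zpowers (complexConjugation : GQ))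
        ↥(mzs_in_W p r S k)) ^ 2 := by
  rw [mzf2f_card_H0 (complexConjugation : GQ) (mzs_in_W p r S k) hcompat]
  exact (mzf2f_sq p hp hp5 r S hpS k).2

include hp hp5 hpS in
/-- **(F2), closed, constituent form** (`r` odd) -/
theorem mzf2f_half (hr2 : r ≠ 2) (k : ℕ)
    {n : ℕ} {F : ℕ → AddSubgroup (JZero p)} {eps : ℕ → Bool} (h0 : F 0 = mzs_in_W p r S k)
    (hn : F n = ⊥)
    (hstep : ∀ i < n, F (i + 1) ≤ F i ∧ (∀ σ : GQ, ∀ x ∈ F i, σ • x ∈ F i) ∧
      (F (i + 1)).relIndex (F i) = r ∧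
        ∀ σ : GQ, ∀ x ∈ F i, σ • x - (if eps i then mzf1_cyc r σ • x else x) ∈ F (i + 1)) :
    n ≤ 2 * ((Finset.range n).filter fun i => eps i = false).card ∧
      Nat.card (mzs_in_W p r S k) ≤
        (r ^ ((Finset.range n).filter fun i => eps i = false).card) ^ 2 :=
  haveI : NeZero r := ⟨hr.out.ne_zero⟩
  mzf2i_half p hp hp5 r S hpS hr2 complexConjugation complexConjugation_mul_self
    (mzf2cc_cyc r) (mzf2f_trace p hp r S hpS) k h0 hn hstep

end Fermat.Agent.MZ
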