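/-
MAZUR / (F2) / [BAL2] (helper12, prefix `mzf2b_`): the linear algebra behind the `r = 2` balance.

* `mzf2b_trace_quasiIdem` : over a commutative ring, an endomorphism `B` of a finite free module
  with `B * B = u • B` whose range is finite free (projective is what is used) and whose kernel
  is finite free has `trace B = u * finrank (range B)`.
* `mzf2b_half` : `M` finite free over a PID `R₀` of characteristic `0`; `e` an idempotent,
  `A` invertible commuting with `e`, `(A - 1) (A - ε₀) e = 0`, `ε₀ ≠ 1`, and
  `trace (A e) = ε₀ * trace (A⁻¹ e)`.  Then `2 * rank ((A - 1) e) = rank e`.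
-/
import Mathlib

set_option autoImplicit false
set_option linter.style.haveILetI false

namespace Fermat.Agent.MZ

open LinearMap Module

section quasiIdem

variable {R₀ : Type*} [CommRing R₀] {M : Type*} [AddCommGroup M] [Module R₀ M]

/-- trace of a "quasi-idempotent" `B * B = u • B` with projective range -/
theorem mzf2b_trace_quasiIdem [Module.Free R₀ M] [Module.Finite R₀ M]
    (B : Module.End R₀ M) (u : R₀) (hB : B * B = u • B)
    [Module.Free R₀ (LinearMap.range B)] [Module.Finite R₀ (LinearMap.range B)]
    [Module.Free R₀ (LinearMap.ker B)] [Module.Finite R₀ (LinearMap.ker B)] :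
    LinearMap.trace R₀ M B = u * (Module.finrank R₀ (LinearMap.range B) : R₀) := by
  classical
  -- a section of `B' : M → range B`
  obtain ⟨s, hs⟩ := Module.projective_lifting_property B.rangeRestrict
    (LinearMap.id : LinearMap.range B →ₗ[R₀] LinearMap.range B) B.surjective_rangeRestrict
  have hs' : ∀ y : LinearMap.range B, B.rangeRestrict (s y) = y := fun y =>
    LinearMap.congr_fun hs y
  have hsB : ∀ y : LinearMap.range B, B (s y) = (y : M) := fun y => by
    have := congrArg Subtype.val (hs' y)
    simpa using this
  set π : Module.End R₀ M := s.comp B.rangeRestrict with hπ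
  have hππ : IsIdempotentElem π := by
    show π * π = π
    ext x
    simp only [hπ, Module.End.mul_apply, LinearMap.comp_apply, hs']
  have hBπ : B * π = B := by
    ext x
    simp only [hπ, Module.End.mul_apply, LinearMap.comp_apply, hsB]
    rfl
  have hπB : π * B = u • π := by
    ext x
    simp only [hπ, Module.End.mul_apply, LinearMap.comp_apply, LinearMap.smul_apply]
    have h1 : B.rangeRestrict (B x) = u • B.rangeRestrict x := by
      apply Subtype.ext
      have := congrArg (fun f : Module.End R₀ M => f x) hB
      simpa using this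
    rw [h1, map_smul]
  -- kernel and range of `π`
  have hker : LinearMap.ker π = LinearMap.ker B := by
    ext x
    simp only [LinearMap.mem_ker]
    constructor
    · intro h
      have := congrArg (fun f : Module.End R₀ M => f x) hBπ
      simp only [Module.End.mul_apply] at this
      rw [← this, h, map_zero]
    · intro h
      have h0 : B.rangeRestrict x = 0 := Subtype.ext h
      simp only [hπ, LinearMap.comp_apply, h0, map_zero]
  have hsinj : Function.Injective s := by
    intro y y' h
    have := congrArg B.rangeRestrict h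
    rwa [hs', hs'] at this
  have hrange : LinearMap.range π = LinearMap.range s := by
    rw [hπ, LinearMap.range_comp, LinearMap.range_eq_top.2 B.surjective_rangeRestrict,
      Submodule.map_top]
  let eqv : LinearMap.range B ≃ₗ[R₀] LinearMap.range π :=
    (LinearEquiv.ofInjective s hsinj).trans (LinearEquiv.ofEq _ _ hrange.symm)
  haveI : Module.Free R₀ (LinearMap.range π) := Module.Free.of_equiv eqv
  haveI : Module.Finite R₀ (LinearMap.range π) := Module.Finite.equiv eqv
  haveI : Module.Free R₀ (LinearMap.ker π) := by rw [hker]; infer_instance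
  haveI : Module.Finite R₀ (LinearMap.ker π) := by rw [hker]; infer_instance
  have htr : LinearMap.trace R₀ M π = (Module.finrank R₀ (LinearMap.range π) : R₀) :=
    (LinearMap.IsIdempotentElem.isProj_range π hππ).trace
  have hrk : Module.finrank R₀ (LinearMap.range π) = Module.finrank R₀ (LinearMap.range B) :=
    (LinearEquiv.finrank_eq eqv).symm
  calc LinearMap.trace R₀ M B = LinearMap.trace R₀ M (B * π) := by rw [hBπ]
    _ = LinearMap.trace R₀ M (π * B) := LinearMap.trace_mul_comm R₀ B π
    _ = u * (Module.finrank R₀ (LinearMap.range B) : R₀) := by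
      rw [hπB, map_smul, htr, hrk, smul_eq_mul]

end quasiIdem

section half

variable {R₀ : Type*} [CommRing R₀] [IsDomain R₀] [IsPrincipalIdealRing R₀] [CharZero R₀]
  {M : Type*} [AddCommGroup M] [Module R₀ M] [Module.Free R₀ M] [Module.Finite R₀ M]

/-- **the balance**: the `ε₀`-part of `A` on `e M` has half the rank of `e M` -/
theorem mzf2b_half (e A Ai : Module.End R₀ M) (ε₀ : R₀) (hε : ε₀ ≠ 1)
    (he : e * e = e) (hAe : A * e = e * A) (hAiA : Ai * A = 1)
    (hloc : (A - 1) * (A - ε₀ • 1) * e = 0)
    (htr : LinearMap.trace R₀ M (A * e) = ε₀ * LinearMap.trace R₀ M (Ai * e)) :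
    2 * Module.finrank R₀ (LinearMap.range ((A - 1) * e)) =
      Module.finrank R₀ (LinearMap.range e) := by
  classical
  set u : R₀ := ε₀ - 1 with hu
  have hu0 : u ≠ 0 := sub_ne_zero.2 hε
  set B : Module.End R₀ M := (A - 1) * e with hB
  -- `(A - 1)² e = u (A - 1) e`
  have h1 : (A - 1) * (A - 1) * e = u • ((A - 1) * e) := by
    have : (A - 1) * (A - 1) * e = (A - 1) * (A - ε₀ • 1) * e + u • ((A - 1) * e) := by
      ext x
      simp only [Module.End.mul_apply, LinearMap.sub_apply, LinearMap.add_apply,
        LinearMap.smul_apply, Module.End.one_apply, map_sub, map_smul, hu]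
      module
    rw [this, hloc, zero_add]
  have hcomm : e * (A - 1) = (A - 1) * e := by
    rw [mul_sub, sub_mul, hAe, mul_one, one_mul]
  have hBB : B * B = u • B := by
    rw [hB]
    calc (A - 1) * e * ((A - 1) * e) = (A - 1) * (e * (A - 1)) * e := by
          simp only [mul_assoc]
      _ = (A - 1) * (A - 1) * (e * e) := by rw [hcomm]; simp only [mul_assoc]
      _ = u • ((A - 1) * e) := by rw [he, h1]
  have htB := mzf2b_trace_quasiIdem B u hBB
  have hte : LinearMap.trace R₀ M e = (Module.finrank R₀ (LinearMap.range e) : R₀) :=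
    (LinearMap.IsIdempotentElem.isProj_range e he).trace
  -- `ε₀ A⁻¹ e = (1 + ε₀ - A) e`
  have h2 : ε₀ • (Ai * e) = ((1 + ε₀) • (1 : Module.End R₀ M) - A) * e := by
    have h3 : Ai * ((A - 1) * (A - ε₀ • 1) * e) = 0 := by rw [hloc, mul_zero]
    have h4 : Ai * ((A - 1) * (A - ε₀ • 1) * e) =
        (A - (1 + ε₀) • (1 : Module.End R₀ M)) * e + ε₀ • (Ai * e) := by
      have : (A - 1) * (A - ε₀ • 1) = A * (A - (1 + ε₀) • (1 : Module.End R₀ M)) + ε₀ • 1 := by
        ext x
        simp only [Module.End.mul_apply, LinearMap.sub_apply, LinearMap.add_apply,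
          LinearMap.smul_apply, Module.End.one_apply, map_sub, map_smul]
        module
      rw [this, add_mul, mul_add, ← mul_assoc, ← mul_assoc, hAiA, one_mul, smul_mul_assoc,
        one_mul, mul_smul_comm]
    rw [h4] at h3
    have := eq_neg_of_add_eq_zero_right h3
    rw [this, ← neg_mul, neg_sub]
  have h5 : LinearMap.trace R₀ M (A * e) = LinearMap.trace R₀ M B + LinearMap.trace R₀ M e := by
    rw [hB, sub_mul, one_mul, map_sub, sub_add_cancel]
  have h6 : ε₀ * LinearMap.trace R₀ M (Ai * e) =
      (1 + ε₀) * LinearMap.trace R₀ M e - LinearMap.trace R₀ M (A * e) := by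
    rw [← smul_eq_mul, ← map_smul, h2, sub_mul, map_sub, smul_mul_assoc, one_mul, map_smul,
      smul_eq_mul]
  rw [h6, h5, htB, hte] at htr
  set m : ℕ := Module.finrank R₀ (LinearMap.range B) with hm
  set d : ℕ := Module.finrank R₀ (LinearMap.range e) with hd
  have h7 : u * ((2 * m : ℕ) : R₀) = u * ((d : ℕ) : R₀) := by
    push_cast
    have h8 : ε₀ = u + 1 := by rw [hu]; ring
    rw [h8] at htr
    clear_value u m d
    linear_combination htr
  exact_mod_cast mul_left_cancel₀ hu0 h7

end half

end Fermat.Agent.MZ
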