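/-
MAZUR / (F2) / [BAL2] (helper12, prefix `mzf2b_tw_`): service lemmas for the case `r = 2`.

* `mzf2b_tw_act`    : if `σ ζ = ζ ^ a` on `μ_{r^k}` then `χ_cyc(σ)` acts as `a` on `r^k`-torsion;
* `mzf2b_tw_unit`   : if `σ₀ i = -i` (`i² = -1`) then `χ_cyc(σ₀) - 1 = 2 · unit` in `ℤ_2`, `χ_cyc(σ₀) ≠ 1`;
* `mzf2b_tw_exists` : in the local setting `mzo_Ctx 2 O L A Γ` of [HOPF] some `σ ∈ Γ` moves `i`.
-/
import Mathlib
import Fermat.Agent.JT3.Algebra.CycloAdic
import Fermat.Agent.JT3.Tate.Module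
import Fermat.Agent.MZ.Hopf.Defs

set_option autoImplicit false
set_option linter.unusedSectionVars false
set_option linter.style.haveILetI false

noncomputable section

namespace Fermat.Agent.MZ

open Fermat.Agent.JT3

local notation "GQ" => (AlgebraicClosure ℚ ≃ₐ[ℚ] AlgebraicClosure ℚ)
local notation "Qbar" => AlgebraicClosure ℚ

/-- if `σ` raises the `r^k`-th roots of unity to the power `a`, then the cyclotomic character of
`σ` acts as `a` on the `r^k`-torsion of any abelian group -/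
theorem mzf2b_tw_act (r : ℕ) [hr : Fact r.Prime] (σ : GQ) (k a : ℕ)
    (h : ∀ μ : Qbar, μ ^ r ^ k = 1 → σ μ = μ ^ a) {J : Type*} [AddCommGroup J] {z : J}
    (hz : r ^ k • z = 0) : (PadicInt.toZModPow k (cya_chi r σ)).val • z = a • z := by
  haveI : NeZero (r ^ k) := ⟨pow_ne_zero _ hr.out.ne_zero⟩
  rw [cya_chi_toZModPow r σ h, tm_val_nsmul hz]

/-- an element of `G_ℚ` moving `i` has `χ_cyc - 1 = 2 · unit` in `ℤ_2` -/
theorem mzf2b_tw_unit (σ₀ : GQ) (i : Qbar) (hi : i * i = -1) (hσ : σ₀ i = -i) :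
    ∃ w w' : ℤ_[2], cya_chi 2 σ₀ - 1 = ((2 : ℕ) : ℤ_[2]) ^ 1 * w ∧ w' * w = 1 ∧
      cya_chi 2 σ₀ ≠ 1 := by
  have hi2 : i ^ 2 = -1 := by rw [sq, hi]
  have hi4 : i ^ 2 ^ 2 = 1 := by
    have : i ^ 2 ^ 2 = (i ^ 2) ^ 2 := by ring
    rw [this, hi2]; ring
  have h4 := cya_chi_spec 2 σ₀ (n := 2) hi4
  set c : ZMod (2 ^ 2) := PadicInt.toZModPow 2 (cya_chi 2 σ₀) with hc
  have h2ne : (2 : Qbar) ≠ 0 := two_ne_zero
  have hi0 : i ≠ 0 := by
    rintro rfl
    norm_num at hi
  have hlt : c.val < 4 := ZMod.val_lt c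
  rw [hσ] at h4
  have hv : c.val = 3 := by
    interval_cases hcv : c.val
    · exfalso
      rw [pow_zero] at h4
      have h5 : i = -1 := by rw [← neg_neg i, h4]
      rw [h5] at hi
      norm_num at hi
    · exfalso
      rw [pow_one] at h4
      have : (2 : Qbar) * i = 0 := by linear_combination -h4
      rcases mul_eq_zero.1 this with h5 | h5
      · exact h2ne h5
      · exact hi0 h5
    · exfalso
      rw [hi2] at h4
      have h5 : i = 1 := neg_injective h4
      rw [h5] at hi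
      norm_num at hi
    · rfl
  have hc3 : c = 3 := by
    rw [← ZMod.natCast_zmod_val c, hv]
    rfl
  -- `χ - 1` is divisible by `2`, exactly once
  set ε := cya_chi 2 σ₀ with hε
  have h1 : PadicInt.toZModPow 1 (ε - 1) = 0 := by
    rw [← PadicInt.cast_toZModPow 1 2 (by norm_num) (ε - 1), map_sub, map_one, ← hc, hc3]
    decide
  have h2 : PadicInt.toZModPow 2 (ε - 1) ≠ 0 := by
    rw [map_sub, map_one, ← hc, hc3]
    decide
  have hmem : ε - 1 ∈ Ideal.span {((2 : ℕ) : ℤ_[2]) ^ 1} := by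
    rw [← PadicInt.ker_toZModPow]
    exact h1
  obtain ⟨w, hw⟩ := Ideal.mem_span_singleton.1 hmem
  have hwunit : IsUnit w := by
    rw [PadicInt.isUnit_iff]
    by_contra hnorm
    have hlt1 : ‖w‖ < 1 := lt_of_le_of_ne (PadicInt.norm_le_one w) hnorm
    have hdvd : ((2 : ℕ) : ℤ_[2]) ∣ w := (PadicInt.norm_lt_one_iff_dvd w).1 hlt1
    obtain ⟨w₂, hw₂⟩ := hdvd
    apply h2
    have : ε - 1 ∈ Ideal.span {((2 : ℕ) : ℤ_[2]) ^ 2} := by
      rw [Ideal.mem_span_singleton]
      exact ⟨w₂, by rw [hw, hw₂]; ring⟩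
    rw [← PadicInt.ker_toZModPow] at this
    exact this
  obtain ⟨u, rfl⟩ := hwunit
  refine ⟨(u : ℤ_[2]), ((u⁻¹ : ℤ_[2]ˣ) : ℤ_[2]), hw, by rw [← Units.val_mul, inv_mul_cancel,
    Units.val_one], ?_⟩
  intro h
  apply h2
  rw [h, sub_self, map_zero]

/-- in the local setting of [HOPF] at `r = 2`, some element of `Γ` moves `i` -/
theorem mzf2b_tw_exists {O : Type} [CommRing O] {L : Type} [Field L] [Algebra O L]
    {A : ValuationSubring L} {Γ : Type} [Group Γ] [MulSemiringAction Γ L]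
    (ctx : mzo_Ctx 2 O L A Γ) (i : L) (hi : i * i = -1) : ∃ σ : Γ, σ • i = -i := by
  by_contra hcon
  push Not at hcon
  -- every `σ` fixes `i` (the only other root of `X² + 1` is `-i`)
  have hfix : ∀ σ : Γ, σ • i = i := by
    intro σ
    have h1 : (σ • i) * (σ • i) = -1 := by
      rw [← smul_mul', hi, smul_neg, smul_one]
    have h2 : (σ • i - i) * (σ • i + i) = 0 := by
      have : (σ • i - i) * (σ • i + i) = (σ • i) * (σ • i) - i * i := by ring
      rw [this, h1, hi, sub_self]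
    rcases mul_eq_zero.1 h2 with h3 | h3
    · exact sub_eq_zero.1 h3
    · exact absurd (eq_neg_of_add_eq_zero_left h3) (hcon σ)
  have h2mem : ((2 : ℕ) : L) ∈ A.nonunits := ctx.r_mem
  have h2ne : ((2 : ℕ) : L) ≠ 0 := ctx.r_ne
  have h2v : A.valuation ((2 : ℕ) : L) < 1 := (ValuationSubring.mem_nonunits_iff (A := A)).1 h2mem
  -- `i` is a unit of `A`
  have hiv : A.valuation i = 1 := by
    have h1 : A.valuation i * A.valuation i = 1 := by
      rw [← map_mul, hi, Valuation.map_neg, map_one]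
    rcases lt_trichotomy (A.valuation i) 1 with h | h | h
    · exfalso
      have : A.valuation i * A.valuation i < 1 := by
        calc A.valuation i * A.valuation i < 1 * 1 := mul_lt_mul'' h h zero_le zero_le
          _ = 1 := one_mul 1
      rw [h1] at this
      exact lt_irrefl _ this
    · exact h
    · exfalso
      have : 1 < A.valuation i * A.valuation i := by
        calc (1 : _) = 1 * 1 := (one_mul 1).symm
          _ < A.valuation i * A.valuation i := mul_lt_mul'' h h zero_le zero_le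
      rw [h1] at this
      exact lt_irrefl _ this
  -- `1 + i` is a fixed nonunit
  have hsq : (1 + i) * (1 + i) = ((2 : ℕ) : L) * i := by
    have : (1 + i) * (1 + i) = 1 + 2 * i + i * i := by ring
    rw [this, hi]; push_cast; ring
  have hv1 : A.valuation (1 + i) < 1 := by
    by_contra hge
    push Not at hge
    have : 1 ≤ A.valuation ((1 + i) * (1 + i)) := by
      rw [map_mul]
      calc (1 : _) = 1 * 1 := (one_mul 1).symm
        _ ≤ A.valuation (1 + i) * A.valuation (1 + i) := mul_le_mul' hge hge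
    rw [hsq, map_mul, hiv, mul_one] at this
    exact absurd h2v (not_lt.2 this)
  have hmem : (1 + i) ∈ A.nonunits := (ValuationSubring.mem_nonunits_iff (A := A)).2 hv1
  have hfix1 : ∀ σ : Γ, σ • (1 + i) = 1 + i := fun σ => by rw [smul_add, smul_one, hfix σ]
  have hdiv := ctx.unif (1 + i) hmem hfix1
  -- then `i / 2 ∈ A`
  have hv2 : A.valuation ((1 + i) / ((2 : ℕ) : L)) ≤ 1 :=
    (ValuationSubring.valuation_le_one_iff A _).2 hdiv
  have hv3 : A.valuation (((1 + i) / ((2 : ℕ) : L)) * ((1 + i) / ((2 : ℕ) : L))) ≤ 1 := by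
    rw [map_mul]
    calc _ ≤ (1 : _) * 1 := mul_le_mul' hv2 hv2
      _ = 1 := one_mul 1
  have hcalc : ((1 + i) / ((2 : ℕ) : L)) * ((1 + i) / ((2 : ℕ) : L)) = i / ((2 : ℕ) : L) := by
    rw [div_mul_div_comm, hsq]
    field_simp
  rw [hcalc, map_div₀, hiv] at hv3
  -- contradiction: `1 / v(2) ≤ 1` with `v(2) < 1`
  have hv2pos : A.valuation ((2 : ℕ) : L) ≠ 0 := (map_ne_zero _).2 h2ne
  have : (1 : _) ≤ A.valuation ((2 : ℕ) : L) := by
    have := mul_le_mul' hv3 (le_refl (A.valuation ((2 : ℕ) : L)))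
    rwa [div_mul_cancel₀ _ hv2pos, one_mul] at this
  exact absurd h2v (not_lt.2 this)

end Fermat.Agent.MZ
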